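import Fermat.Agent.Pseudo.TraceGQ
import Fermat.Agent.Jac.HeckeCommUncond
import Fermat.Agent.Jac.LamSupport
import Fermat.Agent.Jac.LamSpan
import Fermat.Agent.Res.OpenStab
import Fermat.Agent.Res.Formal

/-!
# Program T, node (T2d): the universal trace on `J₀(N)(ℚ̄)`, in hypothesis form on `(K)` and `S37`

Instantiation of `Pseudo/TraceGQ.lean` at `J = JZero N` (Prelude Hecke module structure
`heckeModuleBar N`; Galois/Hecke commutation `Jac.smulCommClass_GQ_heckeAlg`), `Lam = Jac.Lam N`,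
`TLam = Jac.TLam N`.  The only hypotheses left are

* `hK : Jac.KummerMaps N` (Program J's `(K)`),
* `h37 : H37 N p` (the frozen statement S37 at `(N, p)`),
* `hcheb : Cheb.ChebExact` (landed as `Cheb.chebExact`; kept as a hypothesis to keep the import
  closure small).

Exports `traceJ`, `traceJ_frob`, `traceJ_compat`, `traceJ_one`, `traceJ_comm`, `traceJ_mul`,
`traceJ_complexConjugation`, `traceJ_inertia`, `traceJ_continuous`.
-/

set_option autoImplicit false
set_option linter.style.haveILetI false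
set_option linter.unusedSectionVars false

open ModularCurve

namespace Fermat.Agent.Pseudo.JZ

open Fermat.Agent.Jac Fermat.Agent.Pseudo.GQSys

local notation "Qb" => AlgebraicClosure ℚ
local notation "GQ" => (AlgebraicClosure ℚ ≃ₐ[ℚ] AlgebraicClosure ℚ)

/-- The frozen statement S37 at `(N, p)`, after its commutation hypothesis. -/
def H37 (N p : ℕ) [NeZero N] : Prop :=
  letI := heckeModuleBar N
  ∀ (_ : SMulCommClass GQ HeckeAlg (JZero N)),
    SpecializationExists (K := ℚ) (L := Qb) N p (JZero N)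

section

variable {N p : ℕ} [NeZero N] [hp : Fact p.Prime] {S : Finset ℕ}

theorem frobeniusQuadratic_of_H37 (h37 : H37 N p) :
    letI := heckeModuleBar N
    haveI := smulCommClass_GQ_heckeAlg N
    FrobeniusQuadratic (K := ℚ) (L := Qb) N p (JZero N) := by
  letI := heckeModuleBar N
  haveI := smulCommClass_GQ_heckeAlg N
  exact Fermat.Agent.Res.frobeniusQuadratic_of_specializationExists N p (JZero N) (h37 inferInstance)

theorem unramifiedOutside_of_H37 (h37 : H37 N p) :
    letI := heckeModuleBar N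
    haveI := smulCommClass_GQ_heckeAlg N
    UnramifiedOutside (K := ℚ) (L := Qb) N p (JZero N) := by
  letI := heckeModuleBar N
  haveI := smulCommClass_GQ_heckeAlg N
  exact Fermat.Agent.Res.unramifiedOutside_of_specializationExists N p (JZero N) (h37 inferInstance)

/-- `(K)` in the shape consumed by `GQSys.traceSystem`. -/
theorem kummerMaps_heckeGen (hK : KummerMaps N) :
    letI := heckeModuleBar N
    ∀ M : ℕ, 0 < M → ∃ rho : Lam N →+ JZero N,
      (∀ lam, rho lam = 0 ↔ ∃ mu, lam = M • mu) ∧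
      ∀ (ℓ : Nat.Primes) (lam : Lam N), rho (TLam N ℓ lam) = heckeGen ℓ • rho lam := by
  letI := heckeModuleBar N
  intro M hM
  obtain ⟨rho, h1, h2⟩ := hK M hM
  exact ⟨rho, h1, fun ℓ lam => by rw [h2 ℓ lam]; exact (heckeGen_smul_eq N ℓ (rho lam)).symm⟩

theorem fg_Lam : (⊤ : AddSubgroup (Lam N)).FG := by
  haveI := finite_Lam N
  have h : (⊤ : Submodule ℤ (Lam N)).FG := Module.Finite.fg_top
  rw [Submodule.fg_iff_addSubgroup_fg] at h
  exact h

variable (hpS : p ∈ S) (hNS : ∀ q : ℕ, q.Prime → q ∣ N → q ∈ S)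
  (hK : KummerMaps N) (h37 : H37 N p) (hcheb : Fermat.Agent.Cheb.ChebExact)

/-- The universal trace of `g ∈ G_ℚ` modulo `p^m` on `J₀(N)`: a prime `ℓ ∉ S` such that
`TLam N ℓ ≡ "trace of g"` modulo `p^m`. -/
noncomputable def traceJ (m : ℕ) (g : GQ) : Idx S :=
  letI := heckeModuleBar N
  haveI := smulCommClass_GQ_heckeAlg N
  traceIdx (J := JZero N) (TLam := fun ℓ => TLam N ℓ) hpS hNS (frobeniusQuadratic_of_H37 h37)
    hcheb (Fermat.Agent.Res.exists_finite_fixing_JZero N) (kummerMaps_heckeGen hK) fg_Lam m g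

local notation "τJ" => traceJ hpS hNS hK h37 hcheb

theorem traceJ_frob (m : ℕ) (i : Idx S) (A : ValuationSubring Qb)
    (hA : A.LiesOverPrime (i.1 : ℕ)) {φ : GQ} (hφ : A.IsFrobeniusAt φ (i.1 : ℕ)) :
    ModEq (p ^ m) (TLam N i.1) (TLam N (τJ m φ).1) := by
  letI := heckeModuleBar N
  haveI := smulCommClass_GQ_heckeAlg N
  exact traceIdx_frob (J := JZero N) (TLam := fun ℓ => TLam N ℓ) hpS hNS
    (frobeniusQuadratic_of_H37 h37) hcheb (Fermat.Agent.Res.exists_finite_fixing_JZero N)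
    (kummerMaps_heckeGen hK) fg_Lam m i A hA hφ

theorem traceJ_compat {m m' : ℕ} (h : m ≤ m') (g : GQ) :
    ModEq (p ^ m) (TLam N (τJ m' g).1) (TLam N (τJ m g).1) := by
  letI := heckeModuleBar N
  haveI := smulCommClass_GQ_heckeAlg N
  exact traceIdx_compat (J := JZero N) (TLam := fun ℓ => TLam N ℓ) hpS hNS
    (frobeniusQuadratic_of_H37 h37) hcheb (Fermat.Agent.Res.exists_finite_fixing_JZero N)
    (kummerMaps_heckeGen hK) fg_Lam h g

theorem traceJ_one (m : ℕ) : ModEq (p ^ m) (TLam N (τJ m 1).1) 2 := by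
  letI := heckeModuleBar N
  haveI := smulCommClass_GQ_heckeAlg N
  exact traceIdx_one (J := JZero N) (TLam := fun ℓ => TLam N ℓ) hpS hNS
    (frobeniusQuadratic_of_H37 h37) hcheb (Fermat.Agent.Res.exists_finite_fixing_JZero N)
    (kummerMaps_heckeGen hK) fg_Lam m

theorem traceJ_comm (m : ℕ) (g h : GQ) :
    ModEq (p ^ m) (TLam N (τJ m (g * h)).1) (TLam N (τJ m (h * g)).1) := by
  letI := heckeModuleBar N
  haveI := smulCommClass_GQ_heckeAlg N
  exact traceIdx_comm (J := JZero N) (TLam := fun ℓ => TLam N ℓ) hpS hNS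
    (frobeniusQuadratic_of_H37 h37) hcheb (Fermat.Agent.Res.exists_finite_fixing_JZero N)
    (kummerMaps_heckeGen hK) fg_Lam m g h

theorem traceJ_mul (m : ℕ) (g h : GQ) :
    ModEq (p ^ m)
      (TLam N (τJ m (g * h)).1 + Cyclo.cycloLift (p ^ m) h • TLam N (τJ m (g * h⁻¹)).1)
      (TLam N (τJ m g).1 * TLam N (τJ m h).1) := by
  letI := heckeModuleBar N
  haveI := smulCommClass_GQ_heckeAlg N
  exact traceIdx_mul (J := JZero N) (TLam := fun ℓ => TLam N ℓ) hpS hNS
    (frobeniusQuadratic_of_H37 h37) hcheb (Fermat.Agent.Res.exists_finite_fixing_JZero N)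
    (kummerMaps_heckeGen hK) fg_Lam m g h

theorem traceJ_complexConjugation (m : ℕ) :
    ModEq (p ^ m) (TLam N (τJ m complexConjugation).1) 0 := by
  letI := heckeModuleBar N
  haveI := smulCommClass_GQ_heckeAlg N
  exact traceIdx_complexConjugation (J := JZero N) (TLam := fun ℓ => TLam N ℓ) hpS hNS
    (frobeniusQuadratic_of_H37 h37) hcheb (Fermat.Agent.Res.exists_finite_fixing_JZero N)
    (kummerMaps_heckeGen hK) fg_Lam m

theorem traceJ_inertia (m : ℕ) {q : ℕ} (hq : q.Prime) (hqNp : ¬ q ∣ N * p)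
    (A : ValuationSubring Qb) (hA : A.LiesOverPrime q) {σ : GQ}
    (hσ : σ ∈ A.inertiaSubgroupIn ℚ) (g : GQ) :
    ModEq (p ^ m) (TLam N (τJ m (σ * g)).1) (TLam N (τJ m g).1) := by
  letI := heckeModuleBar N
  haveI := smulCommClass_GQ_heckeAlg N
  exact traceIdx_inertia (J := JZero N) (TLam := fun ℓ => TLam N ℓ) hpS hNS
    (frobeniusQuadratic_of_H37 h37) hcheb (Fermat.Agent.Res.exists_finite_fixing_JZero N)
    (kummerMaps_heckeGen hK) fg_Lam (unramifiedOutside_of_H37 h37) m hq hqNp A hA hσ g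

theorem traceJ_continuous (m : ℕ) :
    ∃ L : IntermediateField ℚ Qb, FiniteDimensional ℚ L ∧
      ∀ g g' : GQ, (∀ x ∈ L, g x = g' x) →
        ModEq (p ^ m) (TLam N (τJ m g).1) (TLam N (τJ m g').1) := by
  letI := heckeModuleBar N
  haveI := smulCommClass_GQ_heckeAlg N
  exact traceIdx_continuous (J := JZero N) (TLam := fun ℓ => TLam N ℓ) hpS hNS
    (frobeniusQuadratic_of_H37 h37) hcheb (Fermat.Agent.Res.exists_finite_fixing_JZero N)
    (kummerMaps_heckeGen hK) fg_Lam m

end

end Fermat.Agent.Pseudo.JZ
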