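import Fermat.Agent.Pseudo.TraceLimitGQ
import Fermat.Agent.Pseudo.TraceJZero
import Fermat.Agent.Cheb.Cross.ChebExactMain

/-!
# Program T, final glue at `J₀(N)`: S30 and S31 from `(K)`, `S37` and `(T1)(a)`

`Pseudo/TraceLimitGQ.lean` (helper16) at `X := JZero N` (Prelude Hecke module structure
`heckeModuleBar N`, Galois/Hecke commutation `Jac.smulCommClass_GQ_heckeAlg`), `Lam := Jac.Lam N`,
`TLam := Jac.TLam N`.  All side hypotheses are discharged (`Pseudo/TraceJZero.lean`) except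

* `hK : Jac.KummerMaps N` (Program J's `(K)`),
* `h37 : JZ.H37 N p` (the frozen statement S37 at `(N, p)`),
* `hΨ : LamPsiHyp N S` ((T1)(a): the comparison `TLam ℓ ↦ T_ℓ` of Hecke algebras).

Exports: `heckePseudoChar_JZero`, `heckeTraceFunction_JZero`, `s30_of_K` (the frozen S30
conclusion) and `s31_of_K` (the frozen S31 conclusion).
-/

set_option autoImplicit false
set_option linter.style.haveILetI false
set_option linter.unusedSectionVars false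

open ModularCurve CuspForm Polynomial

namespace Fermat.Agent.Pseudo.JZ

open Fermat.Agent.Jac Fermat.Agent.Pseudo.GQSys

local notation "Qb" => AlgebraicClosure ℚ
local notation "GQ" => (AlgebraicClosure ℚ ≃ₐ[ℚ] AlgebraicClosure ℚ)

/-- **(T1)(a) in hypothesis form**: a subalgebra of `End_ℤ(Λ)` containing the transfer operators
`TLam ℓ` (`ℓ ∉ S`) with a ring homomorphism to the Hecke algebra sending `TLam ℓ` to `T_ℓ`. -/
def LamPsiHyp (N : ℕ) [NeZero N] (S : Finset ℕ) : Prop :=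
  ∃ (A : Subalgebra ℤ (Module.End ℤ (Lam N))) (hA : ∀ i : Idx S, TLam N i.1 ∈ A)
    (Ψ : A →+* heckeAlgebra N 2 (↑S : Set ℕ)),
    ∀ (ℓ : ℕ) (hℓ : ℓ.Prime) (hℓN : ¬ ℓ ∣ N) (hℓS : ℓ ∉ (↑S : Set ℕ)),
      Ψ ⟨TLam N ⟨ℓ, hℓ⟩, hA ⟨⟨ℓ, hℓ⟩, hℓS⟩⟩ = heckeAlgebra.T hℓ hℓN hℓS

section

variable {N p : ℕ} [NeZero N] [hp : Fact p.Prime] {S : Finset ℕ}

theorem isTorsionFree_Lam : Module.IsTorsionFree ℤ (Lam N) := by
  refine ⟨fun r hr x y hxy => ?_⟩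
  have hr0 : r ≠ 0 := hr.ne_zero
  apply Subtype.ext
  apply AddMonoidHom.ext
  intro γ
  have h := congrArg (fun z : Lam N => (z : Additive (CongruenceSubgroup.Gamma0 N) →+ ℤ) γ) hxy
  simp only [Submodule.coe_smul, AddMonoidHom.smul_apply, smul_eq_mul] at h
  exact mul_left_cancel₀ hr0 h

theorem free_Lam : Module.Free ℤ (Lam N) := by
  haveI := finite_Lam N
  haveI := isTorsionFree_Lam (N := N)
  exact Module.free_of_finite_type_torsion_free'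

/-- The Hecke pseudo-character at `J₀(N)`: the input of `s30_of_heckePseudoChar`. -/
theorem heckePseudoChar_JZero (hpS : p ∈ S) (hNS : ∀ q : ℕ, q.Prime → q ∣ N → q ∈ S)
    (hK : KummerMaps N) (h37 : H37 N p) (hΨ : LamPsiHyp N S)
    (𝒪' : Type) [CommRing 𝒪'] [IsDomain 𝒪'] [IsDiscreteValuationRing 𝒪']
    [IsAdicComplete (IsLocalRing.maximalIdeal 𝒪') 𝒪']
    (hp𝒪' : (p : 𝒪') ∈ IsLocalRing.maximalIdeal 𝒪')
    (χ : heckeAlgebra N 2 (↑S : Set ℕ) →+* 𝒪') :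
    Nonempty (HeckePseudoChar p N S 𝒪' χ) := by
  letI := heckeModuleBar N
  haveI := smulCommClass_GQ_heckeAlg N
  haveI := finite_Lam N
  haveI := free_Lam (N := N)
  obtain ⟨A, hA, Ψ, hΨ'⟩ := hΨ
  exact GQLimit.heckePseudoChar_of_K (X := JZero N) (TLam := fun ℓ => TLam N ℓ) hpS hNS
    (frobeniusQuadratic_of_H37 h37) (unramifiedOutside_of_H37 h37) Fermat.Agent.Cheb.chebExact
    (Fermat.Agent.Res.exists_finite_fixing_JZero N) (kummerMaps_heckeGen hK) A hA Ψ hΨ' 𝒪' hp𝒪' χ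

/-- The Hecke trace function at `J₀(N)`: the input of `s31_of_heckeTraceFunction`. -/
theorem heckeTraceFunction_JZero (hpS : p ∈ S) (hNS : ∀ q : ℕ, q.Prime → q ∣ N → q ∈ S)
    (hK : KummerMaps N) (h37 : H37 N p) (hΨ : LamPsiHyp N S)
    (T : Type) [CommRing T] [IsLocalRing T] [IsAdicComplete (IsLocalRing.maximalIdeal T) T]
    (hpT : (p : T) ∈ IsLocalRing.maximalIdeal T)
    (π : heckeAlgebra N 2 (↑S : Set ℕ) →+* T) :
    Nonempty (HeckeTraceFunction N S T π) := by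
  letI := heckeModuleBar N
  haveI := smulCommClass_GQ_heckeAlg N
  haveI := finite_Lam N
  haveI := free_Lam (N := N)
  obtain ⟨A, hA, Ψ, hΨ'⟩ := hΨ
  exact GQLimit.heckeTraceFunction_of_K (X := JZero N) (TLam := fun ℓ => TLam N ℓ) hpS hNS
    (frobeniusQuadratic_of_H37 h37) (unramifiedOutside_of_H37 h37) Fermat.Agent.Cheb.chebExact
    (Fermat.Agent.Res.exists_finite_fixing_JZero N) (kummerMaps_heckeGen hK) A hA Ψ hΨ' T hpT π

end

/-- **S30 (frozen conclusion) from `(K)`, S37 and (T1)(a).** -/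
theorem s30_of_K (p : ℕ) [Fact p.Prime] (N : ℕ) [NeZero N] (S : Finset ℕ)
    (hpS : p ∈ S) (hNS : ∀ q : ℕ, q.Prime → q ∣ N → q ∈ S)
    (hK : KummerMaps N) (h37 : H37 N p) (hΨ : LamPsiHyp N S)
    (𝒪' : Type) [CommRing 𝒪'] [IsDomain 𝒪'] [IsDiscreteValuationRing 𝒪']
    [IsAdicComplete (IsLocalRing.maximalIdeal 𝒪') 𝒪'] [Finite (IsLocalRing.ResidueField 𝒪')]
    [CharZero 𝒪'] (hp𝒪' : (p : 𝒪') ∈ IsLocalRing.maximalIdeal 𝒪')
    (χ : CuspForm.heckeAlgebra N 2 (↑S : Set ℕ) →+* 𝒪') :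
    ∃ (𝒪'' : Type) (_ : CommRing 𝒪'') (_ : IsDomain 𝒪'') (_ : IsDiscreteValuationRing 𝒪'')
      (_ : IsAdicComplete (IsLocalRing.maximalIdeal 𝒪'') 𝒪'')
      (_ : Finite (IsLocalRing.ResidueField 𝒪'')) (_ : CharZero 𝒪'')
      (_ : Algebra 𝒪' 𝒪'') (_ : Module.Finite 𝒪' 𝒪'') (_ : IsLocalHom (algebraMap 𝒪' 𝒪'')),
    Function.Injective (algebraMap 𝒪' 𝒪'') ∧
    ∃ ρ : GaloisRepAdic 𝒪'',
      (∀ (ℓ : ℕ) (hℓ : ℓ.Prime) (hℓN : ¬ ℓ ∣ N) (hℓS : ℓ ∉ (↑S : Set ℕ)),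
        ∀ A : ValuationSubring (AlgebraicClosure ℚ), A.LiesOverPrime ℓ →
          ∀ σ : AlgebraicClosure ℚ ≃ₐ[ℚ] AlgebraicClosure ℚ, A.IsFrobeniusAt σ ℓ →
            LinearMap.charpoly (ρ.ρ σ) =
              X ^ 2 - C (algebraMap 𝒪' 𝒪'' (χ (CuspForm.heckeAlgebra.T hℓ hℓN hℓS))) * X
                + C ((ℓ : 𝒪''))) ∧
      (∀ q : ℕ, q.Prime → ¬ q ∣ N → q ≠ p → ρ.IsUnramifiedAt q) := by
  obtain ⟨H⟩ := heckePseudoChar_JZero hpS hNS hK h37 hΨ 𝒪' hp𝒪' χ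
  exact s30_of_heckePseudoChar p N S 𝒪' χ H

section S31

variable {p : ℕ} {N : ℕ} [NeZero N] {S : Finset ℕ}
  {𝒪 : Type} [CommRing 𝒪] [IsDomain 𝒪] [IsDiscreteValuationRing 𝒪]
  [IsAdicComplete (IsLocalRing.maximalIdeal 𝒪) 𝒪]
  {θ : CuspForm.heckeAlgebra N 2 (↑S : Set ℕ) →+* IsLocalRing.ResidueField 𝒪}
  {T : Type} [CommRing T] [IsLocalRing T] [IsNoetherianRing T]
  [IsAdicComplete (IsLocalRing.maximalIdeal T) T] [Algebra 𝒪 T] [IsLocalHom (algebraMap 𝒪 T)]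
  [Module.Finite 𝒪 T] [Module.Free 𝒪 T]

/-- **S31 (frozen conclusion) from `(K)`, S37 and (T1)(a).** -/
theorem s31_of_K (hp : p.Prime) (hK : KummerMaps N)
    (h37 : haveI : Fact p.Prime := ⟨hp⟩; H37 N p) (hΨ : LamPsiHyp N S)
    (hp𝒪 : (p : 𝒪) ∈ IsLocalRing.maximalIdeal 𝒪) (hpS : p ∈ S)
    (hNS : ∀ q : ℕ, q.Prime → q ∣ N → q ∈ S)
    (H : CuspForm.HeckeGaloisRepDatum N (↑S : Set ℕ) 𝒪 θ T)
    (q : ℕ) (hq : q.Prime) (hqS : q ∉ S) :
    H.ρ.IsUnramifiedAt q := by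
  haveI : Fact p.Prime := ⟨hp⟩
  have hpT : (p : T) ∈ IsLocalRing.maximalIdeal T := by
    have h : algebraMap 𝒪 T (p : 𝒪) ∈ IsLocalRing.maximalIdeal T := by
      rw [IsLocalRing.mem_maximalIdeal, mem_nonunits_iff] at hp𝒪 ⊢
      exact fun hu => hp𝒪 (isUnit_of_map_unit (algebraMap 𝒪 T) _ hu)
    simpa using h
  obtain ⟨F⟩ := heckeTraceFunction_JZero hpS hNS hK h37 hΨ T hpT H.π
  exact s31_of_heckeTraceFunction Fermat.Agent.Cheb.chebExact hNS H F q hq hqS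

end S31

end Fermat.Agent.Pseudo.JZ
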