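/-
Program T, (T1)(a) plugged (helper15): the hypothesis `LamPsiHyp N S` of `Pseudo/FinalJZero.lean`
holds unconditionally, by `Jac/LamPsi.lean`.  Consequently `s30_of_K` / `s31_of_K` depend only on
`(K) = Jac.KummerMaps N` and on S37.
-/
import Fermat.Agent.Pseudo.FinalJZero
import Fermat.Agent.Jac.LamPsi

set_option autoImplicit false

namespace Fermat.Agent.Pseudo.JZ

open Fermat.Agent.Jac Fermat.Agent.Pseudo.GQSys CuspForm

/-- **(T1)(a)**: `LamPsiHyp N S` holds. -/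
theorem lamPsiHyp (N : ℕ) [NeZero N] (S : Finset ℕ) : LamPsiHyp N S := by
  refine ⟨TLamAlg N (↑S : Set ℕ),
    fun i => TLam_mem_TLamAlg N (↑S : Set ℕ) (fun h => i.2 (Finset.mem_coe.mp h)),
    lamPsi N (↑S : Set ℕ), ?_⟩
  intro ℓ hℓ hℓN hℓS
  exact lamPsi_TLam_of_not_dvd N (↑S : Set ℕ) (l := ⟨ℓ, hℓ⟩) hℓN hℓS

end Fermat.Agent.Pseudo.JZ
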