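import Fermat.Agent.Pseudo.CycloPow

/-!
# Program T, node (T-CYC): the `p`-adic cyclotomic character

Built on `Cyclo.cycloN n : GQ →* (ZMod n)ˣ` (`Pseudo/CycloPow.lean`).

* `cycAdic p : GQ →* ℤ_[p]ˣ` (Mathlib's `cyclotomicCharacter` on `ℚ̄`), with
  `toZModPow_cycAdic` (reduction mod `p ^ m` is `cycloN (p ^ m)`), `cycAdic_frobenius`
  (`= ℓ` at Frobenius elements over `ℓ ≠ p`), `cycAdic_eq_one_of_mem_inertia`,
  `cycAdic_complexConjugation` (`= -1`), `exists_finite_level_cycAdic` (continuity).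
* For a commutative ring `R`, `I`-adically complete, with `(p : R) ∈ I`:
  `zpTo I hpI : ℤ_[p] →+* R` (`mk_zpTo`, `zpTo_sub_mem`), and
  `cycR I hpI : GQ →* Rˣ` with `cycR_frobenius`, `cycR_eq_one_of_mem_inertia`,
  `cycR_complexConjugation`, `cycR_sub_cycloLift_mem` (congruence with `cycloLift (p ^ m)` modulo
  `I ^ m`), `exists_finite_level_cycR` (continuity).
-/

set_option autoImplicit false
set_option linter.style.haveILetI false
set_option linter.unusedSectionVars false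

open Fermat.Agent.Pseudo.Cyclo

noncomputable section

namespace Fermat.Agent.Pseudo.Cyc

local notation "Qb" => AlgebraicClosure ℚ
local notation "GQ" => (AlgebraicClosure ℚ ≃ₐ[ℚ] AlgebraicClosure ℚ)

section Adic

variable (p : ℕ) [hp : Fact p.Prime]

local instance neZero_p : NeZero p := ⟨hp.out.ne_zero⟩

/-- The `p`-adic cyclotomic character of `G_ℚ`. -/
def cycAdic : GQ →* ℤ_[p]ˣ :=
  MonoidHom.mk'
    (fun σ => cyclotomicCharacter Qb p (σ : Qb ≃+* Qb))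
    (fun a b => by rw [← map_mul]; congr 1)

theorem cycAdic_apply (σ : GQ) : cycAdic p σ = cyclotomicCharacter Qb p (σ : Qb ≃+* Qb) := rfl

/-- The `p`-adic cyclotomic character reduces to the mod `p ^ m` characters. -/
theorem toZModPow_cycAdic (m : ℕ) (σ : GQ) :
    PadicInt.toZModPow m ((cycAdic p σ : ℤ_[p]ˣ) : ℤ_[p]) =
      ((cycloN (p ^ m) σ : (ZMod (p ^ m))ˣ) : ZMod (p ^ m)) :=
  cyclotomicCharacter.toZModPow p (σ : Qb ≃+* Qb)

/-- The action of `σ` on `p`-power roots of unity. -/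
theorem cycAdic_spec (σ : GQ) {m : ℕ} {ζ : Qb} (hζ : ζ ^ p ^ m = 1) :
    σ ζ = ζ ^ (PadicInt.toZModPow m ((cycAdic p σ : ℤ_[p]ˣ) : ℤ_[p])).val := by
  rw [toZModPow_cycAdic]
  exact cycloN_spec (p ^ m) σ hζ

theorem not_dvd_pow_of_ne {ℓ : ℕ} (hℓ : ℓ.Prime) (hℓp : ℓ ≠ p) (m : ℕ) : ¬ ℓ ∣ p ^ m :=
  fun h => hℓp ((Nat.prime_dvd_prime_iff_eq hℓ hp.out).1 (hℓ.dvd_of_dvd_pow h))

/-- **The `p`-adic cyclotomic character of a Frobenius element at `ℓ ≠ p` is `ℓ`.** -/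
theorem cycAdic_frobenius {ℓ : ℕ} (hℓ : ℓ.Prime) (hℓp : ℓ ≠ p)
    (A : ValuationSubring Qb) (hA : A.LiesOverPrime ℓ) {φ : GQ} (hφ : A.IsFrobeniusAt φ ℓ) :
    ((cycAdic p φ : ℤ_[p]ˣ) : ℤ_[p]) = (ℓ : ℤ_[p]) := by
  refine PadicInt.ext_of_toZModPow.mp fun m => ?_
  rw [toZModPow_cycAdic, map_natCast]
  exact cycloN_frobenius (p ^ m) hℓ (not_dvd_pow_of_ne p hℓ hℓp m) A hA hφ

/-- The `p`-adic cyclotomic character is trivial on inertia groups at `ℓ ≠ p`. -/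
theorem cycAdic_eq_one_of_mem_inertia {ℓ : ℕ} (hℓ : ℓ.Prime) (hℓp : ℓ ≠ p)
    (A : ValuationSubring Qb) (hA : A.LiesOverPrime ℓ) {σ : GQ}
    (hσ : σ ∈ A.inertiaSubgroupIn ℚ) : cycAdic p σ = 1 := by
  apply Units.ext
  refine PadicInt.ext_of_toZModPow.mp fun m => ?_
  rw [toZModPow_cycAdic,
    cycloN_eq_one_of_mem_inertia (p ^ m) hℓ (not_dvd_pow_of_ne p hℓ hℓp m) A hA hσ,
    Units.val_one, Units.val_one, map_one]

/-- **Complex conjugation** has `p`-adic cyclotomic character `-1`. -/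
theorem cycAdic_complexConjugation : cycAdic p complexConjugation = -1 := by
  apply Units.ext
  refine PadicInt.ext_of_toZModPow.mp fun m => ?_
  rw [toZModPow_cycAdic, cycloN_complexConjugation, Units.val_neg, Units.val_one, map_neg,
    map_one]

/-- **Continuity** of the `p`-adic cyclotomic character: modulo `p ^ m` it factors through a
finite extension of `ℚ`. -/
theorem exists_finite_level_cycAdic (m : ℕ) :
    ∃ L : IntermediateField ℚ Qb, FiniteDimensional ℚ L ∧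
      ∀ σ τ : GQ, (∀ x ∈ L, σ x = τ x) →
        ((cycAdic p σ : ℤ_[p]ˣ) : ℤ_[p]) - ((cycAdic p τ : ℤ_[p]ˣ) : ℤ_[p]) ∈
          Ideal.span {(p : ℤ_[p]) ^ m} := by
  obtain ⟨L, hL, h⟩ := exists_finite_level_cycloN (p ^ m)
  refine ⟨L, hL, fun σ τ hστ => ?_⟩
  rw [← PadicInt.ker_toZModPow, RingHom.mem_ker, map_sub, toZModPow_cycAdic, toZModPow_cycAdic,
    h σ τ hστ, sub_self]

end Adic

section Complete

variable {p : ℕ} [hp : Fact p.Prime]
variable {R : Type*} [CommRing R] (I : Ideal R) [IsAdicComplete I R]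

local instance neZero_p' : NeZero p := ⟨hp.out.ne_zero⟩

theorem natCast_pow_quotient_eq_zero (hpI : (p : R) ∈ I) (n : ℕ) :
    ((p ^ n : ℕ) : R ⧸ I ^ n) = 0 := by
  rw [← map_natCast (Ideal.Quotient.mk (I ^ n)), Ideal.Quotient.eq_zero_iff_mem, Nat.cast_pow]
  exact Ideal.pow_mem_pow hpI n

/-- The ring homomorphism `ℤ/pⁿ → R/Iⁿ` when `p ∈ I`. -/
def zmodToQuot (hpI : (p : R) ∈ I) (n : ℕ) : ZMod (p ^ n) →+* R ⧸ I ^ n :=
  ZMod.castHom (ringChar.dvd (natCast_pow_quotient_eq_zero I hpI n)) (R ⧸ I ^ n)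

theorem zmodToQuot_compat (hpI : (p : R) ∈ I) {m n : ℕ} (hle : m ≤ n) :
    (Ideal.Quotient.factorPow I hle).comp ((zmodToQuot I hpI n).comp (PadicInt.toZModPow n)) =
      (zmodToQuot I hpI m).comp (PadicInt.toZModPow m) := by
  rw [← PadicInt.zmod_cast_comp_toZModPow m n hle, ← RingHom.comp_assoc, ← RingHom.comp_assoc]
  congr 1
  exact RingHom.ext_zmod _ _

/-- The canonical ring homomorphism `ℤ_p → R` for an `I`-adically complete ring `R` with
`p ∈ I`. -/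
def zpTo (hpI : (p : R) ∈ I) : ℤ_[p] →+* R :=
  IsAdicComplete.liftRingHom I
    (fun n => (zmodToQuot I hpI n).comp (PadicInt.toZModPow n))
    (fun {_ _} hle => zmodToQuot_compat I hpI hle)

theorem mk_zpTo (hpI : (p : R) ∈ I) (n : ℕ) (x : ℤ_[p]) :
    Ideal.Quotient.mk (I ^ n) (zpTo I hpI x) = zmodToQuot I hpI n (PadicInt.toZModPow n x) :=
  IsAdicComplete.mk_liftRingHom I _ (fun {_ _} hle => zmodToQuot_compat I hpI hle) n x

/-- `zpTo` is continuous: it maps `pⁿ ℤ_p` into `Iⁿ`. -/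
theorem zpTo_sub_mem (hpI : (p : R) ∈ I) (n : ℕ) {x y : ℤ_[p]}
    (h : x - y ∈ Ideal.span {(p : ℤ_[p]) ^ n}) : zpTo I hpI x - zpTo I hpI y ∈ I ^ n := by
  rw [← PadicInt.ker_toZModPow, RingHom.mem_ker, map_sub, sub_eq_zero] at h
  rw [← Ideal.Quotient.eq_zero_iff_mem, map_sub, mk_zpTo, mk_zpTo, h, sub_self]

/-- `zpTo x` is congruent modulo `I ^ n` to (the image of) any integer congruent to `x` modulo
`p ^ n`. -/
theorem zpTo_sub_intCast_mem (hpI : (p : R) ∈ I) (n : ℕ) (x : ℤ_[p]) (a : ℤ)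
    (h : PadicInt.toZModPow n x = (a : ZMod (p ^ n))) : zpTo I hpI x - (a : R) ∈ I ^ n := by
  rw [← Ideal.Quotient.eq_zero_iff_mem, map_sub, mk_zpTo, h, map_intCast, map_intCast, sub_self]

/-- The `p`-adic cyclotomic character with values in an `I`-adically complete ring `R` with
`p ∈ I`. -/
def cycR (hpI : (p : R) ∈ I) : GQ →* Rˣ :=
  (Units.map (zpTo I hpI : ℤ_[p] →* R)).comp (cycAdic p)

theorem coe_cycR (hpI : (p : R) ∈ I) (σ : GQ) :
    ((cycR I hpI σ : Rˣ) : R) = zpTo I hpI ((cycAdic p σ : ℤ_[p]ˣ) : ℤ_[p]) := rfl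

/-- `cycR φ = ℓ` for a Frobenius element at `ℓ ≠ p`. -/
theorem cycR_frobenius (hpI : (p : R) ∈ I) {ℓ : ℕ} (hℓ : ℓ.Prime) (hℓp : ℓ ≠ p)
    (A : ValuationSubring Qb) (hA : A.LiesOverPrime ℓ) {φ : GQ} (hφ : A.IsFrobeniusAt φ ℓ) :
    ((cycR I hpI φ : Rˣ) : R) = (ℓ : R) := by
  rw [coe_cycR, cycAdic_frobenius p hℓ hℓp A hA hφ, map_natCast]

/-- `cycR` is trivial on inertia groups at `ℓ ≠ p`. -/
theorem cycR_eq_one_of_mem_inertia (hpI : (p : R) ∈ I) {ℓ : ℕ} (hℓ : ℓ.Prime) (hℓp : ℓ ≠ p)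
    (A : ValuationSubring Qb) (hA : A.LiesOverPrime ℓ) {σ : GQ}
    (hσ : σ ∈ A.inertiaSubgroupIn ℚ) : cycR I hpI σ = 1 := by
  rw [cycR, MonoidHom.comp_apply, cycAdic_eq_one_of_mem_inertia p hℓ hℓp A hA hσ, map_one]

/-- `cycR` of complex conjugation is `-1`. -/
theorem cycR_complexConjugation (hpI : (p : R) ∈ I) : cycR I hpI complexConjugation = -1 := by
  apply Units.ext
  rw [coe_cycR, cycAdic_complexConjugation, Units.val_neg, Units.val_one, Units.val_neg,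
    Units.val_one, map_neg, map_one]

/-- **Congruence** with the integral lift of the mod `p ^ m` character. -/
theorem cycR_sub_cycloLift_mem (hpI : (p : R) ∈ I) (m : ℕ) (σ : GQ) :
    ((cycR I hpI σ : Rˣ) : R) - ((cycloLift (p ^ m) σ : ℤ) : R) ∈ I ^ m := by
  rw [coe_cycR]
  refine zpTo_sub_intCast_mem I hpI m _ _ ?_
  rw [toZModPow_cycAdic, cycloLift_cast]

/-- **Continuity** of `cycR`: modulo `I ^ m` it factors through a finite extension of `ℚ`. -/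
theorem exists_finite_level_cycR (hpI : (p : R) ∈ I) (m : ℕ) :
    ∃ L : IntermediateField ℚ Qb, FiniteDimensional ℚ L ∧
      ∀ σ τ : GQ, (∀ x ∈ L, σ x = τ x) →
        ((cycR I hpI σ : Rˣ) : R) - ((cycR I hpI τ : Rˣ) : R) ∈ I ^ m := by
  obtain ⟨L, hL, h⟩ := exists_finite_level_cycAdic p m
  exact ⟨L, hL, fun σ τ hστ => zpTo_sub_mem I hpI m (h σ τ hστ)⟩

end Complete

end Fermat.Agent.Pseudo.Cyc

end
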