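import Mathlib

/-!
# Program T, node (T2a): the universal trace modulo `M`, abstract core

`G` a group acting additively on an abelian group `X`; `T i : End X` (`i : I`) operators commuting
with `G` ("Hecke operators"); `Lam` an abelian group with operators `TL i`; `rho : Lam → X` additive,
intertwining `TL i` and `T i`, with kernel `M • Lam`; `d : G → ℤ` multiplicative modulo `M`.

Let `X' = span rho` be the `G`-span of `rho Lam`.  Hypothesis (`cheb`, from Chebotarev and the
Eichler–Shimura relation in the application): for every `g : G` there is an index `i` with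
`g² - T_i g + d(g) = 0` on `X'`.

Output: `tau g : I` with `T (tau g) = g + d(g) g⁻¹` on `X'`, hence (the right-hand side being a
"Hecke operator", it commutes with `G`) the pseudo-representation identities, transferred to `Lam`
modulo `M`:

* `tau_one` : `TL (tau 1) ≡ 2`;
* `tau_comm` : `TL (tau (g h)) ≡ TL (tau (h g))`;
* `tau_mul` : `TL (tau (g h)) + d(h) TL (tau (g h⁻¹)) ≡ TL (tau g) TL (tau h)`;
* `tau_conj` : `TL (tau c) ≡ 0` if `c² = 1`, `d(c) ≡ -1`;
* `tau_inertia` : `TL (tau (s g)) ≡ TL (tau g)` if `s` acts trivially on `X'` and `d(s) ≡ 1`;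
* `tau_wellDefined` : `TL i ≡ TL (tau g)` for every index `i` satisfying the relation of `g`;
* `tau_congr` : `TL (tau g) ≡ TL (tau g')` if `g, g'` act in the same way on `X'`, `d g ≡ d g'`;

where `A ≡ B` means `ModEq D.M A B : ∀ lam, ∃ mu, A lam - B lam = M • mu`
(`= ∃ Q, A - B = M • Q` when `Lam` is torsion free: `ModEq.exists_eq_smul`).
-/

set_option autoImplicit false

namespace Fermat.Agent.Pseudo

/-! ### Intertwined endomorphisms -/

section Intertwined

variable {Lam X : Type*} [AddCommGroup Lam] [AddCommGroup X]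

/-- `A : End Lam` and `B : End X` are intertwined by `rho`. -/
def Intertwined (rho : Lam →+ X) (A : Module.End ℤ Lam) (B : Module.End ℤ X) : Prop :=
  ∀ lam, rho (A lam) = B (rho lam)

namespace Intertwined

variable {rho : Lam →+ X} {A A' : Module.End ℤ Lam} {B B' : Module.End ℤ X}

theorem zero : Intertwined rho 0 0 := fun lam => by simp

theorem one : Intertwined rho 1 1 := fun _ => rfl

theorem add (h : Intertwined rho A B) (h' : Intertwined rho A' B') :
    Intertwined rho (A + A') (B + B') := fun lam => by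
  rw [LinearMap.add_apply, LinearMap.add_apply, map_add, h lam, h' lam]

theorem sub (h : Intertwined rho A B) (h' : Intertwined rho A' B') :
    Intertwined rho (A - A') (B - B') := fun lam => by
  rw [LinearMap.sub_apply, LinearMap.sub_apply, map_sub, h lam, h' lam]

theorem neg (h : Intertwined rho A B) : Intertwined rho (-A) (-B) := fun lam => by
  rw [LinearMap.neg_apply, LinearMap.neg_apply, map_neg, h lam]

theorem mul (h : Intertwined rho A B) (h' : Intertwined rho A' B') :
    Intertwined rho (A * A') (B * B') := fun lam => by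
  rw [Module.End.mul_apply, Module.End.mul_apply, h, h']

theorem zsmul (n : ℤ) (h : Intertwined rho A B) : Intertwined rho (n • A) (n • B) := fun lam => by
  rw [LinearMap.smul_apply, LinearMap.smul_apply, map_zsmul, h lam]

theorem nsmul (n : ℕ) (h : Intertwined rho A B) : Intertwined rho (n • A) (n • B) := fun lam => by
  rw [LinearMap.smul_apply, LinearMap.smul_apply, map_nsmul, h lam]

theorem intCast (n : ℤ) : Intertwined rho (n : Module.End ℤ Lam) (n : Module.End ℤ X) := by
  have := (one (rho := rho)).zsmul n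
  rwa [zsmul_one, zsmul_one] at this

theorem natCast (n : ℕ) : Intertwined rho (n : Module.End ℤ Lam) (n : Module.End ℤ X) := by
  have := (one (rho := rho)).nsmul n
  rwa [nsmul_one, nsmul_one] at this

theorem pow (h : Intertwined rho A B) (n : ℕ) : Intertwined rho (A ^ n) (B ^ n) := by
  induction n with
  | zero => rw [pow_zero, pow_zero]; exact one
  | succ n ih => rw [pow_succ, pow_succ]; exact ih.mul h

end Intertwined

/-- Congruence of endomorphisms of `Lam` modulo `M`, elementwise. -/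
def ModEq (M : ℕ) (A B : Module.End ℤ Lam) : Prop := ∀ lam, ∃ mu, A lam - B lam = M • mu

namespace ModEq

variable {M : ℕ} {A B C A' B' : Module.End ℤ Lam}

theorem refl (A : Module.End ℤ Lam) : ModEq M A A := fun lam => ⟨0, by simp⟩

theorem symm (h : ModEq M A B) : ModEq M B A := fun lam => by
  obtain ⟨mu, hmu⟩ := h lam
  exact ⟨-mu, by rw [smul_neg, ← hmu, neg_sub]⟩

theorem trans (h : ModEq M A B) (h' : ModEq M B C) : ModEq M A C := fun lam => by
  obtain ⟨mu, hmu⟩ := h lam
  obtain ⟨mu', hmu'⟩ := h' lam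
  exact ⟨mu + mu', by rw [smul_add, ← hmu, ← hmu', sub_add_sub_cancel]⟩

theorem of_eq (h : A = B) : ModEq M A B := h ▸ refl A

theorem add (h : ModEq M A B) (h' : ModEq M A' B') : ModEq M (A + A') (B + B') := fun lam => by
  obtain ⟨mu, hmu⟩ := h lam
  obtain ⟨mu', hmu'⟩ := h' lam
  refine ⟨mu + mu', ?_⟩
  rw [smul_add, ← hmu, ← hmu', LinearMap.add_apply, LinearMap.add_apply]
  abel

theorem sub (h : ModEq M A B) (h' : ModEq M A' B') : ModEq M (A - A') (B - B') := fun lam => by
  obtain ⟨mu, hmu⟩ := h lam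
  obtain ⟨mu', hmu'⟩ := h' lam
  refine ⟨mu - mu', ?_⟩
  rw [smul_sub, ← hmu, ← hmu', LinearMap.sub_apply, LinearMap.sub_apply]
  abel

theorem zsmul (n : ℤ) (h : ModEq M A B) : ModEq M (n • A) (n • B) := fun lam => by
  obtain ⟨mu, hmu⟩ := h lam
  refine ⟨n • mu, ?_⟩
  rw [LinearMap.smul_apply, LinearMap.smul_apply, ← smul_sub, hmu, smul_comm]

theorem mul_left (C : Module.End ℤ Lam) (h : ModEq M A B) : ModEq M (C * A) (C * B) := fun lam => by
  obtain ⟨mu, hmu⟩ := h lam
  refine ⟨C mu, ?_⟩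
  rw [Module.End.mul_apply, Module.End.mul_apply, ← map_sub, hmu, map_nsmul]

theorem mul_right (C : Module.End ℤ Lam) (h : ModEq M A B) : ModEq M (A * C) (B * C) :=
  fun lam => h (C lam)

theorem mul (h : ModEq M A B) (h' : ModEq M A' B') : ModEq M (A * A') (B * B') :=
  (mul_right A' h).trans (mul_left B h')

/-- `ModEq` as a congruence modulo `M • End Lam`, for torsion free `Lam`. -/
theorem exists_eq_smul (htf : ∀ x : Lam, M • x = 0 → x = 0) (h : ModEq M A B) :
    ∃ Q : Module.End ℤ Lam, A - B = M • Q := by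
  classical
  choose f hf using h
  have hinj : ∀ x y : Lam, M • x = M • y → x = y := fun x y hxy =>
    sub_eq_zero.mp (htf _ (by rw [smul_sub, hxy, sub_self]))
  refine ⟨⟨⟨f, fun x y => ?_⟩, fun n x => ?_⟩, ?_⟩
  · apply hinj
    rw [smul_add, ← hf, ← hf, ← hf, map_add, map_add]
    abel
  · apply hinj
    rw [RingHom.id_apply, smul_comm, ← hf, ← hf, map_zsmul, map_zsmul, smul_sub]
  · ext lam
    rw [LinearMap.sub_apply, LinearMap.smul_apply, hf]
    rfl

end ModEq

/-- **Transfer.** If `A` and `B` are intertwined by `rho`, `ker rho ⊆ M • Lam`, and `B` vanishes on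
`rho Lam`, then `A ≡ 0` modulo `M`. -/
theorem Intertwined.modEq_zero {rho : Lam →+ X} {M : ℕ}
    (hker : ∀ lam, rho lam = 0 → ∃ mu, lam = M • mu)
    {A : Module.End ℤ Lam} {B : Module.End ℤ X} (h : Intertwined rho A B)
    (hB : ∀ lam, B (rho lam) = 0) : ModEq M A 0 := fun lam => by
  obtain ⟨mu, hmu⟩ := hker (A lam) (by rw [h lam, hB lam])
  exact ⟨mu, by rw [LinearMap.zero_apply, sub_zero, hmu]⟩

theorem Intertwined.modEq {rho : Lam →+ X} {M : ℕ}
    (hker : ∀ lam, rho lam = 0 → ∃ mu, lam = M • mu)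
    {A A' : Module.End ℤ Lam} {B B' : Module.End ℤ X} (h : Intertwined rho A B)
    (h' : Intertwined rho A' B') (hB : ∀ lam, B (rho lam) = B' (rho lam)) : ModEq M A A' :=
  fun lam => by
    obtain ⟨mu, hmu⟩ := (h.sub h').modEq_zero hker
      (fun lam => by rw [LinearMap.sub_apply, hB lam, sub_self]) lam
    exact ⟨mu, by rw [← hmu, LinearMap.zero_apply, sub_zero, LinearMap.sub_apply]⟩

end Intertwined

/-! ### The data -/

/-- The abstract data of the universal trace modulo `M`. -/
structure TraceData (G Lam X I : Type*) [Group G] [AddCommGroup Lam] [AddCommGroup X]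
    [DistribMulAction G X] where
  /-- the modulus -/
  M : ℕ
  /-- the Hecke operators on `X` -/
  T : I → Module.End ℤ X
  /-- the Hecke operators on `Lam` -/
  TL : I → Module.End ℤ Lam
  /-- the comparison map -/
  rho : Lam →+ X
  /-- an integral lift of the cyclotomic character modulo `M` -/
  d : G → ℤ
  T_smul : ∀ (i : I) (g : G) (x : X), T i (g • x) = g • T i x
  rho_TL : ∀ (i : I) (lam : Lam), rho (TL i lam) = T i (rho lam)
  ker_rho : ∀ lam : Lam, rho lam = 0 ↔ ∃ mu, lam = M • mu
  d_one : (M : ℤ) ∣ d 1 - 1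
  d_mul : ∀ g h : G, (M : ℤ) ∣ d (g * h) - d g * d h
  /-- Chebotarev + Eichler–Shimura: every `g` satisfies `g² - T_i g + d(g) = 0` on the `G`-span of
  `rho Lam`, for some index `i`. -/
  cheb : ∀ g : G, ∃ i : I, ∀ (a : G) (lam : Lam),
    g • g • a • rho lam - T i (g • a • rho lam) + d g • a • rho lam = 0

namespace TraceData

variable {G Lam X I : Type*} [Group G] [AddCommGroup Lam] [AddCommGroup X]
  [DistribMulAction G X] (D : TraceData G Lam X I)

/-- The `G`-span of `rho Lam`. -/
def span : AddSubgroup X := AddSubgroup.closure {x | ∃ (a : G) (lam : Lam), x = a • D.rho lam}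

theorem smul_rho_mem (a : G) (lam : Lam) : a • D.rho lam ∈ D.span :=
  AddSubgroup.subset_closure ⟨a, lam, rfl⟩

theorem rho_mem (lam : Lam) : D.rho lam ∈ D.span := by
  have := D.smul_rho_mem 1 lam
  rwa [one_smul] at this

/-- Induction principle for `span`. -/
theorem span_induction {P : X → Prop} (h0 : P 0) (hadd : ∀ x y, P x → P y → P (x + y))
    (hneg : ∀ x, P x → P (-x)) (hgen : ∀ (a : G) (lam : Lam), P (a • D.rho lam))
    {x : X} (hx : x ∈ D.span) : P x := by
  induction hx using AddSubgroup.closure_induction with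
  | mem y hy => obtain ⟨a, lam, rfl⟩ := hy; exact hgen a lam
  | zero => exact h0
  | add y z _ _ hy hz => exact hadd y z hy hz
  | neg y _ hy => exact hneg y hy

theorem smul_mem (g : G) {x : X} (hx : x ∈ D.span) : g • x ∈ D.span := by
  refine D.span_induction (P := fun x => g • x ∈ D.span) ?_ ?_ ?_ ?_ hx
  · rw [smul_zero]; exact D.span.zero_mem
  · intro y z hy hz; rw [smul_add]; exact D.span.add_mem hy hz
  · intro y hy; rw [smul_neg]; exact D.span.neg_mem hy
  · intro a lam; rw [← mul_smul]; exact D.smul_rho_mem _ _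

theorem T_mem (i : I) {x : X} (hx : x ∈ D.span) : D.T i x ∈ D.span := by
  refine D.span_induction (P := fun x => D.T i x ∈ D.span) ?_ ?_ ?_ ?_ hx
  · rw [map_zero]; exact D.span.zero_mem
  · intro y z hy hz; rw [map_add]; exact D.span.add_mem hy hz
  · intro y hy; rw [map_neg]; exact D.span.neg_mem hy
  · intro a lam; rw [D.T_smul, ← D.rho_TL]; exact D.smul_rho_mem _ _

theorem M_smul_rho (lam : Lam) : D.M • D.rho lam = 0 := by
  rw [← map_nsmul]
  exact (D.ker_rho _).mpr ⟨lam, rfl⟩

theorem M_smul_eq_zero {x : X} (hx : x ∈ D.span) : D.M • x = 0 := by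
  refine D.span_induction (P := fun x => D.M • x = 0) ?_ ?_ ?_ ?_ hx
  · rw [smul_zero]
  · intro y z hy hz; rw [smul_add, hy, hz, add_zero]
  · intro y hy; rw [smul_neg, hy, neg_zero]
  · intro a lam; rw [smul_comm, D.M_smul_rho, smul_zero]

/-- Integers congruent modulo `M` act in the same way on `span`. -/
theorem zsmul_congr {m n : ℤ} (h : (D.M : ℤ) ∣ m - n) {x : X} (hx : x ∈ D.span) :
    m • x = n • x := by
  obtain ⟨c, hc⟩ := h
  have : m = n + c * D.M := by rw [mul_comm, ← hc]; ring
  rw [this, add_smul, mul_smul, natCast_zsmul, D.M_smul_eq_zero hx, smul_zero, add_zero]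

/-- `i` is a Frobenius index for `g`: `g² - T_i g + d(g) = 0` on `span`. -/
def IsFrobIndex (g : G) (i : I) : Prop :=
  ∀ x ∈ D.span, g • g • x - D.T i (g • x) + D.d g • x = 0

theorem isFrobIndex_of_gen {g : G} {i : I} (h : ∀ (a : G) (lam : Lam),
    g • g • a • D.rho lam - D.T i (g • a • D.rho lam) + D.d g • a • D.rho lam = 0) :
    D.IsFrobIndex g i := by
  intro x hx
  refine D.span_induction
    (P := fun x => g • g • x - D.T i (g • x) + D.d g • x = 0) ?_ ?_ ?_ ?_ hx
  · simp
  · intro y z hy hz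
    have : g • g • (y + z) - D.T i (g • (y + z)) + D.d g • (y + z) =
        (g • g • y - D.T i (g • y) + D.d g • y) + (g • g • z - D.T i (g • z) + D.d g • z) := by
      simp only [smul_add, map_add]; abel
    rw [this, hy, hz, add_zero]
  · intro y hy
    have : g • g • (-y) - D.T i (g • (-y)) + D.d g • (-y) =
        -(g • g • y - D.T i (g • y) + D.d g • y) := by
      simp only [smul_neg, map_neg]; abel
    rw [this, hy, neg_zero]
  · intro a lam; exact h a lam

/-- The chosen Frobenius index of `g`. -/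
noncomputable def tau (g : G) : I := (D.cheb g).choose

theorem isFrobIndex_tau (g : G) : D.IsFrobIndex g (D.tau g) :=
  D.isFrobIndex_of_gen (D.cheb g).choose_spec

/-- A Frobenius index of `g` acts on `span` as `g + d(g) g⁻¹`. -/
theorem IsFrobIndex.apply {g : G} {i : I} (h : D.IsFrobIndex g i) {x : X} (hx : x ∈ D.span) :
    D.T i x = g • x + D.d g • g⁻¹ • x := by
  have h1 := h (g⁻¹ • x) (D.smul_mem g⁻¹ hx)
  rw [smul_inv_smul, sub_add_eq_add_sub, sub_eq_zero] at h1
  exact h1.symm

theorem T_tau_apply (g : G) {x : X} (hx : x ∈ D.span) :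
    D.T (D.tau g) x = g • x + D.d g • g⁻¹ • x :=
  (D.isFrobIndex_tau g).apply D hx

/-! ### The identities on `span` -/

section Identities

theorem d_mul_smul (g h : G) {x : X} (hx : x ∈ D.span) :
    D.d (g * h) • x = D.d g • D.d h • x := by
  rw [← mul_smul]
  exact D.zsmul_congr (D.d_mul g h) hx

theorem d_one_smul {x : X} (hx : x ∈ D.span) : D.d 1 • x = x := by
  rw [D.zsmul_congr D.d_one hx, one_smul]

theorem T_tau_one {x : X} (hx : x ∈ D.span) : D.T (D.tau 1) x = (2 : ℤ) • x := by
  rw [D.T_tau_apply 1 hx, inv_one, one_smul, D.d_one_smul hx, two_smul]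

theorem T_tau_comm (g h : G) {x : X} (hx : x ∈ D.span) :
    D.T (D.tau (g * h)) x = D.T (D.tau (h * g)) x := by
  have h1 : D.T (D.tau (g * h)) x = g⁻¹ • D.T (D.tau (g * h)) (g • x) := by
    rw [D.T_smul, inv_smul_smul]
  rw [h1, D.T_tau_apply (g * h) (D.smul_mem g hx), D.T_tau_apply (h * g) hx, smul_add]
  congr 1
  · rw [mul_smul, inv_smul_smul, mul_smul]
  · rw [mul_inv_rev, mul_smul, inv_smul_smul, smul_comm, mul_inv_rev, mul_smul]
    exact D.zsmul_congr (by
      have h2 := D.d_mul g h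
      have h3 := D.d_mul h g
      have : D.d (g * h) - D.d (h * g) =
          (D.d (g * h) - D.d g * D.d h) - (D.d (h * g) - D.d h * D.d g) := by ring
      rw [this]
      exact dvd_sub h2 h3) (D.smul_mem _ (D.smul_mem _ hx))

theorem T_tau_mul (g h : G) {x : X} (hx : x ∈ D.span) :
    D.T (D.tau (g * h)) x + D.d h • D.T (D.tau (g * h⁻¹)) x =
      D.T (D.tau g) (D.T (D.tau h) x) := by
  have hh : D.T (D.tau h) x ∈ D.span := D.T_mem _ hx
  -- right-hand side, using that `T (tau h)` commutes with `g⁻¹`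
  have hR : D.T (D.tau g) (D.T (D.tau h) x) =
      g • h • x + D.d h • g • h⁻¹ • x + D.d g • h • g⁻¹ • x +
        D.d g • D.d h • h⁻¹ • g⁻¹ • x := by
    rw [D.T_tau_apply g hh, ← D.T_smul _ g⁻¹, D.T_tau_apply h hx,
      D.T_tau_apply h (D.smul_mem g⁻¹ hx), smul_add, smul_add]
    rw [smul_comm g (D.d h)]
    abel
  have hL1 : D.T (D.tau (g * h)) x = g • h • x + D.d g • D.d h • h⁻¹ • g⁻¹ • x := by
    rw [D.T_tau_apply (g * h) hx, mul_smul, mul_inv_rev, mul_smul,
      D.d_mul_smul g h (D.smul_mem _ (D.smul_mem _ hx))]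
  have hL2 : D.d h • D.T (D.tau (g * h⁻¹)) x =
      D.d h • g • h⁻¹ • x + D.d g • h • g⁻¹ • x := by
    rw [D.T_tau_apply (g * h⁻¹) hx, smul_add, mul_smul, mul_inv_rev, inv_inv, mul_smul]
    congr 1
    have hy : h • g⁻¹ • x ∈ D.span := D.smul_mem _ (D.smul_mem _ hx)
    rw [← mul_smul]
    refine D.zsmul_congr ?_ hy
    -- `d h * d (g h⁻¹) ≡ d g`
    have h2 := D.d_mul (g * h⁻¹) h
    rw [inv_mul_cancel_right] at h2
    have : D.d h * D.d (g * h⁻¹) - D.d g = -(D.d g - D.d (g * h⁻¹) * D.d h) := by ring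
    rw [this]
    exact (dvd_neg).mpr h2
  rw [hR, hL1, hL2]
  abel

theorem T_tau_conj {c : G} (hc : c * c = 1) (hdc : (D.M : ℤ) ∣ D.d c + 1) {x : X}
    (hx : x ∈ D.span) : D.T (D.tau c) x = 0 := by
  have hinv : c⁻¹ = c := inv_eq_of_mul_eq_one_left hc
  rw [D.T_tau_apply c hx, hinv,
    D.zsmul_congr (m := D.d c) (n := -1) (by simpa using hdc) (D.smul_mem c hx), neg_smul,
    one_smul, add_neg_cancel]

theorem T_tau_inertia {s : G} (hs : ∀ y ∈ D.span, s • y = y) (hds : (D.M : ℤ) ∣ D.d s - 1)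
    (g : G) {x : X} (hx : x ∈ D.span) : D.T (D.tau (s * g)) x = D.T (D.tau g) x := by
  have hsinv : s⁻¹ • x = x := by
    rw [inv_smul_eq_iff, hs x hx]
  rw [D.T_tau_apply (s * g) hx, D.T_tau_apply g hx, mul_smul, hs _ (D.smul_mem g hx),
    mul_inv_rev, mul_smul, hsinv]
  congr 1
  refine D.zsmul_congr ?_ (D.smul_mem _ hx)
  have h2 := D.d_mul s g
  have : D.d (s * g) - D.d g = (D.d (s * g) - D.d s * D.d g) + (D.d s - 1) * D.d g := by ring
  rw [this]
  exact dvd_add h2 (Dvd.dvd.mul_right hds _)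

theorem IsFrobIndex.T_eq {g : G} {i : I} (h : D.IsFrobIndex g i) {x : X} (hx : x ∈ D.span) :
    D.T i x = D.T (D.tau g) x := by
  rw [h.apply D hx, D.T_tau_apply g hx]

theorem T_tau_congr {g g' : G} (hgg' : ∀ y ∈ D.span, g • y = g' • y)
    (hd : (D.M : ℤ) ∣ D.d g - D.d g') {x : X} (hx : x ∈ D.span) :
    D.T (D.tau g) x = D.T (D.tau g') x := by
  have hinv : g⁻¹ • x = g'⁻¹ • x := by
    rw [inv_smul_eq_iff, hgg' _ (D.smul_mem _ hx), smul_inv_smul]
  rw [D.T_tau_apply g hx, D.T_tau_apply g' hx, hgg' x hx, hinv]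
  congr 1
  exact D.zsmul_congr hd (D.smul_mem _ hx)

end Identities

/-! ### Transfer to `Lam` -/

section Transfer

theorem intertwined_TL (i : I) : Intertwined D.rho (D.TL i) (D.T i) := D.rho_TL i

theorem ker_rho' : ∀ lam, D.rho lam = 0 → ∃ mu, lam = D.M • mu := fun lam => (D.ker_rho lam).mp

/-- General transfer: intertwined operators that agree on `span` are congruent modulo `M`. -/
theorem modEq_of_eq_on_span {A A' : Module.End ℤ Lam} {B B' : Module.End ℤ X}
    (h : Intertwined D.rho A B) (h' : Intertwined D.rho A' B')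
    (hB : ∀ x ∈ D.span, B x = B' x) : ModEq D.M A A' :=
  h.modEq D.ker_rho' h' fun lam => hB _ (D.rho_mem lam)

theorem tau_one : ModEq D.M (D.TL (D.tau 1)) 2 := by
  refine D.modEq_of_eq_on_span (D.intertwined_TL _) (B' := 2) ?_ ?_
  · have := Intertwined.intCast (rho := D.rho) 2
    simpa using this
  · intro x hx
    rw [D.T_tau_one hx]
    rw [show (2 : Module.End ℤ X) = ((2 : ℤ) : Module.End ℤ X) by norm_num, ← zsmul_one,
      LinearMap.smul_apply, Module.End.one_apply]

theorem tau_comm (g h : G) : ModEq D.M (D.TL (D.tau (g * h))) (D.TL (D.tau (h * g))) :=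
  D.modEq_of_eq_on_span (D.intertwined_TL _) (D.intertwined_TL _) fun _ hx => D.T_tau_comm g h hx

theorem tau_mul (g h : G) :
    ModEq D.M (D.TL (D.tau (g * h)) + D.d h • D.TL (D.tau (g * h⁻¹)))
      (D.TL (D.tau g) * D.TL (D.tau h)) := by
  refine D.modEq_of_eq_on_span ((D.intertwined_TL _).add ((D.intertwined_TL _).zsmul _))
    ((D.intertwined_TL _).mul (D.intertwined_TL _)) ?_
  intro x hx
  rw [LinearMap.add_apply, LinearMap.smul_apply, Module.End.mul_apply]
  exact D.T_tau_mul g h hx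

theorem tau_conj {c : G} (hc : c * c = 1) (hdc : (D.M : ℤ) ∣ D.d c + 1) :
    ModEq D.M (D.TL (D.tau c)) 0 :=
  D.modEq_of_eq_on_span (D.intertwined_TL _) Intertwined.zero fun _ hx => by
    rw [D.T_tau_conj hc hdc hx, LinearMap.zero_apply]

theorem tau_inertia {s : G} (hs : ∀ y ∈ D.span, s • y = y) (hds : (D.M : ℤ) ∣ D.d s - 1) (g : G) :
    ModEq D.M (D.TL (D.tau (s * g))) (D.TL (D.tau g)) :=
  D.modEq_of_eq_on_span (D.intertwined_TL _) (D.intertwined_TL _)
    fun _ hx => D.T_tau_inertia hs hds g hx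

theorem tau_wellDefined {g : G} {i : I} (h : D.IsFrobIndex g i) :
    ModEq D.M (D.TL i) (D.TL (D.tau g)) :=
  D.modEq_of_eq_on_span (D.intertwined_TL _) (D.intertwined_TL _) fun _ hx => h.T_eq D hx

theorem tau_congr {g g' : G} (hgg' : ∀ y ∈ D.span, g • y = g' • y)
    (hd : (D.M : ℤ) ∣ D.d g - D.d g') : ModEq D.M (D.TL (D.tau g)) (D.TL (D.tau g')) :=
  D.modEq_of_eq_on_span (D.intertwined_TL _) (D.intertwined_TL _)
    fun _ hx => D.T_tau_congr hgg' hd hx

end Transfer

/-! ### The same identities for arbitrary Frobenius indices -/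

section Indices

theorem IsFrobIndex.modEq {g : G} {i j : I} (h : D.IsFrobIndex g i) (h' : D.IsFrobIndex g j) :
    ModEq D.M (D.TL i) (D.TL j) :=
  (D.tau_wellDefined h).trans (D.tau_wellDefined h').symm

theorem frob_one {i : I} (h : D.IsFrobIndex 1 i) : ModEq D.M (D.TL i) 2 :=
  (D.tau_wellDefined h).trans D.tau_one

theorem frob_comm {g h : G} {i j : I} (hi : D.IsFrobIndex (g * h) i)
    (hj : D.IsFrobIndex (h * g) j) : ModEq D.M (D.TL i) (D.TL j) :=
  ((D.tau_wellDefined hi).trans (D.tau_comm g h)).trans (D.tau_wellDefined hj).symm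

theorem frob_mul {g h : G} {i j k l : I} (hi : D.IsFrobIndex (g * h) i)
    (hj : D.IsFrobIndex (g * h⁻¹) j) (hk : D.IsFrobIndex g k) (hl : D.IsFrobIndex h l) :
    ModEq D.M (D.TL i + D.d h • D.TL j) (D.TL k * D.TL l) :=
  (((D.tau_wellDefined hi).add ((D.tau_wellDefined hj).zsmul _)).trans (D.tau_mul g h)).trans
    ((D.tau_wellDefined hk).mul (D.tau_wellDefined hl)).symm

theorem frob_conj {c : G} {i : I} (hi : D.IsFrobIndex c i) (hc : c * c = 1)
    (hdc : (D.M : ℤ) ∣ D.d c + 1) : ModEq D.M (D.TL i) 0 :=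
  (D.tau_wellDefined hi).trans (D.tau_conj hc hdc)

theorem frob_congr {g g' : G} {i j : I} (hi : D.IsFrobIndex g i) (hj : D.IsFrobIndex g' j)
    (hgg' : ∀ y ∈ D.span, g • y = g' • y) (hd : (D.M : ℤ) ∣ D.d g - D.d g') :
    ModEq D.M (D.TL i) (D.TL j) :=
  ((D.tau_wellDefined hi).trans (D.tau_congr hgg' hd)).trans (D.tau_wellDefined hj).symm

theorem frob_inertia {s g : G} {i j : I} (hi : D.IsFrobIndex (s * g) i) (hj : D.IsFrobIndex g j)
    (hs : ∀ y ∈ D.span, s • y = y) (hds : (D.M : ℤ) ∣ D.d s - 1) :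
    ModEq D.M (D.TL i) (D.TL j) :=
  ((D.tau_wellDefined hi).trans (D.tau_inertia hs hds g)).trans (D.tau_wellDefined hj).symm

end Indices

end TraceData

end Fermat.Agent.Pseudo
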