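import Fermat.Agent.Res.CycloModP
import Fermat.Prelude.Def_GaloisRep_ComplexConjugation

/-!
# Program T, node (R4), `p`-adic version: the cyclotomic character modulo `n`, for all `n`

`cycloN n : GQ →* (ZMod n)ˣ` (Mathlib's `modularCyclotomicCharacter` on `ℚ̄`).

* `cycloN_spec` : `σ ζ = ζ ^ (cycloN n σ).val` for `ζ ^ n = 1`;
* `natCast_eq_cycloN_of_forall` : characterisation;
* `eq_of_valuation_sub_lt_one_gen` : `n`-th roots of unity stay distinct modulo a place over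
  `ℓ ∤ n`;
* `cycloN_frobenius` : `cycloN n φ = ℓ` for a Frobenius element at `ℓ ∤ n`;
* `cycloN_eq_one_of_mem_inertia` : trivial on inertia at `ℓ ∤ n`;
* `exists_finite_level_cycloN` : factors through a finite extension of `ℚ`;
* `cycloN_castHom` : compatibility for `n ∣ n'`;
* `cycloLift n σ : ℤ` an integral lift, multiplicative modulo `n`.
-/

set_option autoImplicit false
set_option linter.style.haveILetI false
set_option linter.unusedSectionVars false

open IsLocalRing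
open Fermat.Agent.S54.FrobExists

namespace Fermat.Agent.Pseudo.Cyclo

local notation "Qb" => AlgebraicClosure ℚ
local notation "GQ" => (AlgebraicClosure ℚ ≃ₐ[ℚ] AlgebraicClosure ℚ)

variable (n : ℕ) [NeZero n]

theorem card_roots : Nat.card (rootsOfUnity n Qb) = n :=
  IsAlgClosed.card_rootsOfUnity_eq Qb n

/-- The cyclotomic character modulo `n` of `G_ℚ`. -/
noncomputable def cycloN : GQ →* (ZMod n)ˣ :=
  MonoidHom.mk'
    (fun σ => modularCyclotomicCharacter Qb (card_roots n) (σ : Qb ≃+* Qb))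
    (fun a b => by rw [← map_mul]; congr 1)

theorem cycloN_apply (σ : GQ) :
    cycloN n σ = modularCyclotomicCharacter Qb (card_roots n) (σ : Qb ≃+* Qb) := rfl

/-- The action of `σ` on `n`-th roots of unity. -/
theorem cycloN_spec (σ : GQ) {ζ : Qb} (hζ : ζ ^ n = 1) :
    σ ζ = ζ ^ ((cycloN n σ : (ZMod n)ˣ) : ZMod n).val := by
  have hu : IsUnit ζ := IsUnit.of_pow_eq_one hζ (NeZero.ne n)
  obtain ⟨t, rfl⟩ := hu
  have ht : t ∈ rootsOfUnity n Qb := by
    rw [mem_rootsOfUnity]; exact Units.ext (by simpa using hζ)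
  exact modularCyclotomicCharacter.spec Qb (card_roots n) (σ : Qb ≃+* Qb) ht

/-- If `σ` raises all `n`-th roots of unity to the `k`-th power then `cycloN n σ = k`. -/
theorem natCast_eq_cycloN_of_forall (σ : GQ) (k : ℕ) (h : ∀ ζ : Qb, ζ ^ n = 1 → σ ζ = ζ ^ k) :
    (k : ZMod n) = ((cycloN n σ : (ZMod n)ˣ) : ZMod n) := by
  rw [cycloN_apply]
  refine modularCyclotomicCharacter.unique Qb (card_roots n) (σ : Qb ≃+* Qb) ?_
  intro t ht
  have h1 : ((t : Qbˣ) : Qb) ^ n = 1 := by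
    have := (mem_rootsOfUnity _ _).mp ht
    rw [← Units.val_pow_eq_pow_val, this, Units.val_one]
  have h2 := h _ h1
  rw [ZMod.val_natCast]
  have hmod : ((t : Qbˣ) : Qb) ^ (k % n) = (t : Qb) ^ k := by
    conv_rhs => rw [← Nat.div_add_mod k n, pow_add, pow_mul, h1, one_pow, one_mul]
  rw [hmod]
  exact h2

theorem cycloN_eq_one_iff (σ : GQ) : cycloN n σ = 1 ↔ ∀ ζ : Qb, ζ ^ n = 1 → σ ζ = ζ := by
  constructor
  · intro h ζ hζ
    rcases Nat.lt_or_ge 1 n with h1 | h1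
    · haveI : Fact (1 < n) := ⟨h1⟩
      rw [cycloN_spec n σ hζ, h, Units.val_one, ZMod.val_one, pow_one]
    · have hn1 : n = 1 := le_antisymm h1 (Nat.pos_of_ne_zero (NeZero.ne n))
      subst hn1
      rw [pow_one] at hζ
      rw [hζ, map_one]
  · intro h
    have := natCast_eq_cycloN_of_forall n σ 1 (fun ζ hζ => by rw [pow_one]; exact h ζ hζ)
    rw [Nat.cast_one] at this
    exact Units.ext this.symm

variable {n}

/-- An `n`-th root of unity `η ≠ 1` is not congruent to `1` modulo a place over `ℓ ∤ n`. -/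
theorem not_valuation_sub_one_lt_one_gen {ℓ : ℕ} (hℓ : ℓ.Prime) (hℓn : ¬ ℓ ∣ n)
    (A : ValuationSubring Qb) (hA : A.LiesOverPrime ℓ) {η : Qb} (hηn : η ^ n = 1) (hη1 : η ≠ 1) :
    ¬ A.valuation (η - 1) < 1 := by
  intro hvη
  have hn0 : n ≠ 0 := NeZero.ne n
  have hηA : ∀ k : ℕ, η ^ k ∈ A := fun k => integral_mem_valuationSubring A
    ((IsIntegral.of_pow (Nat.pos_of_ne_zero hn0) (by rw [hηn]; exact isIntegral_one)).pow k)
  -- `∑_{k<n} η^k = 0`
  have hsum : ∑ k ∈ Finset.range n, η ^ k = 0 := by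
    have h := geom_sum_mul η n
    rw [hηn, sub_self] at h
    rcases mul_eq_zero.mp h with h | h
    · exact h
    · exact absurd (sub_eq_zero.mp h) hη1
  -- `v (η^k - 1) < 1`
  have hk : ∀ k : ℕ, A.valuation (η ^ k - 1) < 1 := by
    intro k
    rw [← geom_sum_mul η k, map_mul]
    have hS : (∑ i ∈ Finset.range k, η ^ i) ∈ A := sum_mem fun i _ => hηA i
    calc A.valuation (∑ i ∈ Finset.range k, η ^ i) * A.valuation (η - 1)
        ≤ 1 * A.valuation (η - 1) :=
          mul_le_mul_left ((A.valuation_le_one_iff _).2 hS) _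
      _ = A.valuation (η - 1) := one_mul _
      _ < 1 := hvη
  -- `v n < 1`
  have hvn : A.valuation (n : Qb) < 1 := by
    have e : (n : Qb) = - ∑ k ∈ Finset.range n, (η ^ k - 1) := by
      rw [Finset.sum_sub_distrib, hsum, Finset.sum_const, Finset.card_range, nsmul_eq_mul,
        mul_one, zero_sub, neg_neg]
    rw [e, Valuation.map_neg]
    exact Valuation.map_sum_lt _ one_ne_zero fun k _ => hk k
  have hvℓ : A.valuation (ℓ : Qb) < 1 := (A.mem_nonunits_iff).mp hA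
  have hcop : Nat.Coprime n ℓ := ((Nat.Prime.coprime_iff_not_dvd hℓ).mpr hℓn).symm
  have hbez : (1 : Qb) = (Nat.gcdA n ℓ : Qb) * (n : Qb) + (Nat.gcdB n ℓ : Qb) * (ℓ : Qb) := by
    have := Nat.gcd_eq_gcd_ab n ℓ
    rw [hcop] at this
    have h2 : ((1 : ℕ) : ℤ) = (n : ℤ) * Nat.gcdA n ℓ + (ℓ : ℤ) * Nat.gcdB n ℓ := this
    have h3 := congrArg (Int.cast : ℤ → Qb) h2
    push_cast at h3
    rw [h3]; ring
  have hint' : ∀ a : ℤ, A.valuation (a : Qb) ≤ 1 := fun a =>
    (A.valuation_le_one_iff _).2 (intCast_mem_valuationSubring A a)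
  have h1 : A.valuation (1 : Qb) < 1 := by
    rw [hbez]
    refine Valuation.map_add_lt _ ?_ ?_
    · rw [map_mul]
      calc _ ≤ 1 * A.valuation (n : Qb) := mul_le_mul_left (hint' _) _
        _ = _ := one_mul _
        _ < 1 := hvn
    · rw [map_mul]
      calc _ ≤ 1 * A.valuation (ℓ : Qb) := mul_le_mul_left (hint' _) _
        _ = _ := one_mul _
        _ < 1 := hvℓ
  rw [map_one] at h1
  exact lt_irrefl _ h1

/-- `n`-th roots of unity stay distinct modulo a place over `ℓ ∤ n`. -/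
theorem eq_of_valuation_sub_lt_one_gen {ℓ : ℕ} (hℓ : ℓ.Prime) (hℓn : ¬ ℓ ∣ n)
    (A : ValuationSubring Qb) (hA : A.LiesOverPrime ℓ) {ζ₁ ζ₂ : Qb} (h₁ : ζ₁ ^ n = 1)
    (h₂ : ζ₂ ^ n = 1) (h : A.valuation (ζ₁ - ζ₂) < 1) : ζ₁ = ζ₂ := by
  by_contra hne
  have hn0 : n ≠ 0 := NeZero.ne n
  have h20 : ζ₂ ≠ 0 := by
    rintro rfl
    rw [zero_pow hn0] at h₂
    exact zero_ne_one h₂
  have hint : ∀ x : Qb, x ^ n = 1 → x ∈ A := fun x hx =>
    integral_mem_valuationSubring A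
      (IsIntegral.of_pow (Nat.pos_of_ne_zero hn0) (by rw [hx]; exact isIntegral_one))
  have h2inv : ζ₂⁻¹ ^ n = 1 := by rw [inv_pow, h₂, inv_one]
  refine not_valuation_sub_one_lt_one_gen hℓ hℓn A hA (η := ζ₁ * ζ₂⁻¹) ?_ ?_ ?_
  · rw [mul_pow, h₁, h2inv, one_mul]
  · intro h1
    apply hne
    have : ζ₁ * ζ₂⁻¹ * ζ₂ = 1 * ζ₂ := by rw [h1]
    rwa [inv_mul_cancel_right₀ h20, one_mul] at this
  · have e : ζ₁ * ζ₂⁻¹ - 1 = (ζ₁ - ζ₂) * ζ₂⁻¹ := by
      rw [sub_mul, mul_inv_cancel₀ h20]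
    rw [e, map_mul]
    calc A.valuation (ζ₁ - ζ₂) * A.valuation ζ₂⁻¹ ≤ A.valuation (ζ₁ - ζ₂) * 1 :=
          mul_le_mul_right ((A.valuation_le_one_iff _).2 (hint _ h2inv)) _
      _ = A.valuation (ζ₁ - ζ₂) := mul_one _
      _ < 1 := h

variable (n)

/-- **The cyclotomic character modulo `n` of a Frobenius element at `ℓ ∤ n` is `ℓ`.** -/
theorem cycloN_frobenius {ℓ : ℕ} (hℓ : ℓ.Prime) (hℓn : ¬ ℓ ∣ n)
    (A : ValuationSubring Qb) (hA : A.LiesOverPrime ℓ) {φ : GQ} (hφ : A.IsFrobeniusAt φ ℓ) :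
    ((cycloN n φ : (ZMod n)ˣ) : ZMod n) = (ℓ : ZMod n) := by
  have hn0 : n ≠ 0 := NeZero.ne n
  refine (natCast_eq_cycloN_of_forall n φ ℓ fun ζ hζ => ?_).symm
  have hζA : ζ ∈ A := integral_mem_valuationSubring A
    (IsIntegral.of_pow (Nat.pos_of_ne_zero hn0) (by rw [hζ]; exact isIntegral_one))
  refine eq_of_valuation_sub_lt_one_gen hℓ hℓn A hA ?_ ?_
    (Fermat.Agent.Res.valuation_frobenius_sub_pow_lt_one hφ hζA)
  · rw [← map_pow, hζ, map_one]
  · rw [← pow_mul, mul_comm, pow_mul, hζ, one_pow]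

/-- The cyclotomic character modulo `n` is trivial on inertia groups at `ℓ ∤ n`. -/
theorem cycloN_eq_one_of_mem_inertia {ℓ : ℕ} (hℓ : ℓ.Prime) (hℓn : ¬ ℓ ∣ n)
    (A : ValuationSubring Qb) (hA : A.LiesOverPrime ℓ) {σ : GQ}
    (hσ : σ ∈ A.inertiaSubgroupIn ℚ) : cycloN n σ = 1 := by
  have hn0 : n ≠ 0 := NeZero.ne n
  rw [cycloN_eq_one_iff]
  intro ζ hζ
  have hζA : ζ ∈ A := integral_mem_valuationSubring A
    (IsIntegral.of_pow (Nat.pos_of_ne_zero hn0) (by rw [hζ]; exact isIntegral_one))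
  refine eq_of_valuation_sub_lt_one_gen hℓ hℓn A hA ?_ hζ
    (((Fermat.Agent.S14.mem_inertiaSubgroupIn_iff A σ).1 hσ).2 ζ hζA)
  rw [← map_pow, hζ, map_one]

/-- The character only depends on the action on one primitive `n`-th root of unity. -/
theorem cycloN_eq_of_apply_eq {ζ : Qb} (hζ : IsPrimitiveRoot ζ n) {σ τ : GQ}
    (h : σ ζ = τ ζ) : cycloN n σ = cycloN n τ := by
  have h1 : cycloN n (τ⁻¹ * σ) = 1 := by
    rw [cycloN_eq_one_iff]
    intro ξ hξ
    obtain ⟨i, -, rfl⟩ := hζ.eq_pow_of_pow_eq_one hξ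
    rw [map_pow]
    congr 1
    show τ⁻¹ (σ ζ) = ζ
    rw [h]
    exact τ.symm_apply_apply ζ
  rw [map_mul, map_inv, inv_mul_eq_one] at h1
  exact h1.symm

/-- **Finite level.** -/
theorem exists_finite_level_cycloN :
    ∃ L : IntermediateField ℚ Qb, FiniteDimensional ℚ L ∧
      ∀ σ τ : GQ, (∀ x ∈ L, σ x = τ x) → cycloN n σ = cycloN n τ := by
  obtain ⟨ζ, hζ⟩ : ∃ ζ : Qb, IsPrimitiveRoot ζ n :=
    HasEnoughRootsOfUnity.exists_primitiveRoot Qb n
  have hint : IsIntegral ℚ ζ :=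
    (hζ.isIntegral (Nat.pos_of_ne_zero (NeZero.ne n))).tower_top
  refine ⟨IntermediateField.adjoin ℚ {ζ}, IntermediateField.adjoin.finiteDimensional hint,
    fun σ τ h => cycloN_eq_of_apply_eq n hζ (h ζ (IntermediateField.mem_adjoin_simple_self ℚ ζ))⟩

/-- Compatibility for `n ∣ n'`. -/
theorem cycloN_castHom {n' : ℕ} [NeZero n'] (h : n ∣ n') (σ : GQ) :
    ZMod.castHom h (ZMod n) ((cycloN n' σ : (ZMod n')ˣ) : ZMod n') =
      ((cycloN n σ : (ZMod n)ˣ) : ZMod n) := by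
  have key := natCast_eq_cycloN_of_forall n σ ((cycloN n' σ : (ZMod n')ˣ) : ZMod n').val
    (fun ζ hζ => by
      have hζ' : ζ ^ n' = 1 := by
        obtain ⟨c, rfl⟩ := h
        rw [pow_mul, hζ, one_pow]
      exact cycloN_spec n' σ hζ')
  rw [← key, ZMod.natCast_val, ZMod.castHom_apply]

/-- An integral lift of the cyclotomic character modulo `n`. -/
noncomputable def cycloLift (σ : GQ) : ℤ := (((cycloN n σ : (ZMod n)ˣ) : ZMod n).val : ℤ)

theorem cycloLift_cast (σ : GQ) : ((cycloLift n σ : ℤ) : ZMod n) = ((cycloN n σ : (ZMod n)ˣ) : ZMod n) := by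
  unfold cycloLift
  rw [Int.cast_natCast, ZMod.natCast_val, ZMod.cast_id]

theorem dvd_cycloLift_sub_iff (σ : GQ) (a : ℤ) :
    (n : ℤ) ∣ cycloLift n σ - a ↔ ((cycloN n σ : (ZMod n)ˣ) : ZMod n) = (a : ZMod n) := by
  rw [← cycloLift_cast, ← sub_eq_zero, ← Int.cast_sub, ZMod.intCast_zmod_eq_zero_iff_dvd]

theorem cycloLift_one : (n : ℤ) ∣ cycloLift n 1 - 1 := by
  rw [dvd_cycloLift_sub_iff, map_one, Units.val_one, Int.cast_one]

theorem cycloLift_mul (σ τ : GQ) :
    (n : ℤ) ∣ cycloLift n (σ * τ) - cycloLift n σ * cycloLift n τ := by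
  rw [dvd_cycloLift_sub_iff, map_mul, Units.val_mul, Int.cast_mul, cycloLift_cast, cycloLift_cast]

/-! ### Complex conjugation -/

/-- Complex conjugation inverts the roots of unity. -/
theorem complexConjugation_apply_of_pow_eq_one {ζ : Qb} (hζ : ζ ^ n = 1) :
    complexConjugation ζ = ζ ^ (n - 1) := by
  have hn0 : n ≠ 0 := NeZero.ne n
  apply complexEmbedding.toRingHom.injective
  show complexEmbedding (complexConjugation ζ) = complexEmbedding (ζ ^ (n - 1))
  rw [complexEmbedding_complexConjugation, map_pow]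
  set z : ℂ := complexEmbedding ζ with hz
  have hzn : z ^ n = 1 := by rw [hz, ← map_pow, hζ, map_one]
  have hnorm : ‖z‖ = 1 := Complex.norm_eq_one_of_pow_eq_one hzn hn0
  have hz0 : z ≠ 0 := by
    intro h
    rw [h, norm_zero] at hnorm
    exact zero_ne_one hnorm
  -- `conj z = z⁻¹ = z^(n-1)`
  have h1 : (starRingEnd ℂ) z * z = 1 := by
    rw [mul_comm, Complex.mul_conj, Complex.normSq_eq_norm_sq, hnorm]
    norm_num
  have h2 : z ^ (n - 1) * z = 1 := by
    rw [← pow_succ, Nat.sub_add_cancel (Nat.pos_of_ne_zero hn0), hzn]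
  exact mul_right_cancel₀ hz0 (h1.trans h2.symm)

/-- **The cyclotomic character of complex conjugation is `-1`.** -/
theorem cycloN_complexConjugation :
    ((cycloN n complexConjugation : (ZMod n)ˣ) : ZMod n) = -1 := by
  have hn0 : n ≠ 0 := NeZero.ne n
  have h := natCast_eq_cycloN_of_forall n complexConjugation (n - 1)
    (fun ζ hζ => complexConjugation_apply_of_pow_eq_one n hζ)
  rw [← h, Nat.cast_sub (Nat.pos_of_ne_zero hn0), ZMod.natCast_self, Nat.cast_one, zero_sub]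

theorem cycloLift_complexConjugation : (n : ℤ) ∣ cycloLift n complexConjugation + 1 := by
  have := (dvd_cycloLift_sub_iff n complexConjugation (-1)).mpr (by
    rw [cycloN_complexConjugation, Int.cast_neg, Int.cast_one])
  rwa [sub_neg_eq_add] at this

/-- The integral lift at a Frobenius element. -/
theorem cycloLift_frobenius {ℓ : ℕ} (hℓ : ℓ.Prime) (hℓn : ¬ ℓ ∣ n)
    (A : ValuationSubring Qb) (hA : A.LiesOverPrime ℓ) {φ : GQ} (hφ : A.IsFrobeniusAt φ ℓ) :
    (n : ℤ) ∣ cycloLift n φ - (ℓ : ℤ) := by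
  rw [dvd_cycloLift_sub_iff, cycloN_frobenius n hℓ hℓn A hA hφ, Int.cast_natCast]

theorem cycloLift_of_cycloN_eq_one {σ : GQ} (h : cycloN n σ = 1) :
    (n : ℤ) ∣ cycloLift n σ - 1 := by
  rw [dvd_cycloLift_sub_iff, h, Units.val_one, Int.cast_one]

end Fermat.Agent.Pseudo.Cyclo
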