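import Fermat.Agent.Pseudo.TraceSystem
import Fermat.Agent.Pseudo.CycloPow
import Fermat.Agent.Cheb.DeuringExact
import Fermat.Prelude.Def_HeckeGalois_EichlerShimura

/-!
# Program T, node (T2c): the universal trace system of `G_ℚ` acting on a Hecke–Galois module

Instantiation of `Pseudo.TraceSystem` at `G = G_ℚ`, `X = J` (any abelian group with commuting
actions of `G_ℚ` and of `HeckeAlg = ℤ[T_ℓ]`, e.g. `J₀(N)(ℚ̄)`), `I =` primes outside `S`,
`Op =` fixing subgroups of the finite normal extensions of `ℚ` in `ℚ̄`,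
`FrobAt φ ℓ := ∃ A over ℓ, A.IsFrobeniusAt φ ℓ`, `d m =` integral lift of the cyclotomic character
modulo `p^m`.  Hypotheses:

* `hFQ : FrobeniusQuadratic N p J` (Program R node (R1), from S37);
* `hcheb : Cheb.ChebExact` (landed: `Cheb.chebExact`);
* `hstab` : open stabilisers (Program R node (R2), landed: `Res.exists_finite_fixing_JZero`);
* `hK` : Program J's `(K)`: for every `M ≥ 1` a Hecke-equivariant `rho : Lam →+ J` with kernel
  `M • Lam`;
* `hfg` : `Lam` finitely generated.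
-/

set_option autoImplicit false
set_option linter.style.haveILetI false
set_option linter.unusedSectionVars false

open ModularCurve
open Fermat.Agent.S54.FrobExists

namespace Fermat.Agent.Pseudo.GQSys

local notation "Qb" => AlgebraicClosure ℚ
local notation "GQ" => (AlgebraicClosure ℚ ≃ₐ[ℚ] AlgebraicClosure ℚ)

/-- The index set: primes outside `S`. -/
abbrev Idx (S : Finset ℕ) : Type := {ℓ : Nat.Primes // (ℓ : ℕ) ∉ S}

section HeckeEnd

variable (J : Type*) [AddCommGroup J] [Module HeckeAlg J]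

/-- The action of `t : HeckeAlg` as a `ℤ`-linear endomorphism. -/
noncomputable def heckeEnd (t : HeckeAlg) : Module.End ℤ J :=
  (DistribSMul.toAddMonoidHom J t).toIntLinearMap

@[simp] theorem heckeEnd_apply (t : HeckeAlg) (x : J) : heckeEnd J t x = t • x := rfl

end HeckeEnd

/-! ### The open normal subgroups -/

/-- `L` is stable under `G_ℚ` (i.e. normal over `ℚ`; stated without instances). -/
def IsStable (L : IntermediateField ℚ Qb) : Prop := ∀ σ : GQ, ∀ x ∈ L, σ x ∈ L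

/-- Fixing subgroups of the finite normal extensions of `ℚ`. -/
def openSubgroups : Set (Subgroup GQ) :=
  {U | ∃ L : IntermediateField ℚ Qb, FiniteDimensional ℚ L ∧ IsStable L ∧ U = L.fixingSubgroup}

theorem openSubgroups_normal : ∀ U ∈ openSubgroups, U.Normal := by
  rintro U ⟨L, hL, hN, rfl⟩
  refine ⟨fun σ hσ τ => ?_⟩
  rw [IntermediateField.mem_fixingSubgroup_iff] at hσ ⊢
  intro x hx
  show τ (σ (τ⁻¹ x)) = x
  rw [hσ _ (hN τ⁻¹ x hx)]
  exact τ.apply_symm_apply x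

theorem isStable_sup {L L' : IntermediateField ℚ Qb} (h : IsStable L) (h' : IsStable L') :
    IsStable (L ⊔ L') := by
  intro σ x hx
  have h1 : (L ⊔ L').map (σ : Qb →ₐ[ℚ] Qb) ≤ L ⊔ L' := by
    rw [IntermediateField.map_sup]
    refine sup_le_sup ?_ ?_
    · rintro _ ⟨y, hy, rfl⟩
      exact h σ y hy
    · rintro _ ⟨y, hy, rfl⟩
      exact h' σ y hy
  exact h1 ⟨x, hx, rfl⟩

theorem openSubgroups_inf : ∀ U ∈ openSubgroups, ∀ V ∈ openSubgroups, U ⊓ V ∈ openSubgroups := by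
  rintro U ⟨L, hL, hN, rfl⟩ V ⟨L', hL', hN', rfl⟩
  exact ⟨L ⊔ L', IntermediateField.finiteDimensional_sup L L', isStable_sup hN hN',
    (IntermediateField.fixingSubgroup_sup).symm⟩

/-- Every finite extension is contained in a finite normal one. -/
theorem exists_openSubgroup_le (L : IntermediateField ℚ Qb) (hL : FiniteDimensional ℚ L) :
    ∃ U ∈ openSubgroups, U ≤ L.fixingSubgroup := by
  haveI : FiniteDimensional ℚ L := hL
  haveI : Normal ℚ Qb := (isGalois_rat_algebraicClosure).to_normal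
  refine ⟨(IntermediateField.normalClosure ℚ L Qb).fixingSubgroup,
    ⟨_, normalClosure.is_finiteDimensional ℚ L Qb, ?_, rfl⟩,
    IntermediateField.fixingSubgroup_le (IntermediateField.le_normalClosure L)⟩
  intro σ x hx
  haveI : Normal ℚ (IntermediateField.normalClosure ℚ L Qb) := normalClosure.normal ℚ L Qb
  have h := IntermediateField.normal_iff_forall_map_eq'.mp
    (inferInstance : Normal ℚ (IntermediateField.normalClosure ℚ L Qb)) σ
  rw [← h]
  exact ⟨x, hx, rfl⟩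

theorem exists_finite_of_mem_openSubgroups {U : Subgroup GQ} (hU : U ∈ openSubgroups) :
    ∃ L : IntermediateField ℚ Qb, FiniteDimensional ℚ L ∧
      ∀ g g' : GQ, (∀ x ∈ L, g x = g' x) → g⁻¹ * g' ∈ U := by
  obtain ⟨L, hL, -, rfl⟩ := hU
  refine ⟨L, hL, fun g g' h => ?_⟩
  rw [IntermediateField.mem_fixingSubgroup_iff]
  intro x hx
  show g⁻¹ (g' x) = x
  rw [← h x hx]
  exact g.symm_apply_apply x

/-! ### The system -/

section System

variable (N p : ℕ) [hp : Fact p.Prime] (S : Finset ℕ)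
variable (J : Type*) [AddCommGroup J] [Module HeckeAlg J] [DistribMulAction GQ J]
  [SMulCommClass GQ HeckeAlg J]
variable {Lam : Type*} [AddCommGroup Lam] (TLam : Nat.Primes → Module.End ℤ Lam)

/-- `φ` is a Frobenius element at the prime `ℓ`. -/
def frobAt (φ : GQ) (i : Idx S) : Prop :=
  ∃ A : ValuationSubring Qb, A.LiesOverPrime (i.1 : ℕ) ∧ A.IsFrobeniusAt φ (i.1 : ℕ)

instance neZero_pow (m : ℕ) : NeZero (p ^ m) := ⟨pow_ne_zero m hp.out.ne_zero⟩

variable {N p S}

theorem not_dvd_of_notMem (hpS : p ∈ S) (hNS : ∀ q : ℕ, q.Prime → q ∣ N → q ∈ S) (i : Idx S) :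
    ¬ (i.1 : ℕ) ∣ N * p := by
  intro h
  rcases (Nat.Prime.dvd_mul i.1.2).mp h with h | h
  · exact i.2 (hNS _ i.1.2 h)
  · exact i.2 (by rwa [(Nat.prime_dvd_prime_iff_eq i.1.2 hp.out).mp h])

theorem not_dvd_pow_of_notMem (hpS : p ∈ S) (i : Idx S) (m : ℕ) : ¬ (i.1 : ℕ) ∣ p ^ m := by
  intro h
  have := (Nat.prime_dvd_prime_iff_eq i.1.2 hp.out).mp (i.1.2.dvd_of_dvd_pow h)
  exact i.2 (by rwa [this])

variable (N p S)

/-- **The universal trace system of `G_ℚ` on `J`.** -/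
noncomputable def traceSystem (hpS : p ∈ S) (hNS : ∀ q : ℕ, q.Prime → q ∣ N → q ∈ S)
    (hFQ : FrobeniusQuadratic (K := ℚ) (L := Qb) N p J)
    (hcheb : Fermat.Agent.Cheb.ChebExact)
    (hstab : ∀ x : J, ∃ L : IntermediateField ℚ Qb, FiniteDimensional ℚ L ∧
      ∀ σ : GQ, (∀ a ∈ L, σ a = a) → σ • x = x)
    (hK : ∀ M : ℕ, 0 < M → ∃ rho : Lam →+ J, (∀ lam, rho lam = 0 ↔ ∃ mu, lam = M • mu) ∧
      ∀ (ℓ : Nat.Primes) (lam : Lam), rho (TLam ℓ lam) = heckeGen ℓ • rho lam)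
    (hfg : (⊤ : AddSubgroup Lam).FG) : TraceSystem GQ Lam J (Idx S) where
  p := p
  Op := openSubgroups
  Op_normal := openSubgroups_normal
  Op_inf := openSubgroups_inf
  T := fun i => heckeEnd J (heckeGen i.1)
  TL := fun i => TLam i.1
  ell := fun i => ((i.1 : ℕ) : ℤ)
  FrobAt := frobAt S
  T_smul := fun i g x => by
    rw [heckeEnd_apply, heckeEnd_apply]
    exact (smul_comm g (heckeGen i.1) x).symm
  es := by
    rintro i φ ⟨A, hA, hφ⟩ x hx
    have h := hFQ (i.1 : ℕ) i.1.2 (not_dvd_of_notMem hpS hNS i) A hA φ hφ x hx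
    rw [heckeEnd_apply, natCast_zsmul]
    exact h
  cheb := by
    rintro U ⟨L, hL, -, rfl⟩ g
    obtain ⟨q, hq, hqS, P, φ, hP, hφ, hg⟩ := hcheb L hL g S
    refine ⟨⟨⟨q, hq⟩, hqS⟩, φ, ⟨P, hP, hφ⟩, ?_⟩
    rw [IntermediateField.mem_fixingSubgroup_iff]
    intro x hx
    show g⁻¹ (φ x) = x
    rw [← hg x hx]
    exact g.symm_apply_apply x
  stab := by
    intro x
    obtain ⟨L, hL, h⟩ := hstab x
    obtain ⟨U, hU, hUL⟩ := exists_openSubgroup_le L hL
    exact ⟨U, hU, fun σ hσ => h σ fun a ha =>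
      (IntermediateField.mem_fixingSubgroup_iff L σ).mp (hUL hσ) a ha⟩
  d := fun m => Cyclo.cycloLift (p ^ m)
  d_one := fun m => Cyclo.cycloLift_one (p ^ m)
  d_mul := fun m g h => Cyclo.cycloLift_mul (p ^ m) g h
  d_frob := by
    rintro m i φ ⟨A, hA, hφ⟩
    exact Cyclo.cycloLift_frobenius (p ^ m) i.1.2 (not_dvd_pow_of_notMem hpS i m) A hA hφ
  d_open := by
    intro m
    obtain ⟨L, hL, h⟩ := Cyclo.exists_finite_level_cycloN (p ^ m)
    obtain ⟨U, hU, hUL⟩ := exists_openSubgroup_le L hL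
    refine ⟨U, hU, fun σ hσ => Cyclo.cycloLift_of_cycloN_eq_one (p ^ m) ?_⟩
    have := h σ 1 fun x hx => by
      rw [(IntermediateField.mem_fixingSubgroup_iff L σ).mp (hUL hσ) x hx]; rfl
    rw [this, map_one]
  rho := fun m => (hK (p ^ m) (pow_pos hp.out.pos m)).choose
  ker_rho := fun m => (hK (p ^ m) (pow_pos hp.out.pos m)).choose_spec.1
  rho_TL := fun m i lam => by
    rw [heckeEnd_apply]
    exact (hK (p ^ m) (pow_pos hp.out.pos m)).choose_spec.2 i.1 lam
  fg := hfg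

end System

/-! ### Consequences in `G_ℚ`-language -/

section Consequences

variable {N p : ℕ} [hp : Fact p.Prime] {S : Finset ℕ}
variable {J : Type*} [AddCommGroup J] [Module HeckeAlg J] [DistribMulAction GQ J]
  [SMulCommClass GQ HeckeAlg J]
variable {Lam : Type*} [AddCommGroup Lam] {TLam : Nat.Primes → Module.End ℤ Lam}
variable (hpS : p ∈ S) (hNS : ∀ q : ℕ, q.Prime → q ∣ N → q ∈ S)
    (hFQ : FrobeniusQuadratic (K := ℚ) (L := Qb) N p J)
    (hcheb : Fermat.Agent.Cheb.ChebExact)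
    (hstab : ∀ x : J, ∃ L : IntermediateField ℚ Qb, FiniteDimensional ℚ L ∧
      ∀ σ : GQ, (∀ a ∈ L, σ a = a) → σ • x = x)
    (hK : ∀ M : ℕ, 0 < M → ∃ rho : Lam →+ J, (∀ lam, rho lam = 0 ↔ ∃ mu, lam = M • mu) ∧
      ∀ (ℓ : Nat.Primes) (lam : Lam), rho (TLam ℓ lam) = heckeGen ℓ • rho lam)
    (hfg : (⊤ : AddSubgroup Lam).FG)

/-- The universal trace of `g` modulo `p^m`, as a prime outside `S`. -/
noncomputable def traceIdx (m : ℕ) (g : GQ) : Idx S :=
  (traceSystem N p S J TLam hpS hNS hFQ hcheb hstab hK hfg).idx m g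

local notation "τ" => traceIdx hpS hNS hFQ hcheb hstab hK hfg

/-- Value at a Frobenius element. -/
theorem traceIdx_frob (m : ℕ) (i : Idx S) (A : ValuationSubring Qb)
    (hA : A.LiesOverPrime (i.1 : ℕ)) {φ : GQ} (hφ : A.IsFrobeniusAt φ (i.1 : ℕ)) :
    ModEq (p ^ m) (TLam i.1) (TLam (τ m φ).1) :=
  (traceSystem N p S J TLam hpS hNS hFQ hcheb hstab hK hfg).frobAt_modEq m ⟨A, hA, hφ⟩

theorem traceIdx_compat {m m' : ℕ} (h : m ≤ m') (g : GQ) :
    ModEq (p ^ m) (TLam (τ m' g).1) (TLam (τ m g).1) :=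
  (traceSystem N p S J TLam hpS hNS hFQ hcheb hstab hK hfg).idx_compat h g

theorem traceIdx_one (m : ℕ) : ModEq (p ^ m) (TLam (τ m 1).1) 2 :=
  (traceSystem N p S J TLam hpS hNS hFQ hcheb hstab hK hfg).idx_one m

theorem traceIdx_comm (m : ℕ) (g h : GQ) :
    ModEq (p ^ m) (TLam (τ m (g * h)).1) (TLam (τ m (h * g)).1) :=
  (traceSystem N p S J TLam hpS hNS hFQ hcheb hstab hK hfg).idx_comm m g h

theorem traceIdx_mul (m : ℕ) (g h : GQ) :
    ModEq (p ^ m)
      (TLam (τ m (g * h)).1 + Cyclo.cycloLift (p ^ m) h • TLam (τ m (g * h⁻¹)).1)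
      (TLam (τ m g).1 * TLam (τ m h).1) :=
  (traceSystem N p S J TLam hpS hNS hFQ hcheb hstab hK hfg).idx_mul m g h

/-- The universal trace of complex conjugation vanishes. -/
theorem traceIdx_complexConjugation (m : ℕ) :
    ModEq (p ^ m) (TLam (τ m complexConjugation).1) 0 :=
  (traceSystem N p S J TLam hpS hNS hFQ hcheb hstab hK hfg).idx_conj m
    complexConjugation_mul_self (Cyclo.cycloLift_complexConjugation (p ^ m))

/-- Invariance under the inertia groups at `q ∤ N p`. -/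
theorem traceIdx_inertia (hUO : UnramifiedOutside (K := ℚ) (L := Qb) N p J) (m : ℕ) {q : ℕ}
    (hq : q.Prime) (hqNp : ¬ q ∣ N * p) (A : ValuationSubring Qb) (hA : A.LiesOverPrime q)
    {σ : GQ} (hσ : σ ∈ A.inertiaSubgroupIn ℚ) (g : GQ) :
    ModEq (p ^ m) (TLam (τ m (σ * g)).1) (TLam (τ m g).1) := by
  have hqp : ¬ q ∣ p ^ m := fun h =>
    hqNp (Dvd.dvd.mul_left (hq.dvd_of_dvd_pow h) N)
  exact (traceSystem N p S J TLam hpS hNS hFQ hcheb hstab hK hfg).idx_inertia m
    (fun x hx => hUO q hq hqNp A hA σ hσ x hx)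
    (Cyclo.cycloLift_of_cycloN_eq_one (p ^ m)
      (Cyclo.cycloN_eq_one_of_mem_inertia (p ^ m) hq hqp A hA hσ)) g

/-- Continuity: modulo `p^m` the universal trace factors through a finite level. -/
theorem traceIdx_continuous (m : ℕ) :
    ∃ L : IntermediateField ℚ Qb, FiniteDimensional ℚ L ∧
      ∀ g g' : GQ, (∀ x ∈ L, g x = g' x) →
        ModEq (p ^ m) (TLam (τ m g).1) (TLam (τ m g').1) := by
  obtain ⟨L, hL, h⟩ := exists_finite_of_mem_openSubgroups
    ((traceSystem N p S J TLam hpS hNS hFQ hcheb hstab hK hfg).level_mem m)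
  exact ⟨L, hL, fun g g' hgg' =>
    (traceSystem N p S J TLam hpS hNS hFQ hcheb hstab hK hfg).idx_congr m (h g g' hgg')⟩

end Consequences

end Fermat.Agent.Pseudo.GQSys
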