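/-
Program T node (T5), abstract part: from a two-dimensional representation over the
fraction field `E` of a principal ideal domain `O` whose matrix entries have bounded
denominators, to a representation on a free `O`-lattice of rank two, with the same
characteristic polynomials; for the absolute Galois group of `ℚ` and entrywise adic
continuity, a `GaloisRepAdic`.
-/
import Mathlib
import Fermat.Prelude.Def_GaloisRep_Adic

set_option autoImplicit false
set_option linter.style.haveILetI false

namespace Fermat.Agent.Pseudo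

open Module Polynomial

section Lattice

variable {O : Type*} [CommRing O]
variable {E : Type*} [Field E] [Algebra O E]
variable {G : Type*} [Group G] (ρ : G →* Matrix (Fin 2) (Fin 2) E)

/-- The `j`-th column of `ρ g`, as a vector. -/
def colVec (g : G) (j : Fin 2) : Fin 2 → E := fun i => ρ g i j

lemma colVec_one (j : Fin 2) : colVec ρ 1 j = Pi.single j 1 := by
  funext i
  simp [colVec, Matrix.one_apply, Pi.single_apply, eq_comm]

lemma mulVec_colVec (h g : G) (j : Fin 2) :
    (ρ h).mulVec (colVec ρ g j) = colVec ρ (h * g) j := by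
  funext i
  simp [colVec, Matrix.mulVec, dotProduct, map_mul, Matrix.mul_apply]

variable (O) in
/-- The `O`-span of all the columns of all the matrices `ρ g`. -/
def colLattice : Submodule O (Fin 2 → E) :=
  Submodule.span O (Set.range fun p : G × Fin 2 => colVec ρ p.1 p.2)

lemma colVec_mem_colLattice (g : G) (j : Fin 2) : colVec ρ g j ∈ colLattice O ρ :=
  Submodule.subset_span ⟨(g, j), rfl⟩

lemma single_mem_colLattice (j : Fin 2) : (Pi.single j 1 : Fin 2 → E) ∈ colLattice O ρ := by
  rw [← colVec_one ρ j]
  exact colVec_mem_colLattice ρ 1 j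

/-- `ρ h` maps the column lattice into itself. -/
lemma mulVec_mem_colLattice (h : G) {v : Fin 2 → E} (hv : v ∈ colLattice O ρ) :
    (ρ h).mulVec v ∈ colLattice O ρ := by
  induction hv using Submodule.span_induction with
  | mem x hx =>
    obtain ⟨⟨g, j⟩, rfl⟩ := hx
    simp only
    rw [mulVec_colVec]
    exact colVec_mem_colLattice ρ (h * g) j
  | zero => simp
  | add x y _ _ hx hy =>
    rw [Matrix.mulVec_add]
    exact add_mem hx hy
  | smul a x _ hx =>
    have : (ρ h).mulVec (a • x) = a • (ρ h).mulVec x := by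
      rw [← algebraMap_smul E a x, Matrix.mulVec_smul, algebraMap_smul]
    rw [this]
    exact Submodule.smul_mem _ _ hx

/-- The action of `h` on the column lattice, as an `O`-linear endomorphism. -/
noncomputable def latticeEnd (h : G) : Module.End O (colLattice O ρ) :=
  LinearMap.restrict ((Matrix.mulVecLin (ρ h)).restrictScalars O)
    (fun _ hv => mulVec_mem_colLattice ρ h hv)

@[simp]
lemma latticeEnd_apply_coe (h : G) (v : colLattice O ρ) :
    ((latticeEnd ρ h v : colLattice O ρ) : Fin 2 → E) = (ρ h).mulVec (v : Fin 2 → E) := rfl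

/-- The representation on the column lattice. -/
noncomputable def latticeRep : G →* Module.End O (colLattice O ρ) where
  toFun := latticeEnd ρ
  map_one' := by
    ext v : 2
    simp
  map_mul' g h := by
    refine LinearMap.ext fun v => Subtype.ext ?_
    change (ρ (g * h)).mulVec (v : Fin 2 → E) = (ρ g).mulVec ((ρ h).mulVec (v : Fin 2 → E))
    rw [map_mul, Matrix.mulVec_mulVec]

@[simp]
lemma latticeRep_apply_coe (h : G) (v : colLattice O ρ) :
    ((latticeRep ρ h v : colLattice O ρ) : Fin 2 → E) = (ρ h).mulVec (v : Fin 2 → E) := rfl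

lemma latticeRep_eq_one_of_eq_one {σ : G} (hσ : ρ σ = 1) : latticeRep (O := O) ρ σ = 1 := by
  ext v : 2
  simp [hσ]

lemma colLattice_span_eq_top :
    Submodule.span E ((colLattice O ρ : Submodule O (Fin 2 → E)) : Set (Fin 2 → E)) = ⊤ := by
  rw [eq_top_iff]
  intro v _
  have hv : v = ∑ j, v j • (Pi.single j 1 : Fin 2 → E) := by
    funext i
    simp [Pi.single_apply]
  rw [hv]
  refine Submodule.sum_mem _ fun j _ => Submodule.smul_mem _ _ ?_
  exact Submodule.subset_span (single_mem_colLattice ρ j)

/-- The generators of the column lattice, as elements of it. -/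
def colGen (g : G) (j : Fin 2) : colLattice O ρ := ⟨colVec ρ g j, colVec_mem_colLattice ρ g j⟩

lemma span_colGen_eq_top :
    Submodule.span O (Set.range fun p : G × Fin 2 => colGen (O := O) ρ p.1 p.2) = ⊤ := by
  apply Submodule.map_injective_of_injective (colLattice O ρ).injective_subtype
  rw [Submodule.map_span, Submodule.map_subtype_top, ← Set.range_comp]
  rfl

end Lattice

section IsLattice

variable {O : Type*} [CommRing O] [IsDomain O] [IsPrincipalIdealRing O]
variable {E : Type*} [Field E] [Algebra O E] [IsFractionRing O E]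
variable {G : Type*} [Group G] (ρ : G →* Matrix (Fin 2) (Fin 2) E)

/-- Bounded denominators: a common denominator `D` for all the entries of all `ρ g`. -/
def BoundedDenominators (O : Type*) [CommRing O] {E : Type*} [Field E] [Algebra O E]
    {G : Type*} [Group G] (ρ : G →* Matrix (Fin 2) (Fin 2) E) : Prop :=
  ∃ D : O, D ≠ 0 ∧ ∀ (g : G) (i j : Fin 2), ∃ r : O, algebraMap O E r = algebraMap O E D * ρ g i j

lemma colLattice_fg (hB : BoundedDenominators O ρ) : (colLattice O ρ).FG := by
  obtain ⟨D, hD, hr⟩ := hB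
  have hDE : algebraMap O E D ≠ 0 := by
    rwa [Ne, map_eq_zero_iff _ (IsFractionRing.injective O E)]
  -- the bounding lattice `D⁻¹ O²`
  let φ : (Fin 2 → O) →ₗ[O] (Fin 2 → E) :=
    { toFun := fun w i => (algebraMap O E D)⁻¹ * algebraMap O E (w i)
      map_add' := fun w w' => by
        funext i
        simp [mul_add]
      map_smul' := fun a w => by
        funext i
        simp [Algebra.smul_def]
        ring }
  have hNfg : (LinearMap.range φ).FG := by
    rw [LinearMap.range_eq_map]
    exact Submodule.FG.map φ Module.Finite.fg_top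
  have hle : colLattice O ρ ≤ LinearMap.range φ := by
    refine Submodule.span_le.mpr ?_
    rintro _ ⟨⟨g, j⟩, rfl⟩
    choose r hrr using fun i => hr g i j
    refine ⟨r, ?_⟩
    funext i
    change (algebraMap O E D)⁻¹ * algebraMap O E (r i) = ρ g i j
    rw [hrr i, ← mul_assoc, inv_mul_cancel₀ hDE, one_mul]
  haveI : IsNoetherian O (LinearMap.range φ) := isNoetherian_of_fg_of_noetherian _ hNfg
  haveI : IsNoetherian O (colLattice O ρ) := isNoetherian_of_le hle
  exact (Module.Finite.iff_fg).mp inferInstance

lemma colLattice_isLattice (hB : BoundedDenominators O ρ) :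
    Submodule.IsLattice E (colLattice O ρ) :=
  ⟨colLattice_fg ρ hB, colLattice_span_eq_top ρ⟩

omit [IsDomain O] [IsPrincipalIdealRing O] in
/-- Coordinates of a lattice vector in the extended basis. -/
lemma extendOfIsLattice_repr_coe {κ : Type*} {V : Type*} [AddCommGroup V] [Module E V]
    [Module O V] [IsScalarTower O E V] {M : Submodule O V} [Submodule.IsLattice E M]
    (b : Basis κ O M) (v : M) (i : κ) :
    (b.extendOfIsLattice E).repr (v : V) i = algebraMap O E (b.repr v i) := by
  classical
  have hv : (v : V) = Finsupp.linearCombination E (b.extendOfIsLattice E)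
      ((b.repr v).mapRange (algebraMap O E) (map_zero _)) := by
    conv_lhs => rw [← b.linearCombination_repr v]
    rw [Finsupp.linearCombination_apply, Finsupp.linearCombination_apply,
      Finsupp.sum_mapRange_index (by intro j; simp)]
    rw [Finsupp.sum, Finsupp.sum, Submodule.coe_sum]
    refine Finset.sum_congr rfl fun j _ => ?_
    rw [Basis.extendOfIsLattice_apply, Submodule.coe_smul_of_tower, algebraMap_smul]
  rw [hv, Basis.repr_linearCombination]
  simp

lemma charpoly_latticeRep_map (hB : BoundedDenominators O ρ) (h : G) :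
    haveI := colLattice_isLattice ρ hB
    (LinearMap.charpoly (latticeRep (O := O) ρ h)).map (algebraMap O E) = (ρ h).charpoly := by
  classical
  haveI := colLattice_isLattice ρ hB
  let b := Module.Free.chooseBasis O (colLattice O ρ)
  haveI : Fintype (Module.Free.ChooseBasisIndex O (colLattice O ρ)) :=
    Module.Free.ChooseBasisIndex.fintype O _
  rw [← LinearMap.charpoly_toMatrix (latticeRep (O := O) ρ h) b, ← Matrix.charpoly_map,
    ← Matrix.charpoly_mulVecLin (ρ h),
    ← LinearMap.charpoly_toMatrix (Matrix.mulVecLin (ρ h)) (b.extendOfIsLattice E)]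
  congr 1
  ext i j
  rw [Matrix.map_apply, LinearMap.toMatrix_apply, LinearMap.toMatrix_apply,
    Basis.extendOfIsLattice_apply, ← extendOfIsLattice_repr_coe]
  rfl

/-- If the trace and determinant of `ρ h` come from `t, d : O`, the characteristic polynomial of
`h` on the lattice is `X² - t X + d`. -/
lemma charpoly_latticeRep (hB : BoundedDenominators O ρ) (h : G) (t d : O)
    (ht : algebraMap O E t = (ρ h).trace) (hd : algebraMap O E d = (ρ h).det) :
    haveI := colLattice_isLattice ρ hB
    LinearMap.charpoly (latticeRep (O := O) ρ h) = X ^ 2 - C t * X + C d := by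
  haveI := colLattice_isLattice ρ hB
  apply Polynomial.map_injective (algebraMap O E) (IsFractionRing.injective O E)
  rw [charpoly_latticeRep_map ρ hB h, Matrix.charpoly_fin_two, ← ht, ← hd]
  simp

lemma finrank_colLattice (hB : BoundedDenominators O ρ) :
    Module.finrank O (colLattice O ρ) = 2 := by
  haveI := colLattice_isLattice ρ hB
  rw [Submodule.IsLattice.finrank_of_pi E]
  simp

end IsLattice

section Galois

local notation "Γℚ" => (AlgebraicClosure ℚ ≃ₐ[ℚ] AlgebraicClosure ℚ)

variable {O : Type} [CommRing O] [IsDomain O] [IsDiscreteValuationRing O]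
variable {E : Type} [Field E] [Algebra O E] [IsFractionRing O E]
variable (ρ : Γℚ →* Matrix (Fin 2) (Fin 2) E)

/-- Entrywise adic continuity of a matrix representation of the absolute Galois group of `ℚ` over
the fraction field of a local ring `O`: for every `n`, on a finite level, the entries of
`ρ (σ g)` and of `ρ g` differ by elements of `𝔪ⁿ`. -/
def EntrywiseAdicContinuous (O : Type) [CommRing O] [IsLocalRing O] {E : Type} [Field E]
    [Algebra O E] (ρ : Γℚ →* Matrix (Fin 2) (Fin 2) E) : Prop :=
  ∀ n : ℕ, ∃ L : IntermediateField ℚ (AlgebraicClosure ℚ), FiniteDimensional ℚ L ∧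
    ∀ σ : Γℚ, (∀ x ∈ L, σ x = x) → ∀ (g : Γℚ) (i j : Fin 2),
      ∃ r ∈ IsLocalRing.maximalIdeal O ^ n, algebraMap O E r = ρ (σ * g) i j - ρ g i j

omit [IsDomain O] [IsDiscreteValuationRing O] [IsFractionRing O E] in
lemma latticeRep_sub_mem_smul_top [IsLocalRing O] {n : ℕ} {σ : Γℚ}
    (hσ : ∀ (g : Γℚ) (i j : Fin 2),
      ∃ r ∈ IsLocalRing.maximalIdeal O ^ n, algebraMap O E r = ρ (σ * g) i j - ρ g i j)
    (v : colLattice O ρ) :
    latticeRep ρ σ v - v ∈
      (IsLocalRing.maximalIdeal O ^ n) • (⊤ : Submodule O (colLattice O ρ)) := by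
  have hle : Submodule.span O (Set.range fun p : Γℚ × Fin 2 => colGen (O := O) ρ p.1 p.2) ≤
      ((IsLocalRing.maximalIdeal O ^ n) • (⊤ : Submodule O (colLattice O ρ))).comap
        (latticeRep (O := O) ρ σ - 1) := by
    refine Submodule.span_le.mpr ?_
    rintro _ ⟨⟨g, j⟩, rfl⟩
    choose r hrm hr using fun i => hσ g i j
    have key : (latticeRep (O := O) ρ σ - 1) (colGen ρ g j) =
        ∑ i, r i • (⟨Pi.single i 1, single_mem_colLattice ρ i⟩ : colLattice O ρ) := by
      apply Subtype.ext
      rw [LinearMap.sub_apply, Module.End.one_apply, Submodule.coe_sub, latticeRep_apply_coe,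
        Submodule.coe_sum]
      change (ρ σ).mulVec (colVec ρ g j) - colVec ρ g j = _
      rw [mulVec_colVec]
      funext k
      rw [Finset.sum_apply]
      have : ∀ i : Fin 2, ((r i • (⟨Pi.single i 1, single_mem_colLattice ρ i⟩ :
          colLattice O ρ) : colLattice O ρ) : Fin 2 → E) k =
          if k = i then algebraMap O E (r i) else 0 := by
        intro i
        rw [Submodule.coe_smul_of_tower, Pi.smul_apply]
        change r i • (Pi.single i 1 : Fin 2 → E) k = _
        rw [Pi.single_apply]
        split_ifs <;> simp [Algebra.smul_def]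
      simp only [this, Finset.sum_ite_eq, Finset.mem_univ, if_true, Pi.sub_apply, colVec]
      rw [hr k]
    rw [SetLike.mem_coe, Submodule.mem_comap]
    change (latticeRep (O := O) ρ σ - 1) (colGen ρ g j) ∈ _
    rw [key]
    exact Submodule.sum_mem _ fun i _ => Submodule.smul_mem_smul (hrm i) Submodule.mem_top
  have hv : v ∈ Submodule.span O (Set.range fun p : Γℚ × Fin 2 => colGen (O := O) ρ p.1 p.2) := by
    rw [span_colGen_eq_top]
    trivial
  exact hle hv

omit [IsDomain O] [IsDiscreteValuationRing O] [IsFractionRing O E] in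
lemma latticeRep_isAdicContinuous [IsLocalRing O] (hC : EntrywiseAdicContinuous O ρ) :
    GaloisActionIsAdicContinuous O (latticeRep (O := O) ρ) := by
  intro n
  obtain ⟨L, hL, h⟩ := hC n
  exact ⟨L, hL, fun σ hσ v => latticeRep_sub_mem_smul_top ρ (h σ hσ) v⟩

/-- In a discrete valuation ring, if `D ≠ 0` then there is `k` such that every `r ∈ 𝔪^(n+k)`
with `r = D * y` in the fraction field has `y` coming from `𝔪ⁿ`. -/
lemma exists_shift_of_ne_zero {D : O} (hD : D ≠ 0) :
    ∃ k : ℕ, ∀ (n : ℕ) (r : O) (y : E), r ∈ IsLocalRing.maximalIdeal O ^ (n + k) →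
      algebraMap O E r = algebraMap O E D * y →
      ∃ s ∈ IsLocalRing.maximalIdeal O ^ n, algebraMap O E s = y := by
  obtain ⟨ϖ, hϖ⟩ := IsDiscreteValuationRing.exists_irreducible O
  obtain ⟨k, u, hu⟩ := IsDiscreteValuationRing.eq_unit_mul_pow_irreducible hD hϖ
  have hDE : algebraMap O E D ≠ 0 := by
    rwa [Ne, map_eq_zero_iff _ (IsFractionRing.injective O E)]
  refine ⟨k, fun n r y hr hy => ?_⟩
  rw [hϖ.maximalIdeal_eq, Ideal.span_singleton_pow, Ideal.mem_span_singleton] at hr
  obtain ⟨s, rfl⟩ := hr
  refine ⟨ϖ ^ n * (↑u⁻¹ * s), ?_, ?_⟩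
  · rw [hϖ.maximalIdeal_eq, Ideal.span_singleton_pow, Ideal.mem_span_singleton]
    exact Dvd.intro _ rfl
  · apply mul_left_cancel₀ hDE
    rw [← hy, ← map_mul, hu]
    congr 1
    have : (u : O) * ↑u⁻¹ = 1 := Units.mul_inv u
    calc (u : O) * ϖ ^ k * (ϖ ^ n * (↑u⁻¹ * s)) = ((u : O) * ↑u⁻¹) * (ϖ ^ (n + k) * s) := by ring
      _ = ϖ ^ (n + k) * s := by rw [this, one_mul]

/-- Entrywise adic continuity may be checked after multiplying by a common denominator. -/
lemma entrywiseAdicContinuous_of_mul {D : O} (hD : D ≠ 0)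
    (h : ∀ n : ℕ, ∃ L : IntermediateField ℚ (AlgebraicClosure ℚ), FiniteDimensional ℚ L ∧
      ∀ σ : Γℚ, (∀ x ∈ L, σ x = x) → ∀ (g : Γℚ) (i j : Fin 2),
        ∃ r ∈ IsLocalRing.maximalIdeal O ^ n,
          algebraMap O E r = algebraMap O E D * (ρ (σ * g) i j - ρ g i j)) :
    EntrywiseAdicContinuous O ρ := by
  obtain ⟨k, hk⟩ := exists_shift_of_ne_zero (E := E) hD
  intro n
  obtain ⟨L, hL, hσ⟩ := h (n + k)
  refine ⟨L, hL, fun σ hσL g i j => ?_⟩
  obtain ⟨r, hr, hr'⟩ := hσ σ hσL g i j
  exact hk n r _ hr hr'

/-- The `GaloisRepAdic` on the column lattice of a matrix representation with bounded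
denominators and entrywise adically continuous. -/
noncomputable def galoisRepAdicOfMatrix (hB : BoundedDenominators O ρ)
    (hC : EntrywiseAdicContinuous O ρ) : GaloisRepAdic O :=
  haveI := colLattice_isLattice ρ hB
  { V := colLattice O ρ
    finrank_eq := finrank_colLattice ρ hB
    ρ := latticeRep ρ
    isAdicContinuous := latticeRep_isAdicContinuous ρ hC }

lemma galoisRepAdicOfMatrix_charpoly (hB : BoundedDenominators O ρ)
    (hC : EntrywiseAdicContinuous O ρ) (σ : Γℚ) (t d : O)
    (ht : algebraMap O E t = (ρ σ).trace) (hd : algebraMap O E d = (ρ σ).det) :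
    LinearMap.charpoly ((galoisRepAdicOfMatrix ρ hB hC).ρ σ) = X ^ 2 - C t * X + C d :=
  charpoly_latticeRep ρ hB σ t d ht hd

lemma galoisRepAdicOfMatrix_apply_eq_one (hB : BoundedDenominators O ρ)
    (hC : EntrywiseAdicContinuous O ρ) {σ : Γℚ} (hσ : ρ σ = 1) :
    (galoisRepAdicOfMatrix ρ hB hC).ρ σ = 1 :=
  latticeRep_eq_one_of_eq_one ρ hσ

lemma galoisRepAdicOfMatrix_isUnramifiedAt (hB : BoundedDenominators O ρ)
    (hC : EntrywiseAdicContinuous O ρ) (q : ℕ)
    (hq : ∀ P : ValuationSubring (AlgebraicClosure ℚ), P.LiesOverPrime q →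
      ∀ σ ∈ P.inertiaSubgroupIn ℚ, ρ σ = 1) :
    (galoisRepAdicOfMatrix ρ hB hC).IsUnramifiedAt q :=
  fun P hP σ hσ => galoisRepAdicOfMatrix_apply_eq_one ρ hB hC (hq P hP σ hσ)

end Galois

end Fermat.Agent.Pseudo
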