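/-
PROGRAM T (S30/S31), node (T4) (helper27): **Wiles's lemma** — a 2-dimensional pseudo-representation
with a "complex conjugation" is the trace of an explicit representation.

`E` a field with `2 ≠ 0`, `G` a group, `d : G →* Eˣ`, `t : G → E` with
(P1) `t 1 = 2`, (P2) `t (g h) = t (h g)`, (P3) `t (g h) + d h * t (g h⁻¹) = t g * t h`,
and `c : G` with `c * c = 1`, `t c = 0`, `d c = -1`.  Then (`wiles_exists_rep`) there is
`ρ : G →* Matrix (Fin 2) (Fin 2) E` with `trace (ρ g) = t g`, `det (ρ g) = d g` and explicit entries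
`ρ g = !![a g, b g; γ g, δ g]`, `a g = (t g + t (c g))/2`, `δ g = (t g - t (c g))/2`,
`x g h := a (g h) - a g * a h = b g * γ h`, and either `b = γ = 0` or
`b g = x g h0 / x g0 h0`, `γ g = x g0 g` for a fixed pair with `x g0 h0 ≠ 0`.

Proof: `T :=` linear extension of `t` to the group algebra is cyclic and satisfies the product rules
`T (u e v e) = T (u e) T (v e)`, `T (u f v f) = T (u f) T (v f)` for the idempotents
`e = (1 + c)/2`, `f = 1 - e` (both are (P3) summed four times); everything else is formal
(`IdemTrace`).  Mathlib only.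
-/
import Mathlib

set_option autoImplicit false
set_option linter.unusedSectionVars false

namespace Fermat.Agent.Pseudo

section Abstract

variable {E R : Type*} [Field E] [Ring R] [Algebra E R]

/-- A trace-like functional on a (noncommutative) algebra with a pair of complementary
idempotents `e + f = 1` satisfying the two product rules. -/
structure IdemTrace (T : R →ₗ[E] E) (e f : R) : Prop where
  cyc : ∀ u v, T (u * v) = T (v * u)
  add_eq : e + f = 1
  ee : e * e = e
  Te : T e = 1
  Tf : T f = 1
  ruleE : ∀ u v, T (u * e * v * e) = T (u * e) * T (v * e)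
  ruleF : ∀ u v, T (u * f * v * f) = T (u * f) * T (v * f)

namespace IdemTrace

variable {T : R →ₗ[E] E} {e f : R} (H : IdemTrace T e f)
include H

theorem f_eq : f = 1 - e := by rw [← H.add_eq]; abel

theorem ef : e * f = 0 := by rw [H.f_eq, mul_sub, mul_one, H.ee, sub_self]

theorem fe : f * e = 0 := by rw [H.f_eq, sub_mul, one_mul, H.ee, sub_self]

theorem ff : f * f = f := by
  rw [H.f_eq, mul_sub, mul_one, sub_mul, one_mul, H.ee, sub_self, sub_zero]

/-- the diagonal and off-diagonal functions -/
def A (_H : IdemTrace T e f) (u : R) : E := T (e * u)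
def D (_H : IdemTrace T e f) (u : R) : E := T (f * u)
def X (_H : IdemTrace T e f) (u v : R) : E := T (e * u * f * v)

theorem A_add_D (u : R) : H.A u + H.D u = T u := by
  rw [A, D, ← map_add, ← add_mul, H.add_eq, one_mul]

theorem A_one : H.A 1 = 1 := by rw [A, mul_one, H.Te]

theorem D_one : H.D 1 = 1 := by rw [D, mul_one, H.Tf]

theorem X_one_left (v : R) : H.X 1 v = 0 := by
  rw [X, mul_one, H.ef, zero_mul, map_zero]

theorem X_one_right (u : R) : H.X u 1 = 0 := by
  rw [X, mul_one, H.cyc, ← mul_assoc, H.fe, zero_mul, map_zero]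

/-- `T(e u e v) = A u * A v` -/
theorem T_eue (u v : R) : T (e * u * e * v) = H.A u * H.A v := by
  have h1 : T (e * u * e * v) = T (u * e * v * e) := by
    rw [show e * u * e * v = e * (u * e * v) by noncomm_ring, H.cyc]
  rw [h1, H.ruleE, A, A, H.cyc u e, H.cyc v e]

/-- `T(f u f v) = D u * D v` -/
theorem T_fuf (u v : R) : T (f * u * f * v) = H.D u * H.D v := by
  have h1 : T (f * u * f * v) = T (u * f * v * f) := by
    rw [show f * u * f * v = f * (u * f * v) by noncomm_ring, H.cyc]
  rw [h1, H.ruleF, D, D, H.cyc u f, H.cyc v f]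

theorem A_mul (u v : R) : H.A (u * v) = H.A u * H.A v + H.X u v := by
  rw [← H.T_eue, X, ← map_add, A]
  congr 1
  have : e * (u * v) = e * u * (e + f) * v := by rw [H.add_eq]; noncomm_ring
  rw [this]; noncomm_ring

theorem D_mul (u v : R) : H.D (u * v) = H.D u * H.D v + H.X v u := by
  have hX : H.X v u = T (f * u * e * v) := by
    rw [X, show e * v * f * u = (e * v) * (f * u) by noncomm_ring, H.cyc]
    congr 1; noncomm_ring
  rw [← H.T_fuf, hX, ← map_add, D]
  congr 1
  have : f * (u * v) = f * u * (e + f) * v := by rw [H.add_eq]; noncomm_ring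
  rw [this]; noncomm_ring

theorem X_mul_left (u v w : R) : H.X (u * v) w = H.A u * H.X v w + H.D v * H.X u w := by
  have h1 : T (e * u * e * v * f * w) = H.A u * H.X v w := by
    rw [show e * u * e * v * f * w = e * (u * e * (v * f * w)) by noncomm_ring, H.cyc,
      show u * e * (v * f * w) * e = u * e * (v * f * w) * e by rfl, H.ruleE, A, X, H.cyc u e,
      H.cyc (v * f * w) e]
    congr 2; noncomm_ring
  have h2 : T (e * u * f * v * f * w) = H.D v * H.X u w := by
    rw [show e * u * f * v * f * w = (e * u * f * v * f) * w by noncomm_ring, H.cyc,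
      show w * (e * u * f * v * f) = (w * e * u) * f * v * f by noncomm_ring, H.ruleF, D, X,
      H.cyc v f, mul_comm]
    congr 1
    rw [show w * e * u * f = w * (e * u * f) by noncomm_ring, H.cyc]
  rw [← h1, ← h2, ← map_add, X]
  congr 1
  have : e * (u * v) * f * w = e * u * (e + f) * v * f * w := by rw [H.add_eq]; noncomm_ring
  rw [this]; noncomm_ring

theorem X_mul_right (w u v : R) : H.X w (u * v) = H.X w u * H.A v + H.D u * H.X w v := by
  have h1 : T (e * w * f * u * e * v) = H.X w u * H.A v := by
    rw [show e * w * f * u * e * v = e * ((w * f * u) * e * v) by noncomm_ring, H.cyc,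
      H.ruleE, A, X, H.cyc v e, H.cyc (w * f * u) e]
    congr 2; noncomm_ring
  have h2 : T (e * w * f * u * f * v) = H.D u * H.X w v := by
    rw [show e * w * f * u * f * v = (e * w * f * u * f) * v by noncomm_ring, H.cyc,
      show v * (e * w * f * u * f) = (v * e * w) * f * u * f by noncomm_ring, H.ruleF, D, X,
      H.cyc u f, mul_comm]
    congr 1
    rw [show v * e * w * f = v * (e * w * f) by noncomm_ring, H.cyc]
  rw [← h1, ← h2, ← map_add, X]
  congr 1
  have : e * w * f * (u * v) = e * w * f * u * (e + f) * v := by rw [H.add_eq]; noncomm_ring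
  rw [this]; noncomm_ring

/-- **(III)**: the rank-one identity of the off-diagonal function. -/
theorem X_mul_X (u v u' v' : R) : H.X u v * H.X u' v' = H.X u' v * H.X u v' := by
  have h1 : T (e * u * f * v * e * u' * f * v' * e) = H.X u v * H.X u' v' := by
    rw [show e * u * f * v * e * u' * f * v' * e = (e * u * f * v) * e * (u' * f * v') * e by
      noncomm_ring, H.ruleE, X, X, H.cyc (e * u * f * v) e, H.cyc (u' * f * v') e]
    congr 2
    · rw [show e * (e * u * f * v) = (e * e) * u * f * v by noncomm_ring, H.ee]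
    · noncomm_ring
  have h2 : T (e * u * f * v * e * u' * f * v' * e) = H.X u' v * H.X u v' := by
    rw [show e * u * f * v * e * u' * f * v' * e = (e * u) * (f * v * e * u' * f * v' * e) by
      noncomm_ring, H.cyc,
      show f * v * e * u' * f * v' * e * (e * u) = f * ((v * e * u') * f * (v' * (e * e) * u)) by
      noncomm_ring, H.cyc, H.ee, H.ruleF, X, X]
    congr 1
    · rw [show v * e * u' * f = v * (e * u' * f) by noncomm_ring, H.cyc]
    · rw [show v' * e * u * f = v' * (e * u * f) by noncomm_ring, H.cyc]
  rw [← h1, h2]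

section Rep

variable {G : Type*} [Monoid G] (ι : G →* R)

/-- the off-diagonal functions: `X (ι g) (ι h) = b g * γ h` with the two cocycle-type identities -/
theorem exists_offdiag :
    ∃ (b γ : G → E),
      (∀ g h, H.X (ι g) (ι h) = b g * γ h) ∧
      (∀ g h, b (g * h) = H.A (ι g) * b h + b g * H.D (ι h)) ∧
      (∀ g h, γ (g * h) = γ g * H.A (ι h) + H.D (ι g) * γ h) ∧
      b 1 = 0 ∧ γ 1 = 0 ∧
      ((∀ g, b g = 0 ∧ γ g = 0) ∨
        ∃ g0 h0, H.X (ι g0) (ι h0) ≠ 0 ∧
          ∀ g, b g = H.X (ι g) (ι h0) / H.X (ι g0) (ι h0) ∧ γ g = H.X (ι g0) (ι g)) := by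
  by_cases hX : ∀ g h, H.X (ι g) (ι h) = 0
  · exact ⟨fun _ => 0, fun _ => 0, fun g h => by rw [hX, zero_mul], fun g h => by simp,
      fun g h => by simp, rfl, rfl, Or.inl fun g => ⟨rfl, rfl⟩⟩
  · have hX' : ∃ g0 h0, H.X (ι g0) (ι h0) ≠ 0 := by
      by_contra hcon
      apply hX
      intro g h
      by_contra hne
      exact hcon ⟨g, h, hne⟩
    obtain ⟨g0, h0, hx0⟩ := hX'
    refine ⟨fun g => H.X (ι g) (ι h0) / H.X (ι g0) (ι h0), fun g => H.X (ι g0) (ι g),
      fun g h => ?_, fun g h => ?_, fun g h => ?_, ?_, ?_, Or.inr ⟨g0, h0, hx0, fun g => ⟨rfl, rfl⟩⟩⟩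
    · rw [div_mul_eq_mul_div, eq_div_iff hx0, H.X_mul_X (ι g) (ι h) (ι g0) (ι h0), mul_comm]
    · show H.X (ι (g * h)) (ι h0) / _ = _
      rw [map_mul, H.X_mul_left]
      field_simp
    · show H.X (ι g0) (ι (g * h)) = _
      rw [map_mul, H.X_mul_right]
    · show H.X (ι 1) (ι h0) / _ = 0
      rw [map_one, H.X_one_left, zero_div]
    · show H.X (ι g0) (ι 1) = 0
      rw [map_one, H.X_one_right]

end Rep

end IdemTrace

end Abstract

open MonoidAlgebra

section Concrete

variable {E G : Type*} [Field E] [Group G]

/-- linear extension of a function on `G` to the group algebra -/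
noncomputable def linExt (t : G → E) : MonoidAlgebra E G →ₗ[E] E :=
  (Finsupp.linearCombination E t).comp (coeffLinearEquiv E).toLinearMap

theorem linExt_single (t : G → E) (g : G) (a : E) : linExt t (single g a) = a * t g := by
  simp [linExt]

theorem linExt_cyc (t : G → E) (P2 : ∀ g h, t (g * h) = t (h * g)) (u v : MonoidAlgebra E G) :
    linExt t (u * v) = linExt t (v * u) := by
  induction u using induction_linear with
  | zero => simp
  | add x y hx hy => rw [add_mul, mul_add, map_add, map_add, hx, hy]
  | single g a =>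
    induction v using induction_linear with
    | zero => simp
    | add x y hx hy => rw [add_mul, mul_add, map_add, map_add, hx, hy]
    | single h b =>
      rw [single_mul_single, single_mul_single, linExt_single, linExt_single, P2, mul_comm a b]

section Scalar

variable (d : G →* Eˣ) (t : G → E)
  (P3 : ∀ g h, t (g * h) + (d h : E) * t (g * h⁻¹) = t g * t h)
  (c : G) (hc : c * c = 1) (hdc : d c = -1)

include P3 hc hdc in
theorem P3_four (g h : G) :
    (t (g * h) + (d h : E) * t (g * h⁻¹) = t g * t h) ∧
    (t (g * h * c) - (d h : E) * t (g * c * h⁻¹) = t g * t (h * c)) ∧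
    (t (g * c * h) + (d h : E) * t (g * c * h⁻¹) = t (g * c) * t h) ∧
    (t (g * c * h * c) - (d h : E) * t (g * h⁻¹) = t (g * c) * t (h * c)) := by
  have hcinv : c⁻¹ = c := inv_eq_of_mul_eq_one_right hc
  have hdhc : ((d (h * c) : Eˣ) : E) = - (d h : E) := by
    rw [map_mul, hdc]; simp
  refine ⟨P3 g h, ?_, P3 (g * c) h, ?_⟩
  · have := P3 g (h * c)
    rw [hdhc, mul_inv_rev, hcinv, ← mul_assoc, ← mul_assoc] at this
    rw [← this]; ring
  · have := P3 (g * c) (h * c)
    rw [hdhc, mul_inv_rev, hcinv, ← mul_assoc, ← mul_assoc, mul_assoc g c c, hc, mul_one] at this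
    rw [← this]; ring

include P3 hc hdc in
theorem sum_E (g h : G) :
    (t g + t (g * c)) * (t h + t (h * c)) =
      t (g * h) + t (g * h * c) + t (g * c * h) + t (g * c * h * c) := by
  obtain ⟨h1, h2, h3, h4⟩ := P3_four d t P3 c hc hdc g h
  linear_combination (-1 : E) * h1 - h2 - h3 - h4

include P3 hc hdc in
theorem sum_F (g h : G) :
    (t g - t (g * c)) * (t h - t (h * c)) =
      t (g * h) - t (g * h * c) - t (g * c * h) + t (g * c * h * c) := by
  obtain ⟨h1, h2, h3, h4⟩ := P3_four d t P3 c hc hdc g h
  linear_combination (-1 : E) * h1 + h2 + h3 - h4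

end Scalar

section Idem

/-- the idempotent `(1 + c)/2` -/
noncomputable def idemE (c : G) : MonoidAlgebra E G := single 1 (1 / 2) + single c (1 / 2)

/-- the idempotent `(1 - c)/2` -/
noncomputable def idemF (c : G) : MonoidAlgebra E G := single 1 (1 / 2) - single c (1 / 2)

variable (h2 : (2 : E) ≠ 0) (d : G →* Eˣ) (t : G → E)
  (P1 : t 1 = 2) (P2 : ∀ g h, t (g * h) = t (h * g))
  (P3 : ∀ g h, t (g * h) + (d h : E) * t (g * h⁻¹) = t g * t h)
  (c : G) (hc : c * c = 1) (htc : t c = 0) (hdc : d c = -1)

include h2 in
theorem idemE_add_idemF : (idemE c : MonoidAlgebra E G) + idemF c = 1 := by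
  rw [idemE, idemF, add_add_sub_cancel, ← single_add, one_def]
  congr 1
  field_simp
  norm_num

include h2 hc in
theorem idemE_mul_self : (idemE c : MonoidAlgebra E G) * idemE c = idemE c := by
  simp only [idemE, mul_add, add_mul, single_mul_single, mul_one, one_mul, hc]
  have hxy : ∀ x y : MonoidAlgebra E G, x + y + (y + x) = (x + x) + (y + y) := by
    intros; abel
  rw [hxy, ← single_add, ← single_add]
  congr 2 <;> · field_simp; norm_num

include P1 htc h2 in
theorem linExt_idemE : linExt t (idemE c) = 1 := by
  rw [idemE, map_add, linExt_single, linExt_single, P1, htc]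
  field_simp
  norm_num

include P1 htc h2 in
theorem linExt_idemF : linExt t (idemF c) = 1 := by
  rw [idemF, map_sub, linExt_single, linExt_single, P1, htc]
  field_simp
  norm_num

include h2 P3 hc hdc in
theorem linExt_ruleE (u v : MonoidAlgebra E G) :
    linExt t (u * idemE c * v * idemE c) = linExt t (u * idemE c) * linExt t (v * idemE c) := by
  induction u using induction_linear with
  | zero => simp
  | add x y hx hy => simp only [add_mul, map_add, hx, hy]
  | single g a =>
    induction v using induction_linear with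
    | zero => simp
    | add x y hx hy => simp only [add_mul, mul_add, map_add, hx, hy]
    | single h b =>
      have hE := sum_E d t P3 c hc hdc g h
      simp only [idemE, mul_add, add_mul, single_mul_single, map_add, linExt_single, mul_one,
        mul_assoc] at hE ⊢
      field_simp
      linear_combination (-a * b) * hE

include h2 P3 hc hdc in
theorem linExt_ruleF (u v : MonoidAlgebra E G) :
    linExt t (u * idemF c * v * idemF c) = linExt t (u * idemF c) * linExt t (v * idemF c) := by
  induction u using induction_linear with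
  | zero => simp
  | add x y hx hy => simp only [add_mul, map_add, hx, hy]
  | single g a =>
    induction v using induction_linear with
    | zero => simp
    | add x y hx hy => simp only [add_mul, mul_add, map_add, hx, hy]
    | single h b =>
      have hF := sum_F d t P3 c hc hdc g h
      simp only [idemF, mul_sub, sub_mul, single_mul_single, map_sub, linExt_single, mul_one,
        mul_assoc] at hF ⊢
      field_simp
      linear_combination (-a * b) * hF

end Idem

section Main

variable (h2 : (2 : E) ≠ 0) (d : G →* Eˣ) (t : G → E)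
  (P1 : t 1 = 2) (P2 : ∀ g h, t (g * h) = t (h * g))
  (P3 : ∀ g h, t (g * h) + (d h : E) * t (g * h⁻¹) = t g * t h)
  (c : G) (hc : c * c = 1) (htc : t c = 0) (hdc : d c = -1)

/-- the upper-left entry -/
noncomputable def aFun (t : G → E) (c g : G) : E := (t g + t (c * g)) / 2

/-- the lower-right entry -/
noncomputable def dFun (t : G → E) (c g : G) : E := (t g - t (c * g)) / 2

/-- the rank-one function `x g h = a (g h) - a g * a h` -/
noncomputable def xFun (t : G → E) (c g h : G) : E :=
  aFun t c (g * h) - aFun t c g * aFun t c h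

include h2 P1 P2 P3 hc htc hdc in
theorem idemTrace : IdemTrace (linExt t) (idemE c) (idemF c) where
  cyc := linExt_cyc t P2
  add_eq := idemE_add_idemF h2 c
  ee := idemE_mul_self h2 c hc
  Te := linExt_idemE h2 t P1 c htc
  Tf := linExt_idemF h2 t P1 c htc
  ruleE := linExt_ruleE h2 d t P3 c hc hdc
  ruleF := linExt_ruleF h2 d t P3 c hc hdc

include h2 in
theorem A_of (H : IdemTrace (linExt t) (idemE c) (idemF c)) (g : G) :
    H.A (of E G g) = aFun t c g := by
  rw [IdemTrace.A, aFun, of_apply, idemE, add_mul, single_mul_single, single_mul_single, map_add,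
    linExt_single, linExt_single, one_mul, mul_one]
  field_simp

include h2 in
theorem D_of (H : IdemTrace (linExt t) (idemE c) (idemF c)) (g : G) :
    H.D (of E G g) = dFun t c g := by
  rw [IdemTrace.D, dFun, of_apply, idemF, sub_mul, single_mul_single, single_mul_single, map_sub,
    linExt_single, linExt_single, one_mul, mul_one]
  field_simp

include h2 in
theorem X_of (H : IdemTrace (linExt t) (idemE c) (idemF c)) (g h : G) :
    H.X (of E G g) (of E G h) = xFun t c g h := by
  have := H.A_mul (of E G g) (of E G h)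
  rw [← map_mul, A_of h2 t c H, A_of h2 t c H, A_of h2 t c H] at this
  rw [xFun, this]
  ring

include h2 P1 P3 htc in
/-- the determinant identity -/
theorem det_identity (g : G) :
    (d g : E) = aFun t c g * dFun t c g - xFun t c g g := by
  have h1 := P3 g g
  have h3 := P3 (c * g) g
  rw [mul_inv_cancel, P1] at h1
  rw [mul_assoc, mul_inv_cancel_right, htc, mul_zero, add_zero] at h3
  rw [xFun, aFun, dFun, aFun]
  field_simp
  linear_combination (2 : E) * h1 + 2 * h3

include h2 P1 P2 P3 hc htc hdc in
/-- **Wiles's lemma**: a 2-dimensional pseudo-representation `(t, d)` with a complex conjugation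
`c` is the trace/determinant of an explicit representation. -/
theorem wiles_exists_rep :
    ∃ (b γ : G → E) (ρ : G →* Matrix (Fin 2) (Fin 2) E),
      (∀ g, ρ g = !![aFun t c g, b g; γ g, dFun t c g]) ∧
      (∀ g, (ρ g).trace = t g) ∧ (∀ g, (ρ g).det = d g) ∧
      (∀ g h, xFun t c g h = b g * γ h) ∧
      ((∀ g, b g = 0 ∧ γ g = 0) ∨
        ∃ g0 h0, xFun t c g0 h0 ≠ 0 ∧
          ∀ g, b g = xFun t c g h0 / xFun t c g0 h0 ∧ γ g = xFun t c g0 g) := by
  have H := idemTrace h2 d t P1 P2 P3 c hc htc hdc
  obtain ⟨b, γ, hX, hb, hγ, hb1, hγ1, hcase⟩ := H.exists_offdiag (of E G)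
  simp only [A_of h2 t c H, D_of h2 t c H, X_of h2 t c H] at hX hb hγ hcase
  have hA_mul : ∀ g h, aFun t c (g * h) = aFun t c g * aFun t c h + b g * γ h := by
    intro g h
    rw [← hX g h, xFun]; ring
  have hD_mul : ∀ g h, dFun t c (g * h) = γ g * b h + dFun t c g * dFun t c h := by
    intro g h
    have := H.D_mul (of E G g) (of E G h)
    rw [← map_mul, D_of h2 t c H, D_of h2 t c H, D_of h2 t c H, X_of h2 t c H, hX h g] at this
    rw [this]; ring
  have hA1 : aFun t c 1 = 1 := by rw [← A_of h2 t c H, map_one, H.A_one]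
  have hD1 : dFun t c 1 = 1 := by rw [← D_of h2 t c H, map_one, H.D_one]
  refine ⟨b, γ,
    { toFun := fun g => !![aFun t c g, b g; γ g, dFun t c g]
      map_one' := by
        rw [hA1, hD1, hb1, hγ1]
        exact Matrix.one_fin_two.symm
      map_mul' := fun g h => by
        rw [Matrix.mul_fin_two, hA_mul, hb, hγ, hD_mul] },
    fun g => rfl, fun g => ?_, fun g => ?_, hX, hcase⟩
  · show (!![aFun t c g, b g; γ g, dFun t c g]).trace = t g
    rw [Matrix.trace_fin_two_of, aFun, dFun]
    field_simp
    ring
  · show (!![aFun t c g, b g; γ g, dFun t c g]).det = d g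
    rw [Matrix.det_fin_two_of, det_identity h2 d t P1 P3 c htc g, hX g g]

end Main

end Concrete

end Fermat.Agent.Pseudo
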