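/-
Program T, glue (T4) -> (T5) (= the core of (T6)): a continuous two-dimensional
pseudo-representation `(t, d)` of the absolute Galois group of `ℚ` with values in a discrete
valuation ring `O` (with `2 ≠ 0`) and a complex conjugation is the trace/determinant of a
`GaloisRepAdic O`, trivial on every `σ` with `t (σ g) = t g` for all `g`.
-/
import Fermat.Agent.Pseudo.Lattice
import Fermat.Agent.Pseudo.Wiles

set_option autoImplicit false
set_option linter.style.haveILetI false
set_option linter.unusedSectionVars false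

namespace Fermat.Agent.Pseudo

open Polynomial

section Entries

variable {O : Type*} [CommRing O] [IsDomain O]
variable {E : Type*} [Field E] [Algebra O E] [IsFractionRing O E]
variable {G : Type*} [Group G] (t : G → O) (c : G)

/-- `2 a(g)` as an element of `O`. -/
def twoA (g : G) : O := t g + t (c * g)

/-- `2 δ(g)` as an element of `O`. -/
def twoD (g : G) : O := t g - t (c * g)

/-- `4 x(g, h)` as an element of `O`. -/
def fourX (g h : G) : O := 2 * twoA t c (g * h) - twoA t c g * twoA t c h

/-- The `E`-valued function attached to `t`. -/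
def toFrac (E : Type*) [Field E] [Algebra O E] (t : G → O) : G → E := fun g => algebraMap O E (t g)

variable (h2 : (2 : E) ≠ 0)

include h2 in
lemma aFun_toFrac (g : G) : aFun (toFrac E t) c g = algebraMap O E (twoA t c g) / 2 := by
  rw [aFun, twoA, map_add]; rfl

include h2 in
lemma dFun_toFrac (g : G) : dFun (toFrac E t) c g = algebraMap O E (twoD t c g) / 2 := by
  rw [dFun, twoD, map_sub]; rfl

include h2 in
lemma xFun_toFrac (g h : G) :
    xFun (toFrac E t) c g h = algebraMap O E (fourX t c g h) / 4 := by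
  rw [xFun, aFun_toFrac t c h2, aFun_toFrac t c h2, aFun_toFrac t c h2, fourX]
  have h4 : (4 : E) = 2 * 2 := by norm_num
  simp only [map_sub, map_mul, map_ofNat]
  rw [h4]
  field_simp

/-- Closeness of `t` along `σ` modulo an ideal `I`. -/
def CloseAt (I : Ideal O) (σ : G) : Prop := ∀ w w' : G, t (w * σ * w') - t (w * w') ∈ I

variable {t c}

lemma CloseAt.twoA_sub_mem {I : Ideal O} {σ : G} (h : CloseAt t I σ) (w w' : G) :
    twoA t c (w * σ * w') - twoA t c (w * w') ∈ I := by
  have h1 := h w w'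
  have h3 := h (c * w) w'
  have : twoA t c (w * σ * w') - twoA t c (w * w') =
      (t (w * σ * w') - t (w * w')) + (t (c * w * σ * w') - t (c * w * w')) := by
    simp only [twoA, mul_assoc]; ring
  rw [this]
  exact I.add_mem h1 h3

lemma CloseAt.twoD_sub_mem {I : Ideal O} {σ : G} (h : CloseAt t I σ) (w w' : G) :
    twoD t c (w * σ * w') - twoD t c (w * w') ∈ I := by
  have h1 := h w w'
  have h3 := h (c * w) w'
  have : twoD t c (w * σ * w') - twoD t c (w * w') =
      (t (w * σ * w') - t (w * w')) - (t (c * w * σ * w') - t (c * w * w')) := by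
    simp only [twoD, mul_assoc]; ring
  rw [this]
  exact I.sub_mem h1 h3

lemma CloseAt.fourX_left {I : Ideal O} {σ : G} (h : CloseAt t I σ) (g h0 : G) :
    fourX t c (σ * g) h0 - fourX t c g h0 ∈ I := by
  have h1 := h.twoA_sub_mem (c := c) 1 (g * h0)
  have h3 := h.twoA_sub_mem (c := c) 1 g
  simp only [one_mul] at h1 h3
  have : fourX t c (σ * g) h0 - fourX t c g h0 =
      2 * (twoA t c (σ * (g * h0)) - twoA t c (g * h0)) -
        (twoA t c (σ * g) - twoA t c g) * twoA t c h0 := by
    simp only [fourX, mul_assoc]; ring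
  rw [this]
  exact I.sub_mem (I.mul_mem_left _ h1) (I.mul_mem_right _ h3)

lemma CloseAt.fourX_right {I : Ideal O} {σ : G} (h : CloseAt t I σ) (g0 g : G) :
    fourX t c g0 (σ * g) - fourX t c g0 g ∈ I := by
  have h1 := h.twoA_sub_mem (c := c) g0 g
  have h3 := h.twoA_sub_mem (c := c) 1 g
  simp only [one_mul] at h3
  have : fourX t c g0 (σ * g) - fourX t c g0 g =
      2 * (twoA t c (g0 * σ * g) - twoA t c (g0 * g)) -
        twoA t c g0 * (twoA t c (σ * g) - twoA t c g) := by
    simp only [fourX, mul_assoc]; ring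
  rw [this]
  exact I.sub_mem (I.mul_mem_left _ h1) (I.mul_mem_left _ h3)

end Entries

section Denominators

variable {O : Type*} [CommRing O] [IsDomain O]
variable {E : Type*} [Field E] [Algebra O E] [IsFractionRing O E]
variable {G : Type*} [Group G] (t : G → O) (c : G)

/-- A common denominator for the entries of the representation produced by Wiles's lemma from an
`O`-valued pseudo-representation, with the corresponding closeness estimate. -/
theorem exists_common_denominator (h2 : (2 : O) ≠ 0) (b γ : G → E)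
    (ρ : G →* Matrix (Fin 2) (Fin 2) E)
    (hρ : ∀ g, ρ g = !![aFun (toFrac E t) c g, b g; γ g, dFun (toFrac E t) c g])
    (hcase : (∀ g, b g = 0 ∧ γ g = 0) ∨
        ∃ g0 h0, xFun (toFrac E t) c g0 h0 ≠ 0 ∧
          ∀ g, b g = xFun (toFrac E t) c g h0 / xFun (toFrac E t) c g0 h0 ∧
            γ g = xFun (toFrac E t) c g0 g) :
    ∃ D : O, D ≠ 0 ∧ (∀ g i j, ∃ r : O, algebraMap O E r = algebraMap O E D * ρ g i j) ∧
      ∀ (I : Ideal O) (σ : G), CloseAt t I σ →
        ∀ g i j, ∃ r ∈ I, algebraMap O E r = algebraMap O E D * (ρ (σ * g) i j - ρ g i j) := by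
  have hinj := IsFractionRing.injective O E
  have h2E : (2 : E) ≠ 0 := by
    have : algebraMap O E 2 ≠ 0 := by rwa [Ne, map_eq_zero_iff _ hinj]
    rwa [map_ofNat] at this
  have e00 : ∀ g, ρ g 0 0 = algebraMap O E (twoA t c g) / 2 := fun g => by
    rw [hρ, ← aFun_toFrac t c h2E]; rfl
  have e01 : ∀ g, ρ g 0 1 = b g := fun g => by rw [hρ]; rfl
  have e10 : ∀ g, ρ g 1 0 = γ g := fun g => by rw [hρ]; rfl
  have e11 : ∀ g, ρ g 1 1 = algebraMap O E (twoD t c g) / 2 := fun g => by
    rw [hρ, ← dFun_toFrac t c h2E]; rfl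
  rcases hcase with h0 | ⟨g0, h0, hx0, hbγ⟩
  · -- diagonal case
    refine ⟨2, h2, fun g i j => ?_, fun I σ hσ g i j => ?_⟩
    · fin_cases i <;> fin_cases j
      · refine ⟨twoA t c g, ?_⟩
        change _ = _ * ρ g 0 0
        rw [e00, map_ofNat]; field_simp
      · refine ⟨0, ?_⟩
        change _ = _ * ρ g 0 1
        rw [e01, (h0 g).1, map_zero, mul_zero]
      · refine ⟨0, ?_⟩
        change _ = _ * ρ g 1 0
        rw [e10, (h0 g).2, map_zero, mul_zero]
      · refine ⟨twoD t c g, ?_⟩
        change _ = _ * ρ g 1 1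
        rw [e11, map_ofNat]; field_simp
    · have hA := hσ.twoA_sub_mem (c := c) 1 g
      have hD := hσ.twoD_sub_mem (c := c) 1 g
      simp only [one_mul] at hA hD
      fin_cases i <;> fin_cases j
      · refine ⟨_, hA, ?_⟩
        change _ = _ * (ρ (σ * g) 0 0 - ρ g 0 0)
        rw [e00, e00, map_ofNat, map_sub]; field_simp
      · refine ⟨0, I.zero_mem, ?_⟩
        change _ = _ * (ρ (σ * g) 0 1 - ρ g 0 1)
        rw [e01, e01, (h0 g).1, (h0 _).1, map_zero, sub_zero, mul_zero]
      · refine ⟨0, I.zero_mem, ?_⟩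
        change _ = _ * (ρ (σ * g) 1 0 - ρ g 1 0)
        rw [e10, e10, (h0 g).2, (h0 _).2, map_zero, sub_zero, mul_zero]
      · refine ⟨_, hD, ?_⟩
        change _ = _ * (ρ (σ * g) 1 1 - ρ g 1 1)
        rw [e11, e11, map_ofNat, map_sub]; field_simp
  · -- generic case
    have h4E : (4 : E) = 2 * 2 := by norm_num
    have hx0E : algebraMap O E (fourX t c g0 h0) ≠ 0 := by
      intro h
      apply hx0
      rw [xFun_toFrac t c h2E, h, zero_div]
    have hx0O : fourX t c g0 h0 ≠ 0 := by
      intro h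
      apply hx0E
      rw [h, map_zero]
    have hb : ∀ g, b g = algebraMap O E (fourX t c g h0) / algebraMap O E (fourX t c g0 h0) := by
      intro g
      rw [(hbγ g).1, xFun_toFrac t c h2E, xFun_toFrac t c h2E, h4E]
      field_simp
    have hγ : ∀ g, γ g = algebraMap O E (fourX t c g0 g) / 4 := by
      intro g
      rw [(hbγ g).2, xFun_toFrac t c h2E]
    have h4O : (4 : O) ≠ 0 := by
      have : (4 : O) = 2 * 2 := by norm_num
      rw [this]
      exact mul_ne_zero h2 h2
    refine ⟨4 * fourX t c g0 h0, mul_ne_zero h4O hx0O, fun g i j => ?_, fun I σ hσ g i j => ?_⟩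
    · fin_cases i <;> fin_cases j
      · refine ⟨2 * fourX t c g0 h0 * twoA t c g, ?_⟩
        change _ = _ * ρ g 0 0
        rw [e00, map_mul, map_mul, map_mul, map_ofNat, map_ofNat, h4E]; field_simp
      · refine ⟨4 * fourX t c g h0, ?_⟩
        change _ = _ * ρ g 0 1
        rw [e01, hb, map_mul, map_mul, map_ofNat]; field_simp
      · refine ⟨fourX t c g0 h0 * fourX t c g0 g, ?_⟩
        change _ = _ * ρ g 1 0
        rw [e10, hγ, map_mul, map_mul, map_ofNat, h4E]; field_simp
      · refine ⟨2 * fourX t c g0 h0 * twoD t c g, ?_⟩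
        change _ = _ * ρ g 1 1
        rw [e11, map_mul, map_mul, map_mul, map_ofNat, map_ofNat, h4E]; field_simp
    · have hA := hσ.twoA_sub_mem (c := c) 1 g
      have hD := hσ.twoD_sub_mem (c := c) 1 g
      simp only [one_mul] at hA hD
      have hXl := hσ.fourX_left (c := c) g h0
      have hXr := hσ.fourX_right (c := c) g0 g
      fin_cases i <;> fin_cases j
      · refine ⟨2 * fourX t c g0 h0 * (twoA t c (σ * g) - twoA t c g), I.mul_mem_left _ hA, ?_⟩
        change _ = _ * (ρ (σ * g) 0 0 - ρ g 0 0)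
        rw [e00, e00, map_mul, map_mul, map_mul, map_ofNat, map_ofNat, map_sub, h4E]; field_simp
      · refine ⟨4 * (fourX t c (σ * g) h0 - fourX t c g h0), I.mul_mem_left _ hXl, ?_⟩
        change _ = _ * (ρ (σ * g) 0 1 - ρ g 0 1)
        rw [e01, e01, hb, hb, map_mul, map_mul, map_ofNat, map_sub]; field_simp
      · refine ⟨fourX t c g0 h0 * (fourX t c g0 (σ * g) - fourX t c g0 g),
          I.mul_mem_left _ hXr, ?_⟩
        change _ = _ * (ρ (σ * g) 1 0 - ρ g 1 0)
        rw [e10, e10, hγ, hγ, map_mul, map_mul, map_ofNat, map_sub, h4E]; field_simp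
      · refine ⟨2 * fourX t c g0 h0 * (twoD t c (σ * g) - twoD t c g), I.mul_mem_left _ hD, ?_⟩
        change _ = _ * (ρ (σ * g) 1 1 - ρ g 1 1)
        rw [e11, e11, map_mul, map_mul, map_mul, map_ofNat, map_ofNat, map_sub, h4E]; field_simp

end Denominators

section Main

local notation "Γℚ" => (AlgebraicClosure ℚ ≃ₐ[ℚ] AlgebraicClosure ℚ)

variable {O : Type} [CommRing O] [IsDomain O] [IsDiscreteValuationRing O]

/-- Adic continuity of an `O`-valued class function on the absolute Galois group of `ℚ`: modulo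
`𝔪ⁿ` it factors through a finite level. -/
def TraceAdicContinuous (t : Γℚ → O) : Prop :=
  ∀ n : ℕ, ∃ L : IntermediateField ℚ (AlgebraicClosure ℚ), FiniteDimensional ℚ L ∧
    ∀ g g' : Γℚ, (∀ x ∈ L, g x = g' x) → t g - t g' ∈ IsLocalRing.maximalIdeal O ^ n

/-- **Pseudo-representation to representation** over a discrete valuation ring: a continuous
two-dimensional pseudo-representation `(t, d)` of the absolute Galois group of `ℚ` with a complex
conjugation `c` is the trace/determinant of a `GaloisRepAdic O`, which is trivial on every `σ`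
with `t (σ g) = t g` for all `g`. -/
theorem exists_galoisRepAdic_of_pseudo (h2 : (2 : O) ≠ 0)
    (t : Γℚ → O) (d : Γℚ →* Oˣ)
    (P1 : t 1 = 2) (P2 : ∀ g h, t (g * h) = t (h * g))
    (P3 : ∀ g h, t (g * h) + (d h : O) * t (g * h⁻¹) = t g * t h)
    (c : Γℚ) (hc : c * c = 1) (htc : t c = 0) (hdc : d c = -1)
    (hcont : TraceAdicContinuous t) :
    ∃ ρ : GaloisRepAdic O,
      (∀ g, LinearMap.charpoly (ρ.ρ g) = X ^ 2 - C (t g) * X + C ((d g : O))) ∧
      (∀ σ, (∀ g, t (σ * g) = t g) → ρ.ρ σ = 1) := by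
  let E := FractionRing O
  have hinj := IsFractionRing.injective O E
  have h2E : (2 : E) ≠ 0 := by
    have : algebraMap O E 2 ≠ 0 := by rwa [Ne, map_eq_zero_iff _ hinj]
    rwa [map_ofNat] at this
  let dE : Γℚ →* Eˣ := (Units.map (algebraMap O E : O →* E)).comp d
  have hdE : ∀ g, ((dE g : Eˣ) : E) = algebraMap O E (d g : O) := fun g => rfl
  have P1E : toFrac E t 1 = 2 := by
    change algebraMap O E (t 1) = 2
    rw [P1, map_ofNat]
  have P2E : ∀ g h, toFrac E t (g * h) = toFrac E t (h * g) := fun g h => by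
    change algebraMap O E (t (g * h)) = algebraMap O E (t (h * g))
    rw [P2]
  have P3E : ∀ g h, toFrac E t (g * h) + (dE h : E) * toFrac E t (g * h⁻¹) =
      toFrac E t g * toFrac E t h := fun g h => by
    change algebraMap O E (t (g * h)) + (dE h : E) * algebraMap O E (t (g * h⁻¹)) =
      algebraMap O E (t g) * algebraMap O E (t h)
    rw [hdE, ← map_mul, ← map_add, ← map_mul, P3]
  have htcE : toFrac E t c = 0 := by
    change algebraMap O E (t c) = 0
    rw [htc, map_zero]
  have hdcE : dE c = -1 := by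
    apply Units.ext
    rw [hdE, hdc, Units.val_neg, Units.val_one, Units.val_neg, Units.val_one, map_neg, map_one]
  obtain ⟨b, γ, ρ, hρ, htr, hdet, -, hcase⟩ :=
    wiles_exists_rep h2E dE (toFrac E t) P1E P2E P3E c hc htcE hdcE
  obtain ⟨D, hD, hB, hclose⟩ := exists_common_denominator t c h2 b γ ρ hρ hcase
  have hBD : BoundedDenominators O ρ := ⟨D, hD, hB⟩
  have hcyc : ∀ (σ w w' : Γℚ), t (w * σ * w') = t (w' * w * σ) := fun σ w w' => by
    rw [mul_assoc w σ w', P2 w (σ * w'), mul_assoc σ w' w, P2 σ (w' * w)]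
  have hC : EntrywiseAdicContinuous O ρ := by
    refine entrywiseAdicContinuous_of_mul ρ hD fun n => ?_
    obtain ⟨L, hL, hLt⟩ := hcont n
    refine ⟨L, hL, fun σ hσ g i j => hclose _ σ ?_ g i j⟩
    intro w w'
    rw [hcyc σ w w', P2 w w']
    refine hLt _ _ fun x hx => ?_
    rw [AlgEquiv.mul_apply, hσ x hx]
  refine ⟨galoisRepAdicOfMatrix ρ hBD hC, fun g => ?_, fun σ hσ => ?_⟩
  · refine galoisRepAdicOfMatrix_charpoly ρ hBD hC g (t g) (d g : O) (htr g).symm ?_
    rw [hdet g, hdE]
  · apply galoisRepAdicOfMatrix_apply_eq_one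
    have hcl : CloseAt t (⊥ : Ideal O) σ := by
      intro w w'
      rw [hcyc σ w w', P2 (w' * w) σ, hσ, P2 w' w, sub_self]
      exact Submodule.zero_mem _
    have hDE : algebraMap O E D ≠ 0 := by rwa [Ne, map_eq_zero_iff _ hinj]
    ext i j
    obtain ⟨r, hr, hr'⟩ := hclose ⊥ σ hcl 1 i j
    rw [Ideal.mem_bot] at hr
    rw [hr, map_zero, mul_one, map_one] at hr'
    have := (mul_eq_zero.mp hr'.symm).resolve_left hDE
    exact sub_eq_zero.mp this

end Main

end Fermat.Agent.Pseudo
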