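/-
Program T node (T6): the frozen statement S30 from a Hecke pseudo-character (the output of the
limit step (T3)): `O'' := O'`, representation from `exists_galoisRepAdic_of_pseudo`.
-/
import Fermat.Agent.Pseudo.PseudoToAdic
import Fermat.Prelude.Def_CuspForm_HeckeGaloisRepDatum

set_option autoImplicit false
set_option linter.style.haveILetI false

namespace Fermat.Agent.Pseudo

open Polynomial CuspForm

local notation "Γℚ" => (AlgebraicClosure ℚ ≃ₐ[ℚ] AlgebraicClosure ℚ)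

/-- A Hecke pseudo-character: a continuous two-dimensional pseudo-representation `(t, d)` of the
absolute Galois group of `ℚ` with values in `O'`, with a complex conjugation, whose value at every
Frobenius at `ℓ ∉ S` is `χ (T_ℓ)` (and `d = ℓ` there), and which is invariant under the inertia
groups at the primes `q ∤ N p`. -/
structure HeckePseudoChar (p N : ℕ) [NeZero N] (S : Finset ℕ) (O' : Type) [CommRing O']
    [IsDomain O'] [IsDiscreteValuationRing O']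
    (χ : CuspForm.heckeAlgebra N 2 (↑S : Set ℕ) →+* O') where
  /-- the pseudo-character -/
  t : Γℚ → O'
  /-- the determinant (cyclotomic) character -/
  d : Γℚ →* O'ˣ
  /-- a complex conjugation -/
  c : Γℚ
  P1 : t 1 = 2
  P2 : ∀ g h, t (g * h) = t (h * g)
  P3 : ∀ g h, t (g * h) + (d h : O') * t (g * h⁻¹) = t g * t h
  c_mul_c : c * c = 1
  t_c : t c = 0
  d_c : d c = -1
  cont : TraceAdicContinuous t
  frob : ∀ (ℓ : ℕ) (hℓ : ℓ.Prime) (hℓN : ¬ ℓ ∣ N) (hℓS : ℓ ∉ (↑S : Set ℕ))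
    (A : ValuationSubring (AlgebraicClosure ℚ)), A.LiesOverPrime ℓ →
      ∀ σ : Γℚ, A.IsFrobeniusAt σ ℓ →
        t σ = χ (CuspForm.heckeAlgebra.T hℓ hℓN hℓS) ∧ ((d σ : O'ˣ) : O') = (ℓ : O')
  inertia : ∀ q : ℕ, q.Prime → ¬ q ∣ N → q ≠ p →
    ∀ P : ValuationSubring (AlgebraicClosure ℚ), P.LiesOverPrime q →
      ∀ σ ∈ P.inertiaSubgroupIn ℚ, ∀ g : Γℚ, t (σ * g) = t g

/-- (T6) The conclusion of the frozen statement S30 from a Hecke pseudo-character. -/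
theorem s30_of_heckePseudoChar (p : ℕ) (N : ℕ) [NeZero N] (S : Finset ℕ)
    (𝒪' : Type) [CommRing 𝒪'] [IsDomain 𝒪'] [IsDiscreteValuationRing 𝒪']
    [IsAdicComplete (IsLocalRing.maximalIdeal 𝒪') 𝒪'] [Finite (IsLocalRing.ResidueField 𝒪')]
    [CharZero 𝒪']
    (χ : CuspForm.heckeAlgebra N 2 (↑S : Set ℕ) →+* 𝒪')
    (H : HeckePseudoChar p N S 𝒪' χ) :
    ∃ (𝒪'' : Type) (_ : CommRing 𝒪'') (_ : IsDomain 𝒪'') (_ : IsDiscreteValuationRing 𝒪'')
      (_ : IsAdicComplete (IsLocalRing.maximalIdeal 𝒪'') 𝒪'')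
      (_ : Finite (IsLocalRing.ResidueField 𝒪'')) (_ : CharZero 𝒪'')
      (_ : Algebra 𝒪' 𝒪'') (_ : Module.Finite 𝒪' 𝒪'') (_ : IsLocalHom (algebraMap 𝒪' 𝒪'')),
    Function.Injective (algebraMap 𝒪' 𝒪'') ∧
    ∃ ρ : GaloisRepAdic 𝒪'',
      (∀ (ℓ : ℕ) (hℓ : ℓ.Prime) (hℓN : ¬ ℓ ∣ N) (hℓS : ℓ ∉ (↑S : Set ℕ)),
        ∀ A : ValuationSubring (AlgebraicClosure ℚ), A.LiesOverPrime ℓ →
          ∀ σ : AlgebraicClosure ℚ ≃ₐ[ℚ] AlgebraicClosure ℚ, A.IsFrobeniusAt σ ℓ →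
            LinearMap.charpoly (ρ.ρ σ) =
              X ^ 2 - C (algebraMap 𝒪' 𝒪'' (χ (CuspForm.heckeAlgebra.T hℓ hℓN hℓS))) * X
                + C ((ℓ : 𝒪''))) ∧
      (∀ q : ℕ, q.Prime → ¬ q ∣ N → q ≠ p → ρ.IsUnramifiedAt q) := by
  have h2 : (2 : 𝒪') ≠ 0 := two_ne_zero
  obtain ⟨ρ, hchar, hone⟩ := exists_galoisRepAdic_of_pseudo h2 H.t H.d H.P1 H.P2 H.P3 H.c
    H.c_mul_c H.t_c H.d_c H.cont
  refine ⟨𝒪', inferInstance, inferInstance, inferInstance, inferInstance, inferInstance,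
    inferInstance, Algebra.id 𝒪', inferInstance, ?_, Function.injective_id, ρ, ?_, ?_⟩
  · exact ⟨fun a ha => ha⟩
  · intro ℓ hℓ hℓN hℓS A hA σ hσ
    obtain ⟨h1, h2'⟩ := H.frob ℓ hℓ hℓN hℓS A hA σ hσ
    rw [hchar σ, h1, h2']
    rfl
  · intro q hq hqN hqp P hP σ hσ
    exact hone σ (H.inertia q hq hqN hqp P hP σ hσ)

end Fermat.Agent.Pseudo
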