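/-
Program T node (T7)(b)+(c): a residually absolutely irreducible representation over a local
ring is trivial on every element `σ` with `tr ρ(σ g) = tr ρ(g)` for all `g`.
-/
import Mathlib
import Fermat.Prelude.Def_GaloisRep_Adic
import Fermat.Agent.S53.SchurH19

set_option autoImplicit false
set_option linter.style.haveILetI false

namespace Fermat.Agent.Pseudo

open Module

section TraceForm

variable {A V : Type*} [CommRing A] [AddCommGroup V] [Module A V] [Module.Free A V]
  [Module.Finite A V]

/-- The trace form on the endomorphisms of a finite free module is nondegenerate. -/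
theorem end_eq_zero_of_trace_mul_eq_zero (f : Module.End A V)
    (hf : ∀ X : Module.End A V, LinearMap.trace A V (f * X) = 0) : f = 0 := by
  classical
  let b := Module.Free.chooseBasis A V
  haveI : Fintype (Module.Free.ChooseBasisIndex A V) := Module.Free.ChooseBasisIndex.fintype A V
  apply (LinearMap.toMatrix b b).injective
  rw [map_zero]
  refine Matrix.ext_iff_trace_mul_right.mpr fun X => ?_
  have := hf (Matrix.toLin b b X)
  rw [LinearMap.trace_eq_matrix_trace A b, LinearMap.toMatrix_mul, LinearMap.toMatrix_toLin] at this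
  rw [this, zero_mul, Matrix.trace_zero]

/-- If `tr (f ∘ ρ g) = 0` for all `g` in a family spanning the endomorphism algebra, then
`f = 0`. -/
theorem end_eq_zero_of_trace_mul_eq_zero_of_span {G : Type*} (ρ : G → Module.End A V)
    (hspan : Submodule.span A (Set.range ρ) = ⊤) (f : Module.End A V)
    (hf : ∀ g : G, LinearMap.trace A V (f * ρ g) = 0) : f = 0 := by
  refine end_eq_zero_of_trace_mul_eq_zero f fun X => ?_
  have hX : X ∈ Submodule.span A (Set.range ρ) := by rw [hspan]; trivial
  induction hX using Submodule.span_induction with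
  | mem y hy => obtain ⟨g, rfl⟩ := hy; exact hf g
  | zero => simp
  | add y z _ _ hy hz => rw [mul_add, map_add, hy, hz, add_zero]
  | smul c y _ hy => rw [mul_smul_comm, map_smul, hy, smul_zero]

end TraceForm

section GaloisRep

variable {A : Type} [CommRing A] [IsLocalRing A]

/-- (T7)(b)+(c): if the residual representation of `ρ` is absolutely irreducible and
`tr ρ(σ g) = tr ρ(g)` for all `g`, then `ρ(σ) = 1`. -/
theorem adic_eq_one_of_trace_mul_eq (ρ : GaloisRepAdic A)
    (h : ρ.residual.IsAbsolutelyIrreducible)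
    (σ : AlgebraicClosure ℚ ≃ₐ[ℚ] AlgebraicClosure ℚ)
    (hσ : ∀ g : AlgebraicClosure ℚ ≃ₐ[ℚ] AlgebraicClosure ℚ,
      ρ.trace (σ * g) = ρ.trace g) : ρ.ρ σ = 1 := by
  have hspan := S53.SchurH19.adic_span_range_eq_top ρ h
  have h0 : ρ.ρ σ - 1 = 0 := by
    refine end_eq_zero_of_trace_mul_eq_zero_of_span (fun g => ρ.ρ g) hspan _ fun g => ?_
    have := hσ g
    unfold GaloisRepAdic.trace at this
    rw [sub_mul, one_mul, map_sub, ← map_mul, this, sub_self]
  exact sub_eq_zero.mp h0

/-- Unramifiedness from inertia-invariance of the trace. -/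
theorem adic_isUnramifiedAt_of_trace (ρ : GaloisRepAdic A)
    (h : ρ.residual.IsAbsolutelyIrreducible) (q : ℕ)
    (hq : ∀ P : ValuationSubring (AlgebraicClosure ℚ), P.LiesOverPrime q →
      ∀ σ ∈ P.inertiaSubgroupIn ℚ, ∀ g : AlgebraicClosure ℚ ≃ₐ[ℚ] AlgebraicClosure ℚ,
        ρ.trace (σ * g) = ρ.trace g) :
    ρ.IsUnramifiedAt q :=
  fun P hP σ hσ => adic_eq_one_of_trace_mul_eq ρ h σ (hq P hP σ hσ)

end GaloisRep

end Fermat.Agent.Pseudo
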