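/-
Program T node (T7): the frozen statement S31 from a Hecke trace function with values in `T`
(the output of the limit step (T3) at `R = T`, `ξ = H.π`) and Chebotarev's theorem.
-/
import Fermat.Agent.Pseudo.TraceRigid
import Fermat.Prelude.Def_CuspForm_HeckeGaloisRepDatum

set_option autoImplicit false
set_option linter.style.haveILetI false

namespace Fermat.Agent.Pseudo

open Polynomial CuspForm Module

local notation "Γℚ" => (AlgebraicClosure ℚ ≃ₐ[ℚ] AlgebraicClosure ℚ)

section TraceIdeal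

variable {A V : Type*} [CommRing A] [AddCommGroup V] [Module A V] [Module.Free A V]
  [Module.Finite A V]

omit [Module.Free A V] [Module.Finite A V] in
/-- The coordinates of an element of `I • ⊤` lie in `I`. -/
theorem repr_mem_of_mem_smul_top {ι : Type*} (b : Basis ι A V) (I : Ideal A) {x : V}
    (hx : x ∈ I • (⊤ : Submodule A V)) (i : ι) : b.repr x i ∈ I := by
  refine Submodule.smul_induction_on (p := fun x => b.repr x i ∈ I) hx ?_ ?_
  · intro a ha y _
    rw [map_smul, Finsupp.smul_apply, smul_eq_mul]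
    exact I.mul_mem_right _ ha
  · intro y z hy hz
    rw [map_add, Finsupp.add_apply]
    exact I.add_mem hy hz

/-- The trace of an endomorphism with image in `I • ⊤` lies in `I`. -/
theorem trace_mem_of_forall_mem_smul_top (I : Ideal A) (f : Module.End A V)
    (hf : ∀ v, f v ∈ I • (⊤ : Submodule A V)) : LinearMap.trace A V f ∈ I := by
  classical
  let b := Module.Free.chooseBasis A V
  haveI : Fintype (Module.Free.ChooseBasisIndex A V) := Module.Free.ChooseBasisIndex.fintype A V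
  rw [LinearMap.trace_eq_matrix_trace A b, Matrix.trace]
  refine I.sum_mem fun i _ => ?_
  rw [Matrix.diag_apply, LinearMap.toMatrix_apply]
  exact repr_mem_of_mem_smul_top b I (hf _) i

omit [Module.Free A V] [Module.Finite A V] in
/-- A linear map sends `I • ⊤` into `I • ⊤`. -/
theorem map_mem_smul_top (I : Ideal A) (f : Module.End A V) {x : V}
    (hx : x ∈ I • (⊤ : Submodule A V)) : f x ∈ I • (⊤ : Submodule A V) := by
  refine Submodule.smul_induction_on (p := fun x => f x ∈ I • (⊤ : Submodule A V)) hx ?_ ?_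
  · intro a ha y _
    rw [map_smul]
    exact Submodule.smul_mem_smul ha Submodule.mem_top
  · intro y z hy hz
    rw [map_add]
    exact Submodule.add_mem _ hy hz

/-- Reading off the trace from a monic quadratic characteristic polynomial. -/
theorem trace_eq_of_charpoly_quadratic (f : V →ₗ[A] V) (a b : A)
    (h : LinearMap.charpoly f = X ^ 2 - C a * X + C b) : LinearMap.trace A V f = a := by
  nontriviality A
  have h1 : LinearMap.trace A V f = -(LinearMap.charpoly f).nextCoeff := by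
    rw [LinearMap.trace_eq_matrix_trace A (Module.Free.chooseBasis A V) f,
      Matrix.trace_eq_neg_charpoly_nextCoeff]
    rfl
  have hdeg : (X ^ 2 - C a * X + C b : A[X]).natDegree = 2 := by
    have : (X ^ 2 - C a * X + C b : A[X]) = X ^ 2 + (C (-a) * X + C b) := by
      rw [map_neg]; ring
    rw [this]
    compute_degree!
  rw [h1, h, nextCoeff_of_natDegree_pos (by rw [hdeg]; norm_num), hdeg]
  simp [coeff_X_pow]

end TraceIdeal

section Continuity

variable {A : Type} [CommRing A] [IsLocalRing A]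

/-- The trace of a `GaloisRepAdic` is adically continuous. -/
theorem adic_trace_continuous (ρ : GaloisRepAdic A) (n : ℕ) :
    ∃ L : IntermediateField ℚ (AlgebraicClosure ℚ), FiniteDimensional ℚ L ∧
      ∀ g g' : Γℚ, (∀ x ∈ L, g x = g' x) →
        ρ.trace g - ρ.trace g' ∈ IsLocalRing.maximalIdeal A ^ n := by
  obtain ⟨L, hL, h⟩ := ρ.isAdicContinuous n
  refine ⟨L, hL, fun g g' hgg' => ?_⟩
  have hτ : ∀ x ∈ L, (g'⁻¹ * g) x = x := by
    intro x hx
    rw [AlgEquiv.mul_apply, hgg' x hx]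
    exact g'.symm_apply_apply x
  have hg : g = g' * (g'⁻¹ * g) := by rw [mul_inv_cancel_left]
  have key : ρ.trace g - ρ.trace g' =
      LinearMap.trace A ρ.V (ρ.ρ g' * (ρ.ρ (g'⁻¹ * g) - 1)) := by
    unfold GaloisRepAdic.trace
    rw [mul_sub, mul_one, map_sub, ← map_mul, ← hg]
  rw [key]
  refine trace_mem_of_forall_mem_smul_top _ _ fun v => ?_
  rw [Module.End.mul_apply, LinearMap.sub_apply, Module.End.one_apply]
  exact map_mem_smul_top _ _ (h _ hτ v)

end Continuity

/-- A Hecke trace function with values in a local ring `T`: an adically continuous function on the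
absolute Galois group of `ℚ` whose value at every Frobenius at `ℓ ∉ S` is `π (T_ℓ)`, invariant
under the inertia groups at the primes outside `S`. -/
structure HeckeTraceFunction (N : ℕ) [NeZero N] (S : Finset ℕ) (T : Type) [CommRing T]
    [IsLocalRing T] (π : CuspForm.heckeAlgebra N 2 (↑S : Set ℕ) →+* T) where
  /-- the trace function -/
  t : Γℚ → T
  cont : ∀ n : ℕ, ∃ L : IntermediateField ℚ (AlgebraicClosure ℚ), FiniteDimensional ℚ L ∧
    ∀ g g' : Γℚ, (∀ x ∈ L, g x = g' x) → t g - t g' ∈ IsLocalRing.maximalIdeal T ^ n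
  frob : ∀ (ℓ : ℕ) (hℓ : ℓ.Prime) (hℓN : ¬ ℓ ∣ N) (hℓS : ℓ ∉ (↑S : Set ℕ))
    (A : ValuationSubring (AlgebraicClosure ℚ)), A.LiesOverPrime ℓ →
      ∀ σ : Γℚ, A.IsFrobeniusAt σ ℓ → t σ = π (CuspForm.heckeAlgebra.T hℓ hℓN hℓS)
  inertia : ∀ q : ℕ, q.Prime → q ∉ S →
    ∀ P : ValuationSubring (AlgebraicClosure ℚ), P.LiesOverPrime q →
      ∀ σ ∈ P.inertiaSubgroupIn ℚ, ∀ g : Γℚ, t (σ * g) = t g

/-- Chebotarev's theorem in exact form (definitionally the statement `Cheb.ChebExact`). -/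
def ChebHyp : Prop :=
  ∀ (L : IntermediateField ℚ (AlgebraicClosure ℚ)), FiniteDimensional ℚ L →
    ∀ (σ : Γℚ) (T : Finset ℕ),
      ∃ q : ℕ, q.Prime ∧ q ∉ T ∧ ∃ (P : ValuationSubring (AlgebraicClosure ℚ)) (φ : Γℚ),
        P.LiesOverPrime q ∧ P.IsFrobeniusAt φ q ∧ ∀ x ∈ L, σ x = φ x

section S31

variable {N : ℕ} [NeZero N] {S : Finset ℕ}
  {𝒪 : Type} [CommRing 𝒪] [IsDomain 𝒪] [IsDiscreteValuationRing 𝒪]
  [IsAdicComplete (IsLocalRing.maximalIdeal 𝒪) 𝒪]
  {θ : CuspForm.heckeAlgebra N 2 (↑S : Set ℕ) →+* IsLocalRing.ResidueField 𝒪}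
  {T : Type} [CommRing T] [IsLocalRing T] [IsNoetherianRing T]
  [IsAdicComplete (IsLocalRing.maximalIdeal T) T] [Algebra 𝒪 T] [IsLocalHom (algebraMap 𝒪 T)]
  [Module.Finite 𝒪 T] [Module.Free 𝒪 T]

/-- The trace of the representation of a Hecke–Galois datum is the Hecke trace function
(Chebotarev + continuity + separatedness). -/
theorem trace_eq_of_heckeTraceFunction (hcheb : ChebHyp)
    (hNS : ∀ q : ℕ, q.Prime → q ∣ N → q ∈ S)
    (H : CuspForm.HeckeGaloisRepDatum N (↑S : Set ℕ) 𝒪 θ T)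
    (F : HeckeTraceFunction N S T H.π) (g : Γℚ) : H.ρ.trace g = F.t g := by
  have hsep : ∀ x : T, (∀ n, x ∈ IsLocalRing.maximalIdeal T ^ n) → x = 0 := by
    intro x hx
    refine IsHausdorff.haus (I := IsLocalRing.maximalIdeal T) inferInstance x fun n => ?_
    rw [SModEq.zero, smul_eq_mul, Ideal.mul_top]
    exact hx n
  rw [← sub_eq_zero]
  refine hsep _ fun n => ?_
  obtain ⟨L1, hL1, h1⟩ := adic_trace_continuous H.ρ n
  obtain ⟨L2, hL2, h2⟩ := F.cont n
  haveI := hL1
  haveI := hL2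
  obtain ⟨ℓ, hℓ, hℓS, P, φ, hP, hφ, hgφ⟩ := hcheb (L1 ⊔ L2) inferInstance g S
  have hℓN : ¬ ℓ ∣ N := fun h => hℓS (hNS ℓ hℓ h)
  have hℓS' : ℓ ∉ (↑S : Set ℕ) := hℓS
  have e1 : H.ρ.trace φ = H.π (CuspForm.heckeAlgebra.T hℓ hℓN hℓS') :=
    trace_eq_of_charpoly_quadratic _ _ _ (H.charpoly_frob ℓ hℓ hℓN hℓS' P hP φ hφ)
  have e2 : F.t φ = H.π (CuspForm.heckeAlgebra.T hℓ hℓN hℓS') := F.frob ℓ hℓ hℓN hℓS' P hP φ hφ
  have d1 := h1 g φ fun x hx => hgφ x ((le_sup_left : L1 ≤ L1 ⊔ L2) hx)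
  have d2 := h2 g φ fun x hx => hgφ x ((le_sup_right : L2 ≤ L1 ⊔ L2) hx)
  have : H.ρ.trace g - F.t g = (H.ρ.trace g - H.ρ.trace φ) - (F.t g - F.t φ) := by
    rw [e1, e2]; ring
  rw [this]
  exact Ideal.sub_mem _ d1 d2

/-- (T7) The frozen statement S31 from a Hecke trace function. -/
theorem s31_of_heckeTraceFunction (hcheb : ChebHyp)
    (hNS : ∀ q : ℕ, q.Prime → q ∣ N → q ∈ S)
    (H : CuspForm.HeckeGaloisRepDatum N (↑S : Set ℕ) 𝒪 θ T)
    (F : HeckeTraceFunction N S T H.π)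
    (q : ℕ) (hq : q.Prime) (hqS : q ∉ S) : H.ρ.IsUnramifiedAt q := by
  refine adic_isUnramifiedAt_of_trace H.ρ H.residual_absIrr q fun P hP σ hσ g => ?_
  rw [trace_eq_of_heckeTraceFunction hcheb hNS H F, trace_eq_of_heckeTraceFunction hcheb hNS H F]
  exact F.inertia q hq hqS P hP σ hσ g

end S31

end Fermat.Agent.Pseudo
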