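import Mathlib

/-!
# Program T, node (T1)(b): saturation

`E` a finitely generated abelian group (e.g. `End_ℤ(Lam)`, `Lam` free of finite rank), `T ≤ E` a
subgroup (e.g. the Hecke algebra `ℤ[TL i]`).  Then there is `e ≥ 1` such that, for all `M`,
`P ∈ T ∩ M • E` implies `e • P ∈ M • T`: the exponent of the torsion of `E / T`.

* `exists_pos_nsmul_eq_zero_of_torsion` : a finitely generated abelian group has a positive
  integer killing all its torsion;
* `exists_saturation` : the saturation statement for submodules of f.g. `ℤ`-modules;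
* `exists_saturation_end` : for a subgroup `T` of `Module.End ℤ Lam`, in terms of
  `∀ lam, ∃ mu, P lam = M • mu`;
* `exists_saturation_subalgebra` : for a `ℤ`-subalgebra of `Module.End ℤ Lam`, difference form.
-/

set_option autoImplicit false

namespace Fermat.Agent.Pseudo

section Saturation

/-- A finitely generated abelian group has a positive integer killing all its torsion. -/
theorem exists_pos_nsmul_eq_zero_of_torsion (Q : Type*) [AddCommGroup Q] [Module.Finite ℤ Q] :
    ∃ e : ℕ, 0 < e ∧ ∀ x : Q, (∃ M : ℕ, 0 < M ∧ M • x = 0) → e • x = 0 := by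
  classical
  have hN : IsNoetherian ℤ Q := inferInstance
  obtain ⟨S, hS⟩ := IsNoetherian.noetherian (Submodule.torsion ℤ Q)
  -- each generator is killed by a positive integer
  have hgen : ∀ s ∈ S, ∃ a : ℕ, 0 < a ∧ a • s = 0 := by
    intro s hs
    have hmem : s ∈ Submodule.torsion ℤ Q := by
      rw [← hS]
      exact Submodule.subset_span hs
    obtain ⟨a, ha⟩ := (Submodule.mem_torsion_iff s).1 hmem
    have ha0 : (a : ℤ) ≠ 0 := nonZeroDivisors.ne_zero a.2
    refine ⟨(a : ℤ).natAbs, Int.natAbs_pos.2 ha0, ?_⟩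
    have h1 : ((a : ℤ).natAbs : ℤ) • s = 0 := by
      rcases Int.natAbs_eq (a : ℤ) with h | h
      · rw [← h]
        exact ha
      · have h2 : ((a : ℤ).natAbs : ℤ) = -(a : ℤ) := by omega
        rw [h2, neg_smul]
        exact neg_eq_zero.2 ha
    exact_mod_cast h1
  choose! a ha0 ha using hgen
  refine ⟨∏ s ∈ S, a s, Finset.prod_pos fun s hs => ha0 s hs, ?_⟩
  rintro x ⟨M, hM, hMx⟩
  have hx : x ∈ Submodule.span ℤ (S : Set Q) := by
    rw [hS, Submodule.mem_torsion_iff]
    refine ⟨⟨(M : ℤ), mem_nonZeroDivisors_of_ne_zero (by exact_mod_cast hM.ne')⟩, ?_⟩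
    show (M : ℤ) • x = 0
    exact_mod_cast hMx
  clear hMx
  induction hx using Submodule.span_induction with
  | mem y hy =>
    obtain ⟨c, hc⟩ := Finset.dvd_prod_of_mem a hy
    rw [hc, mul_comm, mul_smul, ha y hy, smul_zero]
  | zero => exact smul_zero _
  | add y z _ _ hy hz => rw [smul_add, hy, hz, add_zero]
  | smul c y _ hy => rw [smul_comm, hy, smul_zero]

variable {E : Type*} [AddCommGroup E] [Module.Finite ℤ E]

/-- **Saturation.**  For a subgroup `T` of a finitely generated abelian group `E` there is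
`e ≥ 1` with: `P ∈ T`, `P = M • Q` in `E` imply `e • P = M • Q'` for some `Q' ∈ T`. -/
theorem exists_saturation (T : Submodule ℤ E) :
    ∃ e : ℕ, 0 < e ∧ ∀ (M : ℕ) (P : E), P ∈ T → (∃ Q : E, P = M • Q) →
      ∃ Q' ∈ T, e • P = M • Q' := by
  obtain ⟨e, he, hkill⟩ := exists_pos_nsmul_eq_zero_of_torsion (E ⧸ T)
  refine ⟨e, he, ?_⟩
  rintro M P hP ⟨Q, rfl⟩
  rcases Nat.eq_zero_or_pos M with rfl | hM
  · exact ⟨0, T.zero_mem, by simp⟩
  · have h1 : M • (Submodule.Quotient.mk Q : E ⧸ T) = 0 := by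
      rw [← Submodule.Quotient.mk_smul]
      exact (Submodule.Quotient.mk_eq_zero T).2 hP
    have h2 := hkill _ ⟨M, hM, h1⟩
    rw [← Submodule.Quotient.mk_smul, Submodule.Quotient.mk_eq_zero] at h2
    exact ⟨e • Q, h2, smul_comm e M Q⟩

end Saturation

section EndForm

variable {Lam : Type*} [AddCommGroup Lam] [Module.Free ℤ Lam] [Module.Finite ℤ Lam]

omit [Module.Finite ℤ Lam] in
/-- An endomorphism of a free abelian group with values in `M • Lam` is `M` times an
endomorphism. -/
theorem exists_eq_nsmul_of_forall {M : ℕ} (P : Module.End ℤ Lam)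
    (h : ∀ lam, ∃ mu, P lam = M • mu) : ∃ Q : Module.End ℤ Lam, P = M • Q := by
  rcases Nat.eq_zero_or_pos M with rfl | hM
  · refine ⟨0, LinearMap.ext fun lam => ?_⟩
    obtain ⟨mu, hmu⟩ := h lam
    simpa using hmu
  · let b := Module.Free.chooseBasis ℤ Lam
    choose f hf using fun i => h (b i)
    refine ⟨b.constr ℤ f, b.ext fun i => ?_⟩
    rw [LinearMap.smul_apply, Module.Basis.constr_basis, hf]

/-- **Saturation for endomorphisms.**  `T` a subgroup of `End_ℤ(Lam)`: there is `e ≥ 1` such that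
for all `M`, every `P ∈ T` with values in `M • Lam` satisfies `e • P = M • Q'` with `Q' ∈ T`. -/
theorem exists_saturation_end (T : Submodule ℤ (Module.End ℤ Lam)) :
    ∃ e : ℕ, 0 < e ∧ ∀ (M : ℕ) (P : Module.End ℤ Lam), P ∈ T →
      (∀ lam, ∃ mu, P lam = M • mu) → ∃ Q' ∈ T, e • P = M • Q' := by
  obtain ⟨e, he, hsat⟩ := exists_saturation T
  exact ⟨e, he, fun M P hP h => hsat M P hP (exists_eq_nsmul_of_forall P h)⟩

/-- **Saturation, difference form**, for a `ℤ`-subalgebra of `End_ℤ(Lam)` (the Hecke algebra):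
`A ≡ B` modulo `M` on `Lam` implies `e • (A - B) ∈ M • T`. -/
theorem exists_saturation_subalgebra (T : Subalgebra ℤ (Module.End ℤ Lam)) :
    ∃ e : ℕ, 0 < e ∧ ∀ (M : ℕ) (A B : Module.End ℤ Lam), A ∈ T → B ∈ T →
      (∀ lam, ∃ mu, A lam - B lam = M • mu) → ∃ Q' ∈ T, e • (A - B) = M • Q' := by
  obtain ⟨e, he, hsat⟩ := exists_saturation_end (Subalgebra.toSubmodule T)
  refine ⟨e, he, fun M A B hA hB h => ?_⟩
  obtain ⟨Q', hQ', hQ⟩ := hsat M (A - B) (T.sub_mem hA hB) (fun lam => by
    rw [LinearMap.sub_apply]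
    exact h lam)
  exact ⟨Q', hQ', hQ⟩

end EndForm

end Fermat.Agent.Pseudo
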