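/-
Program T node (T3), layer B (abstract limit), part 1: the structure `TraceCong` of a compatible
system of universal traces modulo `p^m` with values in a commutative ring `TT` (the Hecke algebra),
all congruences being "up to the factor `e'`" (the prime-to-`p` part of the saturation exponent).
Mathlib only.
-/
import Mathlib

set_option autoImplicit false

namespace Fermat.Agent.Pseudo

/-- Congruence modulo `p^m` up to the factor `e'` in a commutative ring:
`e' (a - b) ∈ p^m TT`. -/
def CongUpTo {TT : Type*} [CommRing TT] (p e' m : ℕ) (a b : TT) : Prop :=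
  ∃ Q : TT, (e' : TT) * (a - b) = (p : TT) ^ m * Q

/-- A compatible system of "universal traces modulo `p^m`" of a group `G` with values in a
commutative ring `TT`: `Th (idx m g)` is the trace of `g` modulo `p^m`; all congruences are up to
the factor `e'`. `d m` is an integer lift of the determinant character modulo `p^m`. -/
structure TraceCong (G I TT : Type*) [Group G] [CommRing TT] (p e' : ℕ) where
  /-- the Hecke operators -/
  Th : I → TT
  /-- the index of the universal trace of `g` modulo `p^m` -/
  idx : ℕ → G → I
  /-- integer lifts of the determinant character modulo `p^m` -/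
  d : ℕ → G → ℤ
  /-- `φ` is a Frobenius element at `i` -/
  FrobAt : G → I → Prop
  /-- elements acting trivially (inertia at good primes) -/
  Inert : G → Prop
  /-- complex conjugations -/
  Conj : G → Prop
  /-- the level subgroups -/
  level : ℕ → Subgroup G
  compat : ∀ {m m' : ℕ}, m ≤ m' → ∀ g : G, CongUpTo p e' m (Th (idx m' g)) (Th (idx m g))
  frob : ∀ (m : ℕ) {φ : G} {i : I}, FrobAt φ i → CongUpTo p e' m (Th i) (Th (idx m φ))
  one : ∀ m : ℕ, CongUpTo p e' m (Th (idx m 1)) 2
  comm : ∀ (m : ℕ) (g h : G), CongUpTo p e' m (Th (idx m (g * h))) (Th (idx m (h * g)))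
  mul : ∀ (m : ℕ) (g h : G),
    CongUpTo p e' m (Th (idx m (g * h)) + (d m h : TT) * Th (idx m (g * h⁻¹)))
      (Th (idx m g) * Th (idx m h))
  conj : ∀ (m : ℕ) {c : G}, Conj c → CongUpTo p e' m (Th (idx m c)) 0
  inertia : ∀ (m : ℕ) {s : G}, Inert s → ∀ g : G,
    CongUpTo p e' m (Th (idx m (s * g))) (Th (idx m g))
  congr : ∀ (m : ℕ) {g g' : G}, g⁻¹ * g' ∈ level m →
    CongUpTo p e' m (Th (idx m g)) (Th (idx m g'))

end Fermat.Agent.Pseudo
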