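import Fermat.Agent.Pseudo.TraceSystem
import Fermat.Agent.Pseudo.Saturation

/-!
# Program T, node (T3): the limit of the universal traces modulo `p^m`

Generic layer (Mathlib + `TraceSystem` + `Saturation` only).

`Y : TraceSystem G Lam X I` (the universal traces `Y.TL (Y.idx m g)` modulo `p^m`), `R` a commutative
ring, `J` an ideal of `R`.  A `TraceLimitInput Y R J` consists of

* a `ℤ`-subalgebra `A ≤ End_ℤ(Lam)` containing all `Y.TL i` (the Hecke algebra of `Lam`);
* a ring homomorphism `Φ : A →+* R` (in the application `Φ = ξ ∘ Ψ`, `Ψ : A →+* 𝕋` the comparison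
  with the Hecke algebra of cusp forms, `ξ : 𝕋 →+* R`);
* `sat` : a constant `c` with `P ≡ 0 mod p^m` on `Lam` `⇒` `Φ P ∈ J^(m-c)` (from saturation, see
  `exists_sat`);
* `dR : G → R` congruent to `Y.d m` modulo `J^m` (the `R`-valued cyclotomic character).

Outputs, without completeness: the congruences `approx_*` modulo `J^(m-c)` for
`D.approx m g = Φ (TL (idx m g))`, and `hecke_sub_hecke_mem`, `hecke_sub_hecke_mem_of_inertia`
(congruences between Hecke eigenvalues at Frobenius elements that are close).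

With `[IsAdicComplete J R]`: the limit `D.t : G → R` with `t_sub_mem`, `t_one`, `t_comm`, `t_mul`,
`t_conj`, `t_frobAt`, `t_inertia`, `t_level` (continuity), `t_unique`.
-/

set_option autoImplicit false

namespace Fermat.Agent.Pseudo

/-! ### Adic lemmas -/

section Adic

variable {R : Type*} [CommRing R] (J : Ideal R)

theorem eq_zero_of_forall_mem_pow [IsHausdorff J R] {x : R} (h : ∀ n : ℕ, x ∈ J ^ n) : x = 0 := by
  refine IsHausdorff.haus' (I := J) x fun n => ?_
  rw [SModEq.zero, smul_eq_mul, Ideal.mul_top]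
  exact h n

theorem eq_zero_of_forall_mem_pow_sub [IsHausdorff J R] (c : ℕ) {x : R}
    (h : ∀ m : ℕ, x ∈ J ^ (m - c)) : x = 0 :=
  eq_zero_of_forall_mem_pow J fun n => by
    have := h (n + c)
    rwa [Nat.add_sub_cancel] at this

theorem eq_of_forall_sub_mem_pow_sub [IsHausdorff J R] (c : ℕ) {x y : R}
    (h : ∀ m : ℕ, x - y ∈ J ^ (m - c)) : x = y :=
  sub_eq_zero.mp (eq_zero_of_forall_mem_pow_sub J c h)

/-- The limit of a `J`-adic Cauchy sequence. -/
theorem exists_adic_limit [IsPrecomplete J R] (f : ℕ → R)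
    (hf : ∀ m n : ℕ, m ≤ n → f n - f m ∈ J ^ m) : ∃ L : R, ∀ n : ℕ, L - f n ∈ J ^ n := by
  obtain ⟨L, hL⟩ := IsPrecomplete.prec' (I := J) f (fun {m n} hmn => by
    rw [SModEq.sub_mem, smul_eq_mul, Ideal.mul_top, ← neg_sub]
    exact (J ^ m).neg_mem (hf m n hmn))
  refine ⟨L, fun n => ?_⟩
  have := hL n
  rw [SModEq.sub_mem, smul_eq_mul, Ideal.mul_top] at this
  rw [← neg_sub]
  exact (J ^ n).neg_mem this

/-- An integer prime to `p` is a unit in a `J`-adically complete ring with `p ∈ J`. -/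
theorem isUnit_natCast_of_coprime_of_mem [IsAdicComplete J R] {p e : ℕ} (hpJ : (p : R) ∈ J)
    (h : Nat.Coprime e p) : IsUnit (e : R) := by
  have hco : IsCoprime (e : ℤ) (p : ℤ) := Nat.isCoprime_iff_coprime.mpr h
  obtain ⟨a, b, hab⟩ := hco
  have habR : (a : R) * (e : R) + (b : R) * (p : R) = 1 := by
    have := congrArg (Int.cast : ℤ → R) hab
    push_cast at this
    exact this
  have hx : -((b : R) * (p : R)) ∈ (⊥ : Ideal R).jacobson :=
    IsAdicComplete.le_jacobson_bot J (J.neg_mem (J.mul_mem_left _ hpJ))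
  have hu : IsUnit (-((b : R) * (p : R)) * 1 + 1) := (Ideal.mem_jacobson_bot.mp hx) 1
  have h1 : -((b : R) * (p : R)) * 1 + 1 = (a : R) * (e : R) := by
    linear_combination (-1 : R) * habR
  rw [h1] at hu
  exact isUnit_of_mul_isUnit_right hu

end Adic

/-! ### The input of the limit step -/

section Input

variable {G Lam X I : Type*} [Group G] [AddCommGroup Lam] [AddCommGroup X] [DistribMulAction G X]

/-- The input of the limit step (T3). -/
structure TraceLimitInput (Y : TraceSystem G Lam X I) (R : Type*) [CommRing R] (J : Ideal R) where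
  /-- the Hecke algebra of `Lam` -/
  A : Subalgebra ℤ (Module.End ℤ Lam)
  TL_mem : ∀ i : I, Y.TL i ∈ A
  /-- the eigenvalue system -/
  Φ : A →+* R
  /-- the loss of precision -/
  c : ℕ
  sat : ∀ (m : ℕ) (P : A), ModEq (Y.p ^ m) (P : Module.End ℤ Lam) 0 → Φ P ∈ J ^ (m - c)
  /-- the `R`-valued cyclotomic character -/
  dR : G → R
  dR_congr : ∀ (m : ℕ) (g : G), dR g - ((Y.d m g : ℤ) : R) ∈ J ^ m

namespace TraceLimitInput

variable {Y : TraceSystem G Lam X I} {R : Type*} [CommRing R] {J : Ideal R}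
  (D : TraceLimitInput Y R J)

/-- `TL i` as an element of the Hecke algebra of `Lam`. -/
def tl (i : I) : D.A := ⟨Y.TL i, D.TL_mem i⟩

@[simp] theorem coe_tl (i : I) : (D.tl i : Module.End ℤ Lam) = Y.TL i := rfl

/-- The Hecke eigenvalue at `i`. -/
def hecke (i : I) : R := D.Φ (D.tl i)

/-- The approximation modulo `J^(m-c)` of the trace of `g`. -/
noncomputable def approx (m : ℕ) (g : G) : R := D.hecke (Y.idx m g)

theorem pow_le_pow_sub (m : ℕ) : J ^ m ≤ J ^ (m - D.c) := Ideal.pow_le_pow_right (Nat.sub_le m D.c)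

/-- **Transfer**: congruent elements of the Hecke algebra of `Lam` have congruent images. -/
theorem sat_sub {m : ℕ} {P Q : D.A}
    (h : ModEq (Y.p ^ m) (P : Module.End ℤ Lam) (Q : Module.End ℤ Lam)) :
    D.Φ P - D.Φ Q ∈ J ^ (m - D.c) := by
  rw [← map_sub]
  refine D.sat m (P - Q) ?_
  have h1 := h.sub (ModEq.refl (M := Y.p ^ m) (Q : Module.End ℤ Lam))
  rw [sub_self] at h1
  exact h1

theorem dR_sub_mem (m : ℕ) (g : G) : D.dR g - ((Y.d m g : ℤ) : R) ∈ J ^ (m - D.c) :=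
  D.pow_le_pow_sub m (D.dR_congr m g)

theorem mk_dR (m : ℕ) (g : G) :
    Ideal.Quotient.mk (J ^ (m - D.c)) (D.dR g) =
      Ideal.Quotient.mk (J ^ (m - D.c)) ((Y.d m g : ℤ) : R) :=
  Ideal.Quotient.eq.mpr (D.dR_sub_mem m g)

/-! ### The congruences at level `m` -/

theorem approx_compat {m m' : ℕ} (h : m ≤ m') (g : G) :
    D.approx m' g - D.approx m g ∈ J ^ (m - D.c) :=
  D.sat_sub (P := D.tl _) (Q := D.tl _) (Y.idx_compat h g)

theorem approx_one (m : ℕ) : D.approx m 1 - 2 ∈ J ^ (m - D.c) := by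
  have h := D.sat_sub (P := D.tl (Y.idx m 1)) (Q := 2) (Y.idx_one m)
  rwa [map_ofNat] at h

theorem approx_comm (m : ℕ) (g h : G) :
    D.approx m (g * h) - D.approx m (h * g) ∈ J ^ (m - D.c) :=
  D.sat_sub (P := D.tl _) (Q := D.tl _) (Y.idx_comm m g h)

theorem approx_mul (m : ℕ) (g h : G) :
    D.approx m (g * h) + ((Y.d m h : ℤ) : R) * D.approx m (g * h⁻¹) -
      D.approx m g * D.approx m h ∈ J ^ (m - D.c) := by
  have h1 := D.sat_sub (P := D.tl (Y.idx m (g * h)) + Y.d m h • D.tl (Y.idx m (g * h⁻¹)))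
    (Q := D.tl (Y.idx m g) * D.tl (Y.idx m h)) (Y.idx_mul m g h)
  rw [map_add, map_zsmul, map_mul, zsmul_eq_mul] at h1
  exact h1

theorem approx_conj (m : ℕ) {c : G} (hc : c * c = 1) (hdc : ((Y.p ^ m : ℕ) : ℤ) ∣ Y.d m c + 1) :
    D.approx m c ∈ J ^ (m - D.c) := by
  have h := D.sat_sub (P := D.tl (Y.idx m c)) (Q := 0) (Y.idx_conj m hc hdc)
  rwa [map_zero, sub_zero] at h

theorem approx_inertia (m : ℕ) {s : G}
    (hs : ∀ x : X, (∃ n : ℕ, Y.p ^ n • x = 0) → s • x = x)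
    (hds : ((Y.p ^ m : ℕ) : ℤ) ∣ Y.d m s - 1) (g : G) :
    D.approx m (s * g) - D.approx m g ∈ J ^ (m - D.c) :=
  D.sat_sub (P := D.tl _) (Q := D.tl _) (Y.idx_inertia m hs hds g)

theorem approx_frobAt (m : ℕ) {φ : G} {i : I} (hF : Y.FrobAt φ i) :
    D.hecke i - D.approx m φ ∈ J ^ (m - D.c) :=
  D.sat_sub (P := D.tl _) (Q := D.tl _) (Y.frobAt_modEq m hF)

theorem approx_congr (m : ℕ) {g g' : G} (h : g⁻¹ * g' ∈ Y.level m) :
    D.approx m g - D.approx m g' ∈ J ^ (m - D.c) :=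
  D.sat_sub (P := D.tl _) (Q := D.tl _) (Y.idx_congr m h)

/-- **Congruence between Hecke eigenvalues**: Frobenius elements that agree modulo `level m` have
Hecke eigenvalues congruent modulo `J^(m-c)`. No completeness needed. -/
theorem hecke_sub_hecke_mem (m : ℕ) {φ φ' : G} {i i' : I} (hF : Y.FrobAt φ i)
    (hF' : Y.FrobAt φ' i') (h : φ⁻¹ * φ' ∈ Y.level m) :
    D.hecke i - D.hecke i' ∈ J ^ (m - D.c) := by
  have h1 := D.approx_frobAt m hF
  have h2 := D.approx_frobAt m hF'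
  have h3 := D.approx_congr m h
  have : D.hecke i - D.hecke i' =
      (D.hecke i - D.approx m φ) + (D.approx m φ - D.approx m φ') -
        (D.hecke i' - D.approx m φ') := by ring
  rw [this]
  exact (J ^ (m - D.c)).sub_mem ((J ^ (m - D.c)).add_mem h1 h3) h2

/-- **Congruence between Hecke eigenvalues, inertia form**: if `φ` is close to `g` and `φ'` is close
to `s * g` with `s` acting trivially on `p`-power torsion (and `d m s ≡ 1`), the Hecke eigenvalues
are congruent modulo `J^(m-c)`. No completeness needed. -/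
theorem hecke_sub_hecke_mem_of_inertia (m : ℕ) {s g φ φ' : G} {i i' : I}
    (hs : ∀ x : X, (∃ n : ℕ, Y.p ^ n • x = 0) → s • x = x)
    (hds : ((Y.p ^ m : ℕ) : ℤ) ∣ Y.d m s - 1)
    (hF : Y.FrobAt φ i) (hF' : Y.FrobAt φ' i') (h : g⁻¹ * φ ∈ Y.level m)
    (h' : (s * g)⁻¹ * φ' ∈ Y.level m) :
    D.hecke i' - D.hecke i ∈ J ^ (m - D.c) := by
  have h1 := D.approx_frobAt m hF
  have h2 := D.approx_frobAt m hF'
  have h3 := D.approx_congr m h
  have h4 := D.approx_congr m h'
  have h5 := D.approx_inertia m hs hds g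
  have : D.hecke i' - D.hecke i =
      (D.hecke i' - D.approx m φ') - (D.approx m (s * g) - D.approx m φ') +
        (D.approx m (s * g) - D.approx m g) + (D.approx m g - D.approx m φ) -
          (D.hecke i - D.approx m φ) := by ring
  rw [this]
  exact (J ^ (m - D.c)).sub_mem ((J ^ (m - D.c)).add_mem ((J ^ (m - D.c)).add_mem
    ((J ^ (m - D.c)).sub_mem h2 h4) h5) h3) h1

/-! ### The limit -/

section Limit

variable [IsAdicComplete J R]

theorem exists_t (g : G) : ∃ L : R, ∀ n : ℕ, L - D.approx (n + D.c) g ∈ J ^ n :=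
  exists_adic_limit J (fun n => D.approx (n + D.c) g) fun m n hmn => by
    have := D.approx_compat (Nat.add_le_add_right hmn D.c) g
    rwa [Nat.add_sub_cancel] at this

/-- **The limit trace.** -/
noncomputable def t (g : G) : R := (D.exists_t g).choose

theorem t_spec (g : G) (n : ℕ) : D.t g - D.approx (n + D.c) g ∈ J ^ n :=
  (D.exists_t g).choose_spec n

/-- The limit trace is congruent to the level `m` approximation modulo `J^(m-c)`. -/
theorem t_sub_mem (m : ℕ) (g : G) : D.t g - D.approx m g ∈ J ^ (m - D.c) := by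
  rcases le_total D.c m with h | h
  · have := D.t_spec g (m - D.c)
    rwa [Nat.sub_add_cancel h] at this
  · rw [Nat.sub_eq_zero_of_le h, pow_zero, Ideal.one_eq_top]
    trivial

theorem mk_t (m : ℕ) (g : G) :
    Ideal.Quotient.mk (J ^ (m - D.c)) (D.t g) = Ideal.Quotient.mk (J ^ (m - D.c)) (D.approx m g) :=
  Ideal.Quotient.eq.mpr (D.t_sub_mem m g)

/-- Characterisation of the limit. -/
theorem t_unique (g : G) {L : R} (h : ∀ m : ℕ, L - D.approx m g ∈ J ^ (m - D.c)) : L = D.t g := by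
  refine eq_of_forall_sub_mem_pow_sub J D.c fun m => ?_
  have : L - D.t g = (L - D.approx m g) - (D.t g - D.approx m g) := by ring
  rw [this]
  exact (J ^ (m - D.c)).sub_mem (h m) (D.t_sub_mem m g)

/-- (P1) -/
theorem t_one : D.t 1 = 2 := by
  refine eq_of_forall_sub_mem_pow_sub J D.c fun m => ?_
  rw [← Ideal.Quotient.eq, D.mk_t, Ideal.Quotient.eq]
  exact D.approx_one m

/-- (P2) -/
theorem t_comm (g h : G) : D.t (g * h) = D.t (h * g) := by
  refine eq_of_forall_sub_mem_pow_sub J D.c fun m => ?_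
  rw [← Ideal.Quotient.eq, D.mk_t, D.mk_t, Ideal.Quotient.eq]
  exact D.approx_comm m g h

/-- (P3) -/
theorem t_mul (g h : G) : D.t (g * h) + D.dR h * D.t (g * h⁻¹) = D.t g * D.t h := by
  refine eq_of_forall_sub_mem_pow_sub J D.c fun m => ?_
  rw [← Ideal.Quotient.eq, map_add, map_mul, map_mul, D.mk_t, D.mk_t, D.mk_t, D.mk_t, D.mk_dR,
    ← map_mul, ← map_add, ← map_mul, Ideal.Quotient.eq]
  exact D.approx_mul m g h

/-- The trace of a complex conjugation vanishes. -/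
theorem t_conj {c : G} (hc : c * c = 1) (hdc : ∀ m : ℕ, ((Y.p ^ m : ℕ) : ℤ) ∣ Y.d m c + 1) :
    D.t c = 0 := by
  refine eq_of_forall_sub_mem_pow_sub J D.c fun m => ?_
  rw [← Ideal.Quotient.eq, D.mk_t, Ideal.Quotient.eq, sub_zero]
  exact D.approx_conj m hc (hdc m)

/-- Values at Frobenius elements. -/
theorem t_frobAt {φ : G} {i : I} (hF : Y.FrobAt φ i) : D.t φ = D.hecke i := by
  symm
  refine eq_of_forall_sub_mem_pow_sub J D.c fun m => ?_
  rw [← Ideal.Quotient.eq, D.mk_t, Ideal.Quotient.eq]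
  exact D.approx_frobAt m hF

/-- Invariance under elements acting trivially on the `p`-power torsion. -/
theorem t_inertia {s : G} (hs : ∀ x : X, (∃ n : ℕ, Y.p ^ n • x = 0) → s • x = x)
    (hds : ∀ m : ℕ, ((Y.p ^ m : ℕ) : ℤ) ∣ Y.d m s - 1) (g : G) : D.t (s * g) = D.t g := by
  refine eq_of_forall_sub_mem_pow_sub J D.c fun m => ?_
  rw [← Ideal.Quotient.eq, D.mk_t, D.mk_t, Ideal.Quotient.eq]
  exact D.approx_inertia m hs (hds m) g

/-- Continuity, general form. -/
theorem t_sub_mem_of_level (m : ℕ) {g g' : G} (h : g⁻¹ * g' ∈ Y.level m) :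
    D.t g - D.t g' ∈ J ^ (m - D.c) := by
  rw [← Ideal.Quotient.eq, D.mk_t, D.mk_t, Ideal.Quotient.eq]
  exact D.approx_congr m h

/-- **Continuity**: modulo `J^n` the limit trace factors through `G ⧸ level (n + c)`. -/
theorem t_level (n : ℕ) {g g' : G} (h : g⁻¹ * g' ∈ Y.level (n + D.c)) :
    D.t g - D.t g' ∈ J ^ n := by
  have := D.t_sub_mem_of_level (n + D.c) h
  rwa [Nat.add_sub_cancel] at this

end Limit

end TraceLimitInput

end Input

/-! ### The transfer constant from saturation -/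

section Sat

variable {Lam : Type*} [AddCommGroup Lam] [Module.Free ℤ Lam] [Module.Finite ℤ Lam]
variable {TT : Type*} [CommRing TT] {R : Type*} [CommRing R] (J : Ideal R) [IsAdicComplete J R]

/-- **The transfer constant.**  `A` a `ℤ`-subalgebra of `End_ℤ(Lam)` (`Lam` free of finite rank),
`Ψ : A →+* TT` a ring homomorphism to a torsion free ring, `ξ : TT →+* R` with `R` `J`-adically
complete, `p ∈ J`: there is `c` such that `P ≡ 0 mod p^m` on `Lam` implies `ξ (Ψ P) ∈ J^(m-c)`.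
(Saturation gives `e • P ∈ p^m • A`; write `e = p^c e'` with `e'` prime to `p`, a unit of `R`.) -/
theorem exists_sat (A : Subalgebra ℤ (Module.End ℤ Lam)) (Ψ : A →+* TT) (ξ : TT →+* R)
    (htf : ∀ (n : ℕ) (x : TT), n ≠ 0 → n • x = 0 → x = 0)
    {p : ℕ} (hp : p.Prime) (hpJ : (p : R) ∈ J) :
    ∃ c : ℕ, ∀ (m : ℕ) (P : A), ModEq (p ^ m) (P : Module.End ℤ Lam) 0 →
      ξ (Ψ P) ∈ J ^ (m - c) := by
  obtain ⟨e, he, hsat⟩ := exists_saturation_subalgebra A
  obtain ⟨k, e', he', rfl⟩ := Nat.exists_eq_pow_mul_and_not_dvd he.ne' p hp.ne_one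
  have hu : IsUnit (e' : R) := isUnit_natCast_of_coprime_of_mem J hpJ
    ((Nat.Prime.coprime_iff_not_dvd hp).2 he').symm
  refine ⟨k, fun m P hP => ?_⟩
  rcases le_total k m with hkm | hkm
  · obtain ⟨Q', hQ', hQ⟩ := hsat (p ^ m) P 0 P.2 A.zero_mem hP
    rw [sub_zero] at hQ
    have h1 : (p ^ k * e') • P = (p ^ m) • (⟨Q', hQ'⟩ : A) := Subtype.ext hQ
    have h2 := congrArg Ψ h1
    rw [map_nsmul, map_nsmul] at h2
    have h3 : e' • Ψ P = p ^ (m - k) • Ψ ⟨Q', hQ'⟩ := by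
      have : p ^ k • (e' • Ψ P - p ^ (m - k) • Ψ ⟨Q', hQ'⟩) = 0 := by
        rw [smul_sub, ← mul_smul, ← mul_smul, ← pow_add, Nat.add_sub_cancel' hkm, h2, sub_self]
      exact sub_eq_zero.mp (htf _ _ (pow_ne_zero _ hp.ne_zero) this)
    have h4 := congrArg ξ h3
    rw [map_nsmul, map_nsmul, nsmul_eq_mul, nsmul_eq_mul] at h4
    have h5 : (e' : R) * ξ (Ψ P) ∈ J ^ (m - k) := by
      rw [h4, Nat.cast_pow]
      exact Ideal.mul_mem_right _ _ (Ideal.pow_mem_pow hpJ _)
    obtain ⟨u, hu⟩ := hu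
    have : ξ (Ψ P) = ↑u⁻¹ * ((e' : R) * ξ (Ψ P)) := by
      rw [← hu, ← mul_assoc, Units.inv_mul, one_mul]
    rw [this]
    exact Ideal.mul_mem_left _ _ h5
  · rw [Nat.sub_eq_zero_of_le hkm, pow_zero, Ideal.one_eq_top]
    trivial

end Sat

section OfHecke

variable {G Lam X I : Type*} [Group G] [AddCommGroup Lam] [AddCommGroup X] [DistribMulAction G X]
  [Module.Free ℤ Lam] [Module.Finite ℤ Lam]
variable {TT : Type*} [CommRing TT] {R : Type*} [CommRing R]

/-- The input of the limit step from the comparison `Ψ : A →+* TT` with a torsion free Hecke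
algebra `TT` and an eigenvalue system `ξ : TT →+* R`. -/
noncomputable def TraceLimitInput.ofHecke (Y : TraceSystem G Lam X I) (J : Ideal R)
    [IsAdicComplete J R] (A : Subalgebra ℤ (Module.End ℤ Lam)) (hA : ∀ i : I, Y.TL i ∈ A)
    (Ψ : A →+* TT) (ξ : TT →+* R)
    (htf : ∀ (n : ℕ) (x : TT), n ≠ 0 → n • x = 0 → x = 0)
    (hp : Y.p.Prime) (hpJ : (Y.p : R) ∈ J) (dR : G → R)
    (hdR : ∀ (m : ℕ) (g : G), dR g - ((Y.d m g : ℤ) : R) ∈ J ^ m) : TraceLimitInput Y R J where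
  A := A
  TL_mem := hA
  Φ := ξ.comp Ψ
  c := (exists_sat J A Ψ ξ htf hp hpJ).choose
  sat := (exists_sat J A Ψ ξ htf hp hpJ).choose_spec
  dR := dR
  dR_congr := hdR

@[simp] theorem TraceLimitInput.ofHecke_hecke (Y : TraceSystem G Lam X I) (J : Ideal R)
    [IsAdicComplete J R] (A : Subalgebra ℤ (Module.End ℤ Lam)) (hA : ∀ i : I, Y.TL i ∈ A)
    (Ψ : A →+* TT) (ξ : TT →+* R)
    (htf : ∀ (n : ℕ) (x : TT), n ≠ 0 → n • x = 0 → x = 0)
    (hp : Y.p.Prime) (hpJ : (Y.p : R) ∈ J) (dR : G → R)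
    (hdR : ∀ (m : ℕ) (g : G), dR g - ((Y.d m g : ℤ) : R) ∈ J ^ m) (i : I) :
    (TraceLimitInput.ofHecke Y J A hA Ψ ξ htf hp hpJ dR hdR).hecke i = ξ (Ψ ⟨Y.TL i, hA i⟩) :=
  rfl

@[simp] theorem TraceLimitInput.ofHecke_dR (Y : TraceSystem G Lam X I) (J : Ideal R)
    [IsAdicComplete J R] (A : Subalgebra ℤ (Module.End ℤ Lam)) (hA : ∀ i : I, Y.TL i ∈ A)
    (Ψ : A →+* TT) (ξ : TT →+* R)
    (htf : ∀ (n : ℕ) (x : TT), n ≠ 0 → n • x = 0 → x = 0)
    (hp : Y.p.Prime) (hpJ : (Y.p : R) ∈ J) (dR : G → R)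
    (hdR : ∀ (m : ℕ) (g : G), dR g - ((Y.d m g : ℤ) : R) ∈ J ^ m) :
    (TraceLimitInput.ofHecke Y J A hA Ψ ξ htf hp hpJ dR hdR).dR = dR :=
  rfl

end OfHecke

end Fermat.Agent.Pseudo
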