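import Fermat.Agent.Pseudo.TraceLimit
import Fermat.Agent.Pseudo.TraceGQ
import Fermat.Agent.Pseudo.CycloAdic
import Fermat.Agent.Pseudo.S30OfPseudo
import Fermat.Agent.Pseudo.S31OfPseudo

/-!
# Program T, node (T3), `G_ℚ` layer: the Hecke pseudo-character and the Hecke trace function

The limit step `Pseudo/TraceLimit.lean` at `Y := GQSys.traceSystem N p S X TLam ..` (helper2's
`Pseudo/TraceGQ.lean`), `dR := Cyc.cycR` (helper14's `Pseudo/CycloAdic.lean`),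
`c := complexConjugation`.

Hypothesis bundle (the one of `TraceGQ`): `hpS hNS hFQ hcheb hstab hK`, plus `hUO`
(`UnramifiedOutside`), `Lam` free of finite rank, and the comparison (T1)(a)
`Ψ : A →+* heckeAlgebra N 2 S` on a subalgebra `A ≤ End_ℤ(Lam)` containing all `TLam ℓ`
(`ℓ ∉ S`), with `Ψ (TLam ℓ) = T_ℓ`.

* `exists_trace_GQ` : for every `𝔞`-adically complete ring `R` with `p ∈ 𝔞` and every
  `ξ : heckeAlgebra N 2 S →+* R`, a function `t : G_ℚ → R` with (P1)-(P3) (for `d = cycR`),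
  `t c = 0`, continuity, `t (Frob_ℓ) = ξ (T_ℓ)`, inertia invariance at `q ∤ N p`;
* `heckePseudoChar_of_K` : `Nonempty (HeckePseudoChar p N S 𝒪' χ)` (the input of
  `s30_of_heckePseudoChar`);
* `heckeTraceFunction_of_K` : `Nonempty (HeckeTraceFunction N S T π)` (the input of
  `s31_of_heckeTraceFunction`).
-/

set_option autoImplicit false
set_option linter.style.haveILetI false
set_option linter.unusedSectionVars false

open ModularCurve CuspForm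
open Fermat.Agent.S54.FrobExists

namespace Fermat.Agent.Pseudo.GQLimit

local notation "Qb" => AlgebraicClosure ℚ
local notation "GQ" => (AlgebraicClosure ℚ ≃ₐ[ℚ] AlgebraicClosure ℚ)

open Fermat.Agent.Pseudo.GQSys

/-- A finite `ℤ`-module is finitely generated as an additive group. -/
theorem fg_top_of_moduleFinite (Lam : Type*) [AddCommGroup Lam] [Module.Finite ℤ Lam] :
    (⊤ : AddSubgroup Lam).FG := by
  have h : (⊤ : Submodule ℤ Lam).FG := Module.Finite.fg_top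
  rw [Submodule.fg_iff_addSubgroup_fg] at h
  exact h

section Main

variable {N p : ℕ} [NeZero N] [hp : Fact p.Prime] {S : Finset ℕ}
variable {X : Type*} [AddCommGroup X] [Module HeckeAlg X] [DistribMulAction GQ X]
  [SMulCommClass GQ HeckeAlg X]
variable {Lam : Type*} [AddCommGroup Lam] [Module.Free ℤ Lam] [Module.Finite ℤ Lam]
  {TLam : Nat.Primes → Module.End ℤ Lam}
variable {R : Type*} [CommRing R] (𝔞 : Ideal R) [IsAdicComplete 𝔞 R]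

/-- **The limit trace of `G_ℚ`** with values in an `𝔞`-adically complete ring `R` with `p ∈ 𝔞`,
attached to an eigenvalue system `ξ : heckeAlgebra N 2 S →+* R`. -/
theorem exists_trace_GQ (hpS : p ∈ S) (hNS : ∀ q : ℕ, q.Prime → q ∣ N → q ∈ S)
    (hFQ : FrobeniusQuadratic (K := ℚ) (L := Qb) N p X)
    (hUO : UnramifiedOutside (K := ℚ) (L := Qb) N p X)
    (hcheb : Fermat.Agent.Cheb.ChebExact)
    (hstab : ∀ x : X, ∃ L : IntermediateField ℚ Qb, FiniteDimensional ℚ L ∧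
      ∀ σ : GQ, (∀ a ∈ L, σ a = a) → σ • x = x)
    (hK : ∀ M : ℕ, 0 < M → ∃ rho : Lam →+ X, (∀ lam, rho lam = 0 ↔ ∃ mu, lam = M • mu) ∧
      ∀ (ℓ : Nat.Primes) (lam : Lam), rho (TLam ℓ lam) = heckeGen ℓ • rho lam)
    (A : Subalgebra ℤ (Module.End ℤ Lam)) (hA : ∀ i : Idx S, TLam i.1 ∈ A)
    (Ψ : A →+* heckeAlgebra N 2 (↑S : Set ℕ))
    (hΨ : ∀ (ℓ : ℕ) (hℓ : ℓ.Prime) (hℓN : ¬ ℓ ∣ N) (hℓS : ℓ ∉ (↑S : Set ℕ)),
      Ψ ⟨TLam ⟨ℓ, hℓ⟩, hA ⟨⟨ℓ, hℓ⟩, hℓS⟩⟩ = heckeAlgebra.T hℓ hℓN hℓS)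
    (hp𝔞 : (p : R) ∈ 𝔞) (ξ : heckeAlgebra N 2 (↑S : Set ℕ) →+* R) :
    ∃ t : GQ → R,
      t 1 = 2 ∧ (∀ g h, t (g * h) = t (h * g)) ∧
      (∀ g h, t (g * h) + ((Cyc.cycR 𝔞 hp𝔞 h : Rˣ) : R) * t (g * h⁻¹) = t g * t h) ∧
      t complexConjugation = 0 ∧
      (∀ n : ℕ, ∃ L : IntermediateField ℚ Qb, FiniteDimensional ℚ L ∧
        ∀ g g' : GQ, (∀ x ∈ L, g x = g' x) → t g - t g' ∈ 𝔞 ^ n) ∧
      (∀ (ℓ : ℕ) (hℓ : ℓ.Prime) (hℓN : ¬ ℓ ∣ N) (hℓS : ℓ ∉ (↑S : Set ℕ))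
        (V : ValuationSubring Qb), V.LiesOverPrime ℓ → ∀ σ : GQ, V.IsFrobeniusAt σ ℓ →
          t σ = ξ (heckeAlgebra.T hℓ hℓN hℓS)) ∧
      (∀ q : ℕ, q.Prime → ¬ q ∣ N * p → ∀ P : ValuationSubring Qb, P.LiesOverPrime q →
        ∀ σ ∈ P.inertiaSubgroupIn ℚ, ∀ g : GQ, t (σ * g) = t g) := by
  have hfg := fg_top_of_moduleFinite Lam
  let Y : TraceSystem GQ Lam X (Idx S) :=
    traceSystem N p S X TLam hpS hNS hFQ hcheb hstab hK hfg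
  have htf : ∀ (n : ℕ) (x : heckeAlgebra N 2 (↑S : Set ℕ)), n ≠ 0 → n • x = 0 → x = 0 :=
    fun n x hn hx => nsmul_right_injective hn (by simpa using hx)
  let D : TraceLimitInput Y R 𝔞 :=
    TraceLimitInput.ofHecke Y 𝔞 A hA Ψ ξ htf hp.out hp𝔞
      (fun g => ((Cyc.cycR 𝔞 hp𝔞 g : Rˣ) : R))
      (fun m g => Cyc.cycR_sub_cycloLift_mem 𝔞 hp𝔞 m g)
  refine ⟨D.t, D.t_one, D.t_comm, D.t_mul, ?_, ?_, ?_, ?_⟩
  · exact D.t_conj complexConjugation_mul_self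
      (fun m => Cyclo.cycloLift_complexConjugation (p ^ m))
  · intro n
    obtain ⟨L, hL, h⟩ := exists_finite_of_mem_openSubgroups (Y.level_mem (n + D.c))
    exact ⟨L, hL, fun g g' hgg' => D.t_level n (h g g' hgg')⟩
  · intro ℓ hℓ hℓN hℓS V hV σ hσ
    have hF : Y.FrobAt σ ⟨⟨ℓ, hℓ⟩, hℓS⟩ := ⟨V, hV, hσ⟩
    rw [D.t_frobAt hF]
    show ξ (Ψ ⟨TLam ⟨ℓ, hℓ⟩, hA ⟨⟨ℓ, hℓ⟩, hℓS⟩⟩) = _
    rw [hΨ ℓ hℓ hℓN hℓS]
  · intro q hq hqNp P hP σ hσ g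
    have hqp : ∀ m : ℕ, ¬ q ∣ p ^ m := fun m h =>
      hqNp (Dvd.dvd.mul_left (hq.dvd_of_dvd_pow h) N)
    exact D.t_inertia (fun x hx => hUO q hq hqNp P hP σ hσ x hx)
      (fun m => Cyclo.cycloLift_of_cycloN_eq_one (p ^ m)
        (Cyclo.cycloN_eq_one_of_mem_inertia (p ^ m) hq (hqp m) P hP hσ)) g

end Main

section Packagings

variable {N p : ℕ} [NeZero N] [hp : Fact p.Prime] {S : Finset ℕ}
variable {X : Type*} [AddCommGroup X] [Module HeckeAlg X] [DistribMulAction GQ X]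
  [SMulCommClass GQ HeckeAlg X]
variable {Lam : Type*} [AddCommGroup Lam] [Module.Free ℤ Lam] [Module.Finite ℤ Lam]
  {TLam : Nat.Primes → Module.End ℤ Lam}

/-- **(T3) for S30**: the Hecke pseudo-character attached to `χ : heckeAlgebra N 2 S →+* 𝒪'`. -/
theorem heckePseudoChar_of_K (hpS : p ∈ S) (hNS : ∀ q : ℕ, q.Prime → q ∣ N → q ∈ S)
    (hFQ : FrobeniusQuadratic (K := ℚ) (L := Qb) N p X)
    (hUO : UnramifiedOutside (K := ℚ) (L := Qb) N p X)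
    (hcheb : Fermat.Agent.Cheb.ChebExact)
    (hstab : ∀ x : X, ∃ L : IntermediateField ℚ Qb, FiniteDimensional ℚ L ∧
      ∀ σ : GQ, (∀ a ∈ L, σ a = a) → σ • x = x)
    (hK : ∀ M : ℕ, 0 < M → ∃ rho : Lam →+ X, (∀ lam, rho lam = 0 ↔ ∃ mu, lam = M • mu) ∧
      ∀ (ℓ : Nat.Primes) (lam : Lam), rho (TLam ℓ lam) = heckeGen ℓ • rho lam)
    (A : Subalgebra ℤ (Module.End ℤ Lam)) (hA : ∀ i : Idx S, TLam i.1 ∈ A)
    (Ψ : A →+* heckeAlgebra N 2 (↑S : Set ℕ))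
    (hΨ : ∀ (ℓ : ℕ) (hℓ : ℓ.Prime) (hℓN : ¬ ℓ ∣ N) (hℓS : ℓ ∉ (↑S : Set ℕ)),
      Ψ ⟨TLam ⟨ℓ, hℓ⟩, hA ⟨⟨ℓ, hℓ⟩, hℓS⟩⟩ = heckeAlgebra.T hℓ hℓN hℓS)
    (𝒪' : Type) [CommRing 𝒪'] [IsDomain 𝒪'] [IsDiscreteValuationRing 𝒪']
    [IsAdicComplete (IsLocalRing.maximalIdeal 𝒪') 𝒪']
    (hp𝒪' : (p : 𝒪') ∈ IsLocalRing.maximalIdeal 𝒪')
    (χ : heckeAlgebra N 2 (↑S : Set ℕ) →+* 𝒪') :
    Nonempty (HeckePseudoChar p N S 𝒪' χ) := by
  obtain ⟨t, h1, h2, h3, hc, hcont, hfrob, hin⟩ :=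
    exists_trace_GQ (IsLocalRing.maximalIdeal 𝒪') hpS hNS hFQ hUO hcheb hstab hK A hA Ψ hΨ hp𝒪' χ
  refine ⟨{
    t := t
    d := Cyc.cycR (IsLocalRing.maximalIdeal 𝒪') hp𝒪'
    c := complexConjugation
    P1 := h1
    P2 := h2
    P3 := h3
    c_mul_c := complexConjugation_mul_self
    t_c := hc
    d_c := Cyc.cycR_complexConjugation (IsLocalRing.maximalIdeal 𝒪') hp𝒪'
    cont := hcont
    frob := ?_
    inertia := ?_ }⟩
  · intro ℓ hℓ hℓN hℓS V hV σ hσ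
    refine ⟨hfrob ℓ hℓ hℓN hℓS V hV σ hσ, ?_⟩
    have hℓp : ℓ ≠ p := fun h => hℓS (by rw [h]; exact Finset.mem_coe.mpr hpS)
    exact Cyc.cycR_frobenius (IsLocalRing.maximalIdeal 𝒪') hp𝒪' hℓ hℓp V hV hσ
  · intro q hq hqN hqp P hP σ hσ g
    refine hin q hq ?_ P hP σ hσ g
    intro h
    rcases (Nat.Prime.dvd_mul hq).mp h with h | h
    · exact hqN h
    · exact hqp ((Nat.prime_dvd_prime_iff_eq hq hp.out).mp h)

/-- **(T3) for S31**: the Hecke trace function attached to `π : heckeAlgebra N 2 S →+* T`. -/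
theorem heckeTraceFunction_of_K (hpS : p ∈ S) (hNS : ∀ q : ℕ, q.Prime → q ∣ N → q ∈ S)
    (hFQ : FrobeniusQuadratic (K := ℚ) (L := Qb) N p X)
    (hUO : UnramifiedOutside (K := ℚ) (L := Qb) N p X)
    (hcheb : Fermat.Agent.Cheb.ChebExact)
    (hstab : ∀ x : X, ∃ L : IntermediateField ℚ Qb, FiniteDimensional ℚ L ∧
      ∀ σ : GQ, (∀ a ∈ L, σ a = a) → σ • x = x)
    (hK : ∀ M : ℕ, 0 < M → ∃ rho : Lam →+ X, (∀ lam, rho lam = 0 ↔ ∃ mu, lam = M • mu) ∧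
      ∀ (ℓ : Nat.Primes) (lam : Lam), rho (TLam ℓ lam) = heckeGen ℓ • rho lam)
    (A : Subalgebra ℤ (Module.End ℤ Lam)) (hA : ∀ i : Idx S, TLam i.1 ∈ A)
    (Ψ : A →+* heckeAlgebra N 2 (↑S : Set ℕ))
    (hΨ : ∀ (ℓ : ℕ) (hℓ : ℓ.Prime) (hℓN : ¬ ℓ ∣ N) (hℓS : ℓ ∉ (↑S : Set ℕ)),
      Ψ ⟨TLam ⟨ℓ, hℓ⟩, hA ⟨⟨ℓ, hℓ⟩, hℓS⟩⟩ = heckeAlgebra.T hℓ hℓN hℓS)
    (T : Type) [CommRing T] [IsLocalRing T] [IsAdicComplete (IsLocalRing.maximalIdeal T) T]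
    (hpT : (p : T) ∈ IsLocalRing.maximalIdeal T)
    (π : heckeAlgebra N 2 (↑S : Set ℕ) →+* T) :
    Nonempty (HeckeTraceFunction N S T π) := by
  obtain ⟨t, -, -, -, -, hcont, hfrob, hin⟩ :=
    exists_trace_GQ (IsLocalRing.maximalIdeal T) hpS hNS hFQ hUO hcheb hstab hK A hA Ψ hΨ hpT π
  refine ⟨{
    t := t
    cont := hcont
    frob := hfrob
    inertia := ?_ }⟩
  intro q hq hqS P hP σ hσ g
  refine hin q hq ?_ P hP σ hσ g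
  intro h
  rcases (Nat.Prime.dvd_mul hq).mp h with h | h
  · exact hqS (hNS q hq h)
  · exact hqS (by rw [(Nat.prime_dvd_prime_iff_eq hq hp.out).mp h]; exact hpS)

end Packagings

end Fermat.Agent.Pseudo.GQLimit
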