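import Fermat.Agent.Pseudo.TraceAbstract

/-!
# Program T, node (T2b): the universal trace modulo `p^m`, for all `m` (semi-abstract layer)

`G` a group with a family `Op` of normal subgroups closed under finite intersections ("open normal
subgroups": in the application the fixing subgroups of the finite Galois extensions of `ℚ` inside
`ℚ̄`), acting on an abelian group `X` (`= J₀(N)(ℚ̄)`); `T i` Hecke operators on `X` commuting with
`G`, `i : I` (`=` primes outside `S`), `ell i : ℤ` the prime; `FrobAt φ i` ("`φ` is a Frobenius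
element at `i`").  Hypotheses:

* `es` (Eichler–Shimura, from S37): `FrobAt φ i → φ² - T_i φ + ell i = 0` on `p`-power torsion;
* `cheb` (Chebotarev): `∀ U ∈ Op, ∀ g, ∃ i φ, FrobAt φ i ∧ g⁻¹ φ ∈ U`;
* `stab` (open stabilisers): `∀ x, ∃ U ∈ Op, U` fixes `x`;
* `d m : G → ℤ` lifts of the cyclotomic character modulo `p^m`;
* `rho m : Lam → X` with kernel `p^m Lam`, intertwining `TL i` and `T i` (Program J's `(K)`);
* `Lam` finitely generated.

Output: `idx m : G → I` (`TL (idx m g)` is the "universal trace of `g` modulo `p^m`") with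

* `frobAt_modEq` : `FrobAt φ i → TL i ≡ TL (idx m φ)  mod p^m`;
* `idx_compat` : `m ≤ m' → TL (idx m' g) ≡ TL (idx m g)  mod p^m`;
* `idx_one`, `idx_comm`, `idx_mul`, `idx_conj`, `idx_inertia` : the pseudo-representation identities
  mod `p^m`;
* `idx_congr` : `g⁻¹ g' ∈ level m → TL (idx m g) ≡ TL (idx m g')  mod p^m`, `level m ∈ Op`.
-/

set_option autoImplicit false

namespace Fermat.Agent.Pseudo

/-- The data of the universal trace, all levels `p^m`. -/
structure TraceSystem (G Lam X I : Type*) [Group G] [AddCommGroup Lam] [AddCommGroup X]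
    [DistribMulAction G X] where
  p : ℕ
  /-- the "open normal subgroups" -/
  Op : Set (Subgroup G)
  Op_normal : ∀ U ∈ Op, U.Normal
  Op_inf : ∀ U ∈ Op, ∀ V ∈ Op, U ⊓ V ∈ Op
  T : I → Module.End ℤ X
  TL : I → Module.End ℤ Lam
  ell : I → ℤ
  FrobAt : G → I → Prop
  T_smul : ∀ (i : I) (g : G) (x : X), T i (g • x) = g • T i x
  es : ∀ (i : I) (φ : G), FrobAt φ i → ∀ x : X, (∃ n : ℕ, p ^ n • x = 0) →
    φ • φ • x - T i (φ • x) + ell i • x = 0
  cheb : ∀ U ∈ Op, ∀ g : G, ∃ (i : I) (φ : G), FrobAt φ i ∧ g⁻¹ * φ ∈ U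
  stab : ∀ x : X, ∃ U ∈ Op, ∀ σ ∈ U, σ • x = x
  d : ℕ → G → ℤ
  d_one : ∀ m, ((p ^ m : ℕ) : ℤ) ∣ d m 1 - 1
  d_mul : ∀ m g h, ((p ^ m : ℕ) : ℤ) ∣ d m (g * h) - d m g * d m h
  d_frob : ∀ m i φ, FrobAt φ i → ((p ^ m : ℕ) : ℤ) ∣ d m φ - ell i
  d_open : ∀ m, ∃ U ∈ Op, ∀ σ ∈ U, ((p ^ m : ℕ) : ℤ) ∣ d m σ - 1
  rho : ℕ → Lam →+ X
  ker_rho : ∀ m lam, rho m lam = 0 ↔ ∃ mu, lam = (p ^ m) • mu
  rho_TL : ∀ m i lam, rho m (TL i lam) = T i (rho m lam)
  fg : (⊤ : AddSubgroup Lam).FG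

namespace TraceSystem

variable {G Lam X I : Type*} [Group G] [AddCommGroup Lam] [AddCommGroup X]
  [DistribMulAction G X] (Y : TraceSystem G Lam X I)

/-! ### The levels -/

/-- Finite intersections of members of `Op` contain a member of `Op`. -/
theorem exists_op_le_of_finite {ι : Type*} (s : Finset ι) (hs : s.Nonempty) (U : ι → Subgroup G)
    (hU : ∀ j ∈ s, U j ∈ Y.Op) : ∃ V ∈ Y.Op, ∀ j ∈ s, V ≤ U j := by
  classical
  induction hs using Finset.Nonempty.cons_induction with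
  | singleton a => exact ⟨U a, hU a (Finset.mem_singleton_self a), fun j hj => by
      rw [Finset.mem_singleton.mp hj]⟩
  | cons a s ha hs ih =>
    obtain ⟨V, hV, hVle⟩ := ih (fun j hj => hU j (Finset.mem_cons_of_mem hj))
    refine ⟨U a ⊓ V, Y.Op_inf _ (hU a (Finset.mem_cons_self a s)) _ hV, fun j hj => ?_⟩
    rcases Finset.mem_cons.mp hj with rfl | hj
    · exact inf_le_left
    · exact inf_le_right.trans (hVle j hj)

/-- An open normal subgroup fixing `rho m Lam` pointwise and on which `d m ≡ 1`. -/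
theorem exists_fixer (m : ℕ) : ∃ U ∈ Y.Op, (∀ σ ∈ U, ∀ lam, σ • Y.rho m lam = Y.rho m lam) ∧
    ∀ σ ∈ U, ((Y.p ^ m : ℕ) : ℤ) ∣ Y.d m σ - 1 := by
  classical
  obtain ⟨s, hs⟩ := Y.fg
  obtain ⟨U0, hU0, hU0d⟩ := Y.d_open m
  choose W hW hWfix using fun lam : Lam => Y.stab (Y.rho m lam)
  -- index set: `Option Lam`-like: add the cyclotomic subgroup
  let UU : Option Lam → Subgroup G := fun o => o.elim U0 W
  have hUU : ∀ o ∈ insert none (s.image some), UU o ∈ Y.Op := by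
    intro o _
    cases o with
    | none => exact hU0
    | some lam => exact hW lam
  obtain ⟨V, hV, hVle⟩ := Y.exists_op_le_of_finite (insert none (s.image some))
    (Finset.insert_nonempty _ _) UU hUU
  refine ⟨V, hV, fun σ hσ lam => ?_, fun σ hσ => hU0d σ (hVle none (Finset.mem_insert_self _ _) hσ)⟩
  -- the set of `lam` with `σ • rho lam = rho lam` is a subgroup containing the generators
  have hmem : lam ∈ AddSubgroup.closure (s : Set Lam) := by rw [hs]; trivial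
  induction hmem using AddSubgroup.closure_induction with
  | mem x hx =>
    exact hWfix x σ (hVle (some x) (Finset.mem_insert_of_mem
      (Finset.mem_image_of_mem _ hx)) hσ)
  | zero => rw [map_zero, smul_zero]
  | add x y _ _ hx hy => rw [map_add, smul_add, hx, hy]
  | neg x _ hx => rw [map_neg, smul_neg, hx]

/-- The auxiliary level `m` subgroup. -/
noncomputable def levelAux (m : ℕ) : Subgroup G := (Y.exists_fixer m).choose

theorem levelAux_mem (m : ℕ) : Y.levelAux m ∈ Y.Op := (Y.exists_fixer m).choose_spec.1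

theorem levelAux_fix (m : ℕ) {σ : G} (hσ : σ ∈ Y.levelAux m) (lam : Lam) :
    σ • Y.rho m lam = Y.rho m lam := (Y.exists_fixer m).choose_spec.2.1 σ hσ lam

theorem levelAux_d (m : ℕ) {σ : G} (hσ : σ ∈ Y.levelAux m) :
    ((Y.p ^ m : ℕ) : ℤ) ∣ Y.d m σ - 1 := (Y.exists_fixer m).choose_spec.2.2 σ hσ

/-- The level `m` subgroup: decreasing in `m`. -/
noncomputable def level : ℕ → Subgroup G
  | 0 => Y.levelAux 0
  | m + 1 => level m ⊓ Y.levelAux (m + 1)

theorem level_mem (m : ℕ) : Y.level m ∈ Y.Op := by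
  induction m with
  | zero => exact Y.levelAux_mem 0
  | succ m ih => exact Y.Op_inf _ ih _ (Y.levelAux_mem _)

theorem level_le_levelAux (m : ℕ) : Y.level m ≤ Y.levelAux m := by
  cases m with
  | zero => exact le_rfl
  | succ m => exact inf_le_right

theorem level_succ_le (m : ℕ) : Y.level (m + 1) ≤ Y.level m := inf_le_left

theorem level_anti {m m' : ℕ} (h : m ≤ m') : Y.level m' ≤ Y.level m := by
  induction h with
  | refl => exact le_rfl
  | step _ ih => exact (Y.level_succ_le _).trans ih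

theorem level_normal (m : ℕ) : (Y.level m).Normal := Y.Op_normal _ (Y.level_mem m)

/-- Elements of `level m` fix all `a • rho m lam`. -/
theorem level_fix_gen (m : ℕ) {σ : G} (hσ : σ ∈ Y.level m) (a : G) (lam : Lam) :
    σ • a • Y.rho m lam = a • Y.rho m lam := by
  have hn := Y.level_normal m
  have h1 : a⁻¹ * σ * a ∈ Y.level m := by
    have := hn.conj_mem σ hσ a⁻¹
    rwa [inv_inv] at this
  have h2 := Y.levelAux_fix m (Y.level_le_levelAux m h1) lam
  calc σ • a • Y.rho m lam = a • (a⁻¹ * σ * a) • Y.rho m lam := by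
        rw [← mul_smul, ← mul_smul, mul_assoc, mul_inv_cancel_left]
    _ = a • Y.rho m lam := by rw [h2]

theorem pow_smul_gen (m : ℕ) (a : G) (lam : Lam) : (Y.p ^ m) • a • Y.rho m lam = 0 := by
  rw [smul_comm, ← map_nsmul]
  rw [(Y.ker_rho m _).mpr ⟨lam, rfl⟩, smul_zero]

/-- The basic relation: a Frobenius `φ` at `i` with `g⁻¹ φ ∈ level m` gives the quadratic relation
of `g` on the generators of the span. -/
theorem relation_of_frobAt (m : ℕ) {g φ : G} {i : I} (hF : Y.FrobAt φ i)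
    (hU : g⁻¹ * φ ∈ Y.level m) (a : G) (lam : Lam) :
    g • g • a • Y.rho m lam - Y.T i (g • a • Y.rho m lam) + Y.d m g • a • Y.rho m lam = 0 := by
  have hφ : φ = g * (g⁻¹ * φ) := by rw [mul_inv_cancel_left]
  have hfix : ∀ (b : G), φ • b • Y.rho m lam = g • b • Y.rho m lam := by
    intro b
    rw [hφ, mul_smul, Y.level_fix_gen m hU]
  have h1 := Y.es i φ hF (a • Y.rho m lam) ⟨m, Y.pow_smul_gen m a lam⟩
  have h2 : φ • φ • a • Y.rho m lam = g • g • a • Y.rho m lam := by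
    rw [hfix a, ← mul_smul g a, hfix (g * a), mul_smul]
  rw [h2, hfix a] at h1
  -- `d m g ≡ ell i`
  have hd : ((Y.p ^ m : ℕ) : ℤ) ∣ Y.d m g - Y.ell i := by
    have e1 := Y.d_frob m i φ hF
    have e2 := Y.d_mul m g (g⁻¹ * φ)
    rw [mul_inv_cancel_left] at e2
    have e3 := Y.levelAux_d m (Y.level_le_levelAux m hU)
    have : Y.d m g - Y.ell i =
        (Y.d m φ - Y.ell i) - (Y.d m φ - Y.d m g * Y.d m (g⁻¹ * φ)) -
          Y.d m g * (Y.d m (g⁻¹ * φ) - 1) := by ring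
    rw [this]
    exact dvd_sub (dvd_sub e1 e2) (Dvd.dvd.mul_left e3 _)
  obtain ⟨c, hc⟩ := hd
  have hsm : Y.d m g • a • Y.rho m lam = Y.ell i • a • Y.rho m lam := by
    have : Y.d m g = Y.ell i + c * ((Y.p ^ m : ℕ) : ℤ) := by rw [mul_comm, ← hc]; ring
    rw [this, add_smul, mul_smul, natCast_zsmul, Y.pow_smul_gen, smul_zero, add_zero]
  rw [hsm]
  exact h1

/-- The `TraceData` at level `p^m`. -/
noncomputable def data (m : ℕ) : TraceData G Lam X I where
  M := Y.p ^ m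
  T := Y.T
  TL := Y.TL
  rho := Y.rho m
  d := Y.d m
  T_smul := Y.T_smul
  rho_TL := Y.rho_TL m
  ker_rho := Y.ker_rho m
  d_one := Y.d_one m
  d_mul := Y.d_mul m
  cheb := fun g => by
    obtain ⟨i, φ, hF, hU⟩ := Y.cheb _ (Y.level_mem m) g
    exact ⟨i, fun a lam => Y.relation_of_frobAt m hF hU a lam⟩

@[simp] theorem data_M (m : ℕ) : (Y.data m).M = Y.p ^ m := rfl
@[simp] theorem data_TL (m : ℕ) : (Y.data m).TL = Y.TL := rfl
@[simp] theorem data_d (m : ℕ) : (Y.data m).d = Y.d m := rfl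

theorem isFrobIndex_of_frobAt (m : ℕ) {g φ : G} {i : I} (hF : Y.FrobAt φ i)
    (hU : g⁻¹ * φ ∈ Y.level m) : (Y.data m).IsFrobIndex g i :=
  (Y.data m).isFrobIndex_of_gen fun a lam => Y.relation_of_frobAt m hF hU a lam

/-- Elements of `level m` fix the span pointwise. -/
theorem level_fix_span (m : ℕ) {σ : G} (hσ : σ ∈ Y.level m) {x : X} (hx : x ∈ (Y.data m).span) :
    σ • x = x := by
  refine (Y.data m).span_induction (P := fun x => σ • x = x) ?_ ?_ ?_ ?_ hx
  · rw [smul_zero]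
  · intro y z hy hz; rw [smul_add, hy, hz]
  · intro y hy; rw [smul_neg, hy]
  · intro a lam; exact Y.level_fix_gen m hσ a lam

theorem pow_smul_span (m : ℕ) {x : X} (hx : x ∈ (Y.data m).span) : (Y.p ^ m) • x = 0 :=
  (Y.data m).M_smul_eq_zero hx

/-! ### The universal trace -/

/-- The index of the universal trace of `g` modulo `p^m`: a Frobenius index at level `m`. -/
noncomputable def idx (m : ℕ) (g : G) : I := (Y.cheb _ (Y.level_mem m) g).choose

theorem idx_spec (m : ℕ) (g : G) : ∃ φ, Y.FrobAt φ (Y.idx m g) ∧ g⁻¹ * φ ∈ Y.level m :=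
  (Y.cheb _ (Y.level_mem m) g).choose_spec

theorem isFrobIndex_idx {m m' : ℕ} (h : m ≤ m') (g : G) :
    (Y.data m).IsFrobIndex g (Y.idx m' g) := by
  obtain ⟨φ, hF, hU⟩ := Y.idx_spec m' g
  exact Y.isFrobIndex_of_frobAt m hF (Y.level_anti h hU)

/-- Values at Frobenius elements. -/
theorem frobAt_modEq (m : ℕ) {φ : G} {i : I} (hF : Y.FrobAt φ i) :
    ModEq (Y.p ^ m) (Y.TL i) (Y.TL (Y.idx m φ)) :=
  TraceData.IsFrobIndex.modEq (Y.data m)
    (Y.isFrobIndex_of_frobAt m hF (by rw [inv_mul_cancel]; exact (Y.level m).one_mem))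
    (Y.isFrobIndex_idx le_rfl φ)

/-- Compatibility of the levels. -/
theorem idx_compat {m m' : ℕ} (h : m ≤ m') (g : G) :
    ModEq (Y.p ^ m) (Y.TL (Y.idx m' g)) (Y.TL (Y.idx m g)) :=
  TraceData.IsFrobIndex.modEq (Y.data m) (Y.isFrobIndex_idx h g) (Y.isFrobIndex_idx le_rfl g)

theorem idx_one (m : ℕ) : ModEq (Y.p ^ m) (Y.TL (Y.idx m 1)) 2 :=
  (Y.data m).frob_one (Y.isFrobIndex_idx le_rfl 1)

theorem idx_comm (m : ℕ) (g h : G) :
    ModEq (Y.p ^ m) (Y.TL (Y.idx m (g * h))) (Y.TL (Y.idx m (h * g))) :=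
  (Y.data m).frob_comm (Y.isFrobIndex_idx le_rfl _) (Y.isFrobIndex_idx le_rfl _)

theorem idx_mul (m : ℕ) (g h : G) :
    ModEq (Y.p ^ m) (Y.TL (Y.idx m (g * h)) + Y.d m h • Y.TL (Y.idx m (g * h⁻¹)))
      (Y.TL (Y.idx m g) * Y.TL (Y.idx m h)) :=
  (Y.data m).frob_mul (Y.isFrobIndex_idx le_rfl _) (Y.isFrobIndex_idx le_rfl _)
    (Y.isFrobIndex_idx le_rfl _) (Y.isFrobIndex_idx le_rfl _)

theorem idx_conj (m : ℕ) {c : G} (hc : c * c = 1) (hdc : ((Y.p ^ m : ℕ) : ℤ) ∣ Y.d m c + 1) :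
    ModEq (Y.p ^ m) (Y.TL (Y.idx m c)) 0 :=
  (Y.data m).frob_conj (Y.isFrobIndex_idx le_rfl c) hc hdc

/-- Invariance under elements acting trivially on `p`-power torsion (inertia at `q ∤ Np`). -/
theorem idx_inertia (m : ℕ) {s : G} (hs : ∀ x : X, (∃ n : ℕ, Y.p ^ n • x = 0) → s • x = x)
    (hds : ((Y.p ^ m : ℕ) : ℤ) ∣ Y.d m s - 1) (g : G) :
    ModEq (Y.p ^ m) (Y.TL (Y.idx m (s * g))) (Y.TL (Y.idx m g)) :=
  (Y.data m).frob_inertia (Y.isFrobIndex_idx le_rfl _) (Y.isFrobIndex_idx le_rfl _)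
    (fun y hy => hs y ⟨m, Y.pow_smul_span m hy⟩) hds

/-- Continuity: the universal trace modulo `p^m` factors through `G ⧸ level m`. -/
theorem idx_congr (m : ℕ) {g g' : G} (h : g⁻¹ * g' ∈ Y.level m) :
    ModEq (Y.p ^ m) (Y.TL (Y.idx m g)) (Y.TL (Y.idx m g')) := by
  have hg' : g' = g * (g⁻¹ * g') := by rw [mul_inv_cancel_left]
  refine (Y.data m).frob_congr (Y.isFrobIndex_idx le_rfl _) (Y.isFrobIndex_idx le_rfl _) ?_ ?_
  · intro y hy
    rw [hg', mul_smul, Y.level_fix_span m h hy]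
  · have e2 := Y.d_mul m g (g⁻¹ * g')
    rw [mul_inv_cancel_left] at e2
    have e3 := Y.levelAux_d m (Y.level_le_levelAux m h)
    have : Y.d m g - Y.d m g' =
        -((Y.d m g' - Y.d m g * Y.d m (g⁻¹ * g')) + Y.d m g * (Y.d m (g⁻¹ * g') - 1)) := by ring
    change ((Y.p ^ m : ℕ) : ℤ) ∣ Y.d m g - Y.d m g'
    rw [this]
    exact (dvd_neg).mpr (dvd_add e2 (Dvd.dvd.mul_left e3 _))

end TraceSystem

end Fermat.Agent.Pseudo
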